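import Fermat.Agent.RED.Values

/-!
# Coordinates in the full modular function field

Over any field in which `M` is invertible, the powers of `j(q^M)` below `ψ(M)` are independent over
`k[j]` and span the full field of level `M` up to a denominator in `k[j]`. Used by the models of
the modular curves in `RED/Model` and by `RED/Congruence/Frobenius`.
-/

set_option autoImplicit false

attribute [local instance 10000] SubalgebraClass.toAlgebra HahnSeries.powerSeriesAlgebra

noncomputable section

open ModularCurve Polynomial

namespace Fermat.RED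

/-- Maps of coefficients commute with polynomials in `j`. -/
theorem coeffMap_aeval_jqModC {k K : Type*} [Field k] [Field K] (f : k →+* K) (G : k[X]) :
    coeffMap f (aeval (jqModC k) G) = aeval (jqModC K) (G.map f) := by
  rw [aeval_def, aeval_def, hom_eval₂, eval₂_map, coeffMap_jqModC]
  congr 1
  refine RingHom.ext fun a => ?_
  simp only [RingHom.comp_apply, algebraMap_laurentSeries_eq_single, coeffMap_single]

/-- Maps of coefficients preserve the full function field. -/
theorem coeffMap_mem_full {k K : Type*} [Field k] [Field K] (f : k →+* K) {M : ℕ}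
    {x : LaurentSeries k} (hx : x ∈ modularFunctionFieldFullC k M) :
    coeffMap f x ∈ modularFunctionFieldFullC K M := by
  induction hx using IntermediateField.adjoin_induction with
  | mem y hy =>
    obtain ⟨d, hne, hd, rfl⟩ := hy
    have := hne
    rw [ModularCurve.coeffMap_qExpand, coeffMap_jqModC]
    exact jqModCd_mem_full K M hd
  | algebraMap a =>
    rw [algebraMap_laurentSeries_eq_single, coeffMap_single, ← algebraMap_laurentSeries_eq_single]
    exact IntermediateField.algebraMap_mem _ _
  | add y z _ _ h1 h2 => rw [map_add]; exact add_mem h1 h2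
  | inv y _ h1 => rw [map_inv₀]; exact inv_mem h1
  | mul y z _ _ h1 h2 => rw [map_mul]; exact mul_mem h1 h2

section Generic

variable {J F : Type*} [Field J] [Field F] [Algebra J F]

/-- A generator of degree `d` gives coordinates in its powers below `d`. -/
theorem exists_sum_of_adjoin_eq_top {d : ℕ} {y : F} (hy : IsIntegral J y)
    (hd : (minpoly J y).natDegree = d) (htop : IntermediateField.adjoin J {y} = ⊤) (f : F) :
    ∃ c : Fin d → J, f = ∑ i, algebraMap J F (c i) * y ^ (i : ℕ) := by
  obtain ⟨p, hp⟩ : ∃ p : J[X], aeval y p = f := by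
    have : f ∈ (IntermediateField.adjoin J {y}).toSubalgebra := by
      rw [htop]; exact IntermediateField.mem_top
    rw [IntermediateField.adjoin_simple_toSubalgebra_of_isAlgebraic hy.isAlgebraic,
      Algebra.adjoin_singleton_eq_range_aeval] at this
    exact this
  refine ⟨fun i => (p %ₘ minpoly J y).coeff i, ?_⟩
  have hlt : (p %ₘ minpoly J y).natDegree < d :=
    hd ▸ natDegree_modByMonic_lt _ (minpoly.monic hy) (minpoly.ne_one J y)
  rw [← hp, ← aeval_modByMonic_eq_self_of_root (minpoly.aeval J y), aeval_def,
    eval₂_eq_sum_range' _ hlt, Finset.sum_range]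

/-- Powers below the degree of an element are independent. -/
theorem eq_zero_of_sum_pow_eq_zero {d : ℕ} {y : F}
    (hd : (minpoly J y).natDegree = d) {c : Fin d → J}
    (h : ∑ i, algebraMap J F (c i) * y ^ (i : ℕ) = 0) : c = 0 := by
  subst hd
  have := (linearIndependent_pow (K := J) y)
  rw [Fintype.linearIndependent_iff] at this
  funext i
  exact this c (by simpa [Algebra.smul_def] using h) i

end Generic

variable {k : Type*} [Field k] {M : ℕ} [NeZero M]

/-- The powers of `j (q ^ M)` below `ψ(M)` are independent over `k[j]`. -/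
theorem eq_zero_of_sum_jb_eq_zero_of_isAlgClosed [IsAlgClosed k] (hM : (M : k) ≠ 0)
    {G : Fin (dedekindPsi M) → k[X]}
    (h : ∑ i, aeval (jqModC k) (G i) * jb k 1 M ^ (i : ℕ) = 0) : G = 0 := by
  set c : Fin (dedekindPsi M) → jField k := fun i =>
    ⟨aeval (jqModC k) (G i), by
      rw [jField]
      exact IntermediateField.algebra_adjoin_le_adjoin k _
        (Polynomial.aeval_mem_adjoin_singleton k _)⟩
  have h' : ∑ i, algebraMap (jField k) (levelField k M) (c i) * jE k M M dvd_rfl ^ (i : ℕ) = 0 := by
    apply (levelField k M).val.toRingHom.injective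
    simp only [map_sum, map_mul, map_pow, map_zero]
    exact h
  have hdeg := natDegree_minpoly_jE (k := k) (M := M) hM
  have h0 := eq_zero_of_sum_pow_eq_zero (J := jField k) (F := levelField k M)
    (y := jE k M M dvd_rfl) hdeg h'
  funext i
  have := congrArg Subtype.val (congrFun h0 i)
  exact transcendental_iff.mp transcendental_jqModC _ this

/-- The powers of `j (q ^ M)` below `ψ(M)` span the field of level `M` up to a denominator in
`k[j]`. -/
theorem exists_sum_jb_of_isAlgClosed [IsAlgClosed k] (hM : (M : k) ≠ 0) {f : LaurentSeries k}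
    (hf : f ∈ modularFunctionFieldFullC k M) :
    ∃ D : k[X], D ≠ 0 ∧ ∃ G : Fin (dedekindPsi M) → k[X],
      aeval (jqModC k) D * f = ∑ i, aeval (jqModC k) (G i) * jb k 1 M ^ (i : ℕ) := by
  classical
  rw [← levelField_restrictScalars k M, IntermediateField.mem_restrictScalars] at hf
  have hdeg := natDegree_minpoly_jE (k := k) (M := M) hM
  obtain ⟨c, hc⟩ := exists_sum_of_adjoin_eq_top (J := jField k) (F := levelField k M)
    (y := jE k M M dvd_rfl) (isIntegral_of_finrank_pos _
    (finrank_levelField (k := k) M hM ▸ dedekindPsi_pos (NeZero.ne M)) _)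
    hdeg (adjoin_jE_eq_top hM) (⟨f, hf⟩ : levelField k M)
  choose r s hrs using fun i => (IntermediateField.mem_adjoin_simple_iff k
    (c i : LaurentSeries k)).mp (c i).2
  set s' : Fin (dedekindPsi M) → k[X] := fun i => if s i = 0 then 1 else s i
  set r' : Fin (dedekindPsi M) → k[X] := fun i => if s i = 0 then 0 else r i
  have hs' : ∀ i, s' i ≠ 0 := fun i => by
    simp only [s']; split <;> [exact one_ne_zero; assumption]
  have hrs' : ∀ i, aeval (jqModC k) (s' i) * (c i : LaurentSeries k) = aeval (jqModC k) (r' i) := by
    intro i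
    simp only [s', r']
    split
    · rename_i h0
      rw [hrs i, h0, map_zero, div_zero, mul_zero]
    · rename_i h0
      rw [hrs i, mul_div_cancel₀ _ fun h => h0 (transcendental_iff.mp transcendental_jqModC _ h)]
  refine ⟨∏ i, s' i, Finset.prod_ne_zero_iff.mpr fun i _ => hs' i,
    fun i => (∏ l ∈ Finset.univ.erase i, s' l) * r' i, ?_⟩
  have hf' : f = ∑ i, (c i : LaurentSeries k) * jb k 1 M ^ (i : ℕ) := by
    have h := congrArg (levelField k M).val hc
    simp only [map_sum, map_mul, map_pow] at h
    exact h
  rw [hf', Finset.mul_sum]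
  refine Finset.sum_congr rfl fun i _ => ?_
  rw [← Finset.mul_prod_erase _ s' (Finset.mem_univ i), map_mul, map_mul, ← hrs' i]
  ring

/-- The powers of `j(q^M)` below `ψ(M)` are independent over `k[j]`. -/
theorem eq_zero_of_sum_jb_eq_zero (hM : (M : k) ≠ 0) {G : Fin (dedekindPsi M) → k[X]}
    (h : ∑ i, aeval (jqModC k) (G i) * jb k 1 M ^ (i : ℕ) = 0) : G = 0 := by
  set f := algebraMap k (AlgebraicClosure k)
  have hM' : (M : AlgebraicClosure k) ≠ 0 := by
    rw [← map_natCast f]; exact (_root_.map_ne_zero f).mpr hM
  have h' := congrArg (coeffMap f) h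
  simp only [map_sum, map_mul, map_pow, map_zero, coeffMap_aeval_jqModC, coeffMap_jb_one] at h'
  have := eq_zero_of_sum_jb_eq_zero_of_isAlgClosed hM' h'
  funext i
  exact Polynomial.map_injective f f.injective (by simpa using congrFun this i)

/-- Every element of the full level field is a combination of the powers of `j(q^M)`. -/
theorem exists_sum_jb (hM : (M : k) ≠ 0) {f : LaurentSeries k}
    (hf : f ∈ modularFunctionFieldFullC k M) :
    ∃ D : k[X], D ≠ 0 ∧ ∃ G : Fin (dedekindPsi M) → k[X],
      aeval (jqModC k) D * f = ∑ i, aeval (jqModC k) (G i) * jb k 1 M ^ (i : ℕ) := by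
  classical
  set K := AlgebraicClosure k
  set φ := algebraMap k K
  have hM' : (M : K) ≠ 0 := by
    rw [← map_natCast φ]; exact (_root_.map_ne_zero φ).mpr hM
  -- a relation over the algebraic closure is linear, so one exists over `k`
  obtain ⟨D, hD, G, e⟩ := exists_sum_jb_of_isAlgClosed hM' (coeffMap_mem_full φ hf)
  set n := max D.natDegree (Finset.univ.sup fun i => (G i).natDegree) + 1
  set v : Option (Fin (dedekindPsi M)) × Fin n → LaurentSeries k := fun p =>
    jqModC k ^ (p.2 : ℕ) * p.1.elim f fun i => -(jb k 1 M ^ (i : ℕ))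
  have hsum : ∀ {k' : Type _} [Field k'] (P : k'[X]), P.natDegree < n →
      aeval (jqModC k') P = ∑ m : Fin n, algebraMap k' _ (P.coeff m) * jqModC k' ^ (m : ℕ) := by
    intro k' _ P hP
    rw [aeval_def, eval₂_eq_sum_range' _ hP, Finset.sum_range]
  have hdep : ¬ LinearIndependent k v := fun hv => by
    have hv' := linearIndependent_coeffMap (K := K) hv
    rw [Fintype.linearIndependent_iff] at hv'
    have := hv' (fun p => (p.1.elim D G).coeff p.2) ?_
    · obtain ⟨m, hm⟩ := Polynomial.support_nonempty.mpr hD
      have hlt : m < n := (le_natDegree_of_mem_supp m hm).trans_lt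
        (Nat.lt_succ_of_le (le_max_left _ _))
      exact Polynomial.mem_support_iff.mp hm (this (none, ⟨m, hlt⟩))
    · rw [Fintype.sum_prod_type, Fintype.sum_option]
      simp only [v, Option.elim, map_mul, map_pow, map_neg, coeffMap_jqModC, coeffMap_jb_one,
        laurent_smul_def, mul_neg, Finset.sum_neg_distrib, ← mul_assoc, ← Finset.sum_mul]
      rw [add_neg_eq_zero]
      refine ((congrArg (· * coeffMap φ f)
        (hsum D (Nat.lt_succ_of_le (le_max_left _ _)))).symm.trans e).trans ?_
      refine Finset.sum_congr rfl fun i _ => ?_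
      rw [← hsum (G i) (Nat.lt_succ_of_le ((Finset.le_sup (f := fun i => (G i).natDegree)
        (Finset.mem_univ i)).trans (le_max_right _ _)))]
  obtain ⟨g, hg, p, hp⟩ := Fintype.not_linearIndependent_iff.mp hdep
  set P : Option (Fin (dedekindPsi M)) → k[X] := fun o =>
    ∑ m : Fin n, Polynomial.C (g (o, m)) * X ^ (m : ℕ)
  have hP : ∀ o, aeval (jqModC k) (P o)
      = ∑ m : Fin n, algebraMap k _ (g (o, m)) * jqModC k ^ (m : ℕ) := fun o => by simp [P]
  rw [Fintype.sum_prod_type, Fintype.sum_option] at hg
  simp only [v, Option.elim, laurent_smul_def, mul_neg, Finset.sum_neg_distrib, ← mul_assoc,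
    ← Finset.sum_mul, ← hP] at hg
  rw [add_neg_eq_zero] at hg
  refine ⟨P none, fun h0 => hp ?_, fun i => P (some i), hg⟩
  have hall : ∀ o, P o = 0 := by
    rw [h0, map_zero, zero_mul] at hg
    rintro (_ | i)
    · exact h0
    · exact congrFun (eq_zero_of_sum_jb_eq_zero hM hg.symm) i
  have := congrArg (fun Q => Polynomial.coeff Q (p.2 : ℕ)) (hall p.1)
  simp only [P, finsetSum_coeff, coeff_C_mul, coeff_X_pow, Polynomial.coeff_zero, mul_ite,
    mul_one, mul_zero, Fin.val_inj, Finset.sum_ite_eq, Finset.mem_univ, if_true] at this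
  exact this

end Fermat.RED
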