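import Fermat.Agent.RED.ModPoly

/-!
# The field `k(j)` inside Laurent series

`k(j)` as a field of Laurent series over any field `k`: transcendence of `j`, orders of polynomials
in `j`, integral closedness of `k[j]` in it, and `j(q^p) ∉ k(j)` when `p` is invertible in `k`:
otherwise `p¹² Δ(pτ)/Δ(τ)` would be a unit of `k[j]`, hence constant. This is the ground field of
the level fields in `RED/Branch` and of the models of the modular curves.
-/

set_option autoImplicit false

noncomputable section

open ModularCurve Polynomial IntermediateField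

namespace Fermat.RED

variable (k : Type*) [Field k]

/-- The field `k(j)`. -/
def jField : IntermediateField k (LaurentSeries k) :=
  IntermediateField.adjoin k {jqModC k}

/-- `j ∈ k(j)`. -/
theorem jqModC_mem_jField : jqModC k ∈ jField k := IntermediateField.mem_adjoin_simple_self k _

variable {k}

/-- The coefficients of a constant multiple. -/
theorem coeff_algebraMap_mul (a : k) (f : LaurentSeries k) (n : ℤ) :
    (algebraMap k (LaurentSeries k) a * f).coeff n = a * f.coeff n := by
  rw [algebraMap_laurentSeries_eq_single, HahnSeries.coeff_single_mul, sub_zero]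

/-- A polynomial in `j` has no terms below minus its degree. -/
theorem coeff_aeval_jqModC_of_lt {g : k[X]} {m : ℤ} (hm : m < -(g.natDegree : ℤ)) :
    (aeval (jqModC k) g).coeff m = 0 := by
  rw [aeval_eq_sum_range, HahnSeries.coeff_sum]
  refine Finset.sum_eq_zero fun i hi => ?_
  rw [Algebra.smul_def, coeff_algebraMap_mul, coeff_jqModC_pow_of_lt k (b := i) (by
    have := Finset.mem_range.mp hi; omega), mul_zero]

/-- The polar coefficient of a polynomial in `j`. -/
theorem coeff_aeval_jqModC (g : k[X]) :
    (aeval (jqModC k) g).coeff (-(g.natDegree : ℤ)) = g.leadingCoeff := by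
  rw [aeval_eq_sum_range, HahnSeries.coeff_sum, Finset.sum_range_succ,
    Finset.sum_eq_zero fun i hi => by
      rw [Algebra.smul_def, coeff_algebraMap_mul, coeff_jqModC_pow_of_lt k (b := i) (by
        have := Finset.mem_range.mp hi; omega), mul_zero],
    zero_add, Algebra.smul_def, coeff_algebraMap_mul, coeff_jqModC_pow_self, mul_one]
  rfl

/-- Nonzero polynomials in `j` are nonzero. -/
theorem aeval_jqModC_ne_zero {g : k[X]} (hg : g ≠ 0) : aeval (jqModC k) g ≠ 0 := fun h => by
  have := coeff_aeval_jqModC g
  rw [h, HahnSeries.coeff_zero] at this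
  exact hg (leadingCoeff_eq_zero.mp this.symm)

/-- `j` is transcendental. -/
theorem transcendental_jqModC : Transcendental k (jqModC k) :=
  transcendental_iff.mpr fun _ hg => by_contra fun h => aeval_jqModC_ne_zero h hg

/-- The order of a polynomial in `j` is minus its degree. -/
theorem order_aeval_jqModC {g : k[X]} (hg : g ≠ 0) :
    (aeval (jqModC k) g).order = -(g.natDegree : ℤ) := by
  refine le_antisymm (HahnSeries.order_le_of_coeff_ne_zero ?_) ?_
  · rw [coeff_aeval_jqModC]; exact leadingCoeff_ne_zero.mpr hg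
  · by_contra h
    push Not at h
    exact aeval_jqModC_ne_zero hg
      (HahnSeries.coeff_order_eq_zero.mp (coeff_aeval_jqModC_of_lt h))

/-- An element of `k(j)` satisfying a monic equation over `k[j]` lies in `k[j]`. -/
theorem exists_eq_aeval_of_monic {v : LaurentSeries k} (hv : v ∈ jField k)
    (P : (k[X])[X]) (hP : P.Monic)
    (h0 : P.eval₂ (aeval (jqModC k)).toRingHom v = 0) : ∃ g : k[X], v = aeval (jqModC k) g := by
  unfold jField at hv
  set e := RatFunc.algEquivOfTranscendental (jqModC k) transcendental_jqModC with he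
  obtain ⟨r, hr⟩ := e.surjective ⟨v, hv⟩
  set F : RatFunc k →+* LaurentSeries k :=
    (k⟮jqModC k⟯).val.toRingHom.comp e.toAlgHom.toRingHom with hF
  have hFr : F r = v := by rw [hF]; exact congrArg Subtype.val hr
  have hcomp : F.comp (algebraMap k[X] (RatFunc k)) = (aeval (jqModC k)).toRingHom := by
    refine RingHom.ext fun g => ?_
    rw [RingHom.comp_apply, hF]
    simp only [RingHom.comp_apply, AlgHom.toRingHom_eq_coe,
      RingHom.coe_coe, IntermediateField.coe_val]
    rw [he]
    simp
  have hint : IsIntegral k[X] r := by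
    refine ⟨P, hP, F.injective ?_⟩
    rw [map_zero, hom_eval₂, hcomp, hFr, h0]
  obtain ⟨g, hg⟩ := IsIntegrallyClosed.isIntegral_iff.mp hint
  refine ⟨g, ?_⟩
  rw [← hFr, ← hg, ← RingHom.comp_apply, hcomp]
  rfl

/-- A root of a polynomial with unit constant term is a unit. -/
theorem isUnit_of_eval_eq_zero {R : Type*} [CommRing R] {P : R[X]} {g : R} (hroot : P.eval g = 0)
    (h : IsUnit (P.coeff 0)) : IsUnit g := by
  refine isUnit_of_dvd_unit ?_ h
  rw [eval_eq_sum_range, Finset.sum_range_succ', pow_zero, mul_one] at hroot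
  rw [eq_neg_of_add_eq_zero_right hroot]
  exact (Finset.dvd_sum fun i _ => ⟨P.coeff (i + 1) * g ^ i, by ring⟩).neg_right

/-- Integral polynomials in `j` and an element of `k(j)` have values in `k(j)`. -/
theorem eval_map_evalAt_mem {x : LaurentSeries k} (hmem : x ∈ jField k)
    (P : Polynomial (Polynomial ℤ)) : (P.map (evalAt k (jqModC k))).eval x ∈ jField k := by
  rw [eval_map, eval₂_eq_sum, Polynomial.sum]
  refine sum_mem fun i _ => mul_mem ?_ (pow_mem hmem i)
  simp only [evalAt, coe_eval₂RingHom]
  rw [eval₂_eq_sum, Polynomial.sum]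
  exact sum_mem fun a _ =>
    mul_mem (IntCast.intCast (R := jField k) _).2 (pow_mem (jqModC_mem_jField k) a)

/-- `j(q^p)` does not lie in `k(j)`. -/
theorem jb_prime_not_mem_jField {p : ℕ} [NeZero p] (hp : p.Prime) (D : LevelOneData p) {ζ : kˣ}
    (hζ : IsPrimitiveRoot ζ p) (hpk : (p : k) ≠ 0) : jb k 1 p ∉ jField k := by
  intro hmem
  have : NeZero (p * p) := ⟨Nat.mul_ne_zero (NeZero.ne p) (NeZero.ne p)⟩
  set L := LaurentSeries k
  have hid := D.identities_of_isPrimitiveRoot hζ
  set v : L := (p : L) ^ 12 * qExpand k p (deltaSeries k) * deltaSeriesInv k with hv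
  have hu : uRoot k p ζ none = qExpand k p v := by
    simp only [uRoot, hv, map_mul, map_pow, map_natCast, qExpand_qExpand]
  have hy : yRoot k p ζ none = qExpand k p (jb k 1 p) := by
    simp only [yRoot, qExpand_jb]
  have hj : qExpand k p (jqModC k) = jb k 1 p := (jb_one p).symm
  have hcomp : (qExpand k p).comp (evalAt k (jqModC k)) = evalAt k (jb k 1 p) := by
    refine Polynomial.ringHom_ext' (RingHom.ext_int _ _) ?_
    simp [evalAt, hj]
  classical
  set Q : L := ∏ m ∈ Finset.univ.erase (none : Option (Fin p)),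
    (yRoot k p ζ none - yRoot k p ζ m)
  have hQ : Q ≠ 0 := by
    refine Finset.prod_ne_zero_iff.mpr fun m hm => sub_ne_zero.mpr fun h => ?_
    cases m with
    | none => exact (Finset.mem_erase.mp hm).1 rfl
    | some b =>
      have := (jb_inj (k := k) h).2
      have := hp.one_lt
      nlinarith
  -- `v` is a quotient of polynomials in `j` and `j(q^p)`
  have hΦ : qExpand k p ((D.Φ.map (evalAt k (jqModC k))).derivative.eval (jb k 1 p)) = Q := by
    rw [← eval₂_at_apply, ← eval_map, ← derivative_map, Polynomial.map_map, hcomp, hid.eq_modular,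
      ← hy, derivative_prod_finset, eval_finsetSum, Finset.sum_eq_single (none : Option (Fin p))]
    · simp [eval_prod, Q]
    · intro m _ hm
      rw [eval_mul, eval_prod,
        Finset.prod_eq_zero (Finset.mem_erase.mpr ⟨hm.symm, Finset.mem_univ _⟩) (by simp),
        zero_mul]
    · exact fun h => absurd (Finset.mem_univ _) h
  have hG : qExpand k p ((D.G.map (evalAt k (jqModC k))).eval (jb k 1 p))
      = qExpand k p v * Q := by
    rw [← eval₂_at_apply, ← eval_map, Polynomial.map_map, hcomp, hid.eq_interp, ← hy,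
      eval_finsetSum, Finset.sum_eq_single (none : Option (Fin p))]
    · simp [eval_prod, Q, hu]
    · intro m _ hm
      rw [eval_mul, eval_prod,
        Finset.prod_eq_zero (Finset.mem_erase.mpr ⟨hm.symm, Finset.mem_univ _⟩) (by simp),
        mul_zero]
    · exact fun h => absurd (Finset.mem_univ _) h
  have hne : (D.Φ.map (evalAt k (jqModC k))).derivative.eval (jb k 1 p) ≠ 0 := fun h => by
    rw [h, map_zero] at hΦ
    exact hQ hΦ.symm
  have hdiv : (D.G.map (evalAt k (jqModC k))).eval (jb k 1 p)
      = v * (D.Φ.map (evalAt k (jqModC k))).derivative.eval (jb k 1 p) := by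
    apply qExpand_injective p
    rw [map_mul, hG, hΦ]
  have hvJ : v ∈ jField k := by
    have : v = (D.G.map (evalAt k (jqModC k))).eval (jb k 1 p)
        / (D.Φ.map (evalAt k (jqModC k))).derivative.eval (jb k 1 p) := by
      rw [hdiv, mul_div_cancel_right₀ _ hne]
    rw [this, derivative_map]
    exact div_mem (eval_map_evalAt_mem hmem _) (eval_map_evalAt_mem hmem _)
  -- `v` is a root of `Ψ(j, Y)`
  have hΨ : (D.Ψ.map (evalAt k (jqModC k))).eval v = 0 := by
    apply qExpand_injective p
    rw [map_zero, ← eval₂_at_apply, ← eval_map, Polynomial.map_map, hcomp, hid.eq_unit, eval_prod]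
    exact Finset.prod_eq_zero (Finset.mem_univ none) (by simp [hu])
  set P : (k[X])[X] := D.Ψ.map (Polynomial.mapRingHom (Int.castRingHom k)) with hP
  have hPv : P.eval₂ (aeval (jqModC k)).toRingHom v = 0 := by
    have hc : (aeval (jqModC k)).toRingHom.comp (Polynomial.mapRingHom (Int.castRingHom k))
        = evalAt k (jqModC k) := by
      refine Polynomial.ringHom_ext' (RingHom.ext_int _ _) ?_
      simp [evalAt]
    rw [← hΨ, hP, eval₂_map, hc, eval_map]
  obtain ⟨g, hg⟩ := exists_eq_aeval_of_monic hvJ P (D.monic_Ψ.map _) hPv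
  -- `g` is a unit of `k[X]`
  have hroot : P.eval g = 0 := by
    by_contra h
    refine aeval_jqModC_ne_zero h ?_
    rw [← hPv, hg]
    exact (eval₂_at_apply (p := P) (aeval (jqModC k)).toRingHom g).symm
  obtain ⟨c, hc, hc0⟩ := D.constant_Ψ
  have hunit : IsUnit g := by
    have hP0 : P.coeff 0 = C (c : k) := by simp [hP, hc0]
    have hck : (c : k) ≠ 0 := by
      intro h
      have h2 : ((c.natAbs : ℕ) : k) = 0 := by
        rcases Int.natAbs_eq c with h' | h' <;> rw [h'] at h <;> simpa using h
      rw [hc, Nat.cast_pow] at h2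
      exact hpk (pow_eq_zero_iff (n := 12) (by norm_num) |>.mp h2)
    exact isUnit_of_eval_eq_zero hroot (hP0 ▸ isUnit_C.mpr hck.isUnit)
  obtain ⟨a, ha, rfl⟩ := Polynomial.isUnit_iff.mp hunit
  rw [aeval_C] at hg
  have h1 : (p : L) ^ 12 * qExpand k p (deltaSeries k) = algebraMap k L a * deltaSeries k := by
    rw [← hg, hv, mul_assoc, mul_comm (deltaSeriesInv k), deltaSeries_mul_inv, mul_one]
  have hd1 : (deltaSeries k).coeff 1 = 1 := by
    rw [deltaSeries, HahnSeries.coeff_single_mul, one_mul,
      show (1 : ℤ) - 1 = ((0 : ℕ) : ℤ) by norm_num,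
      HahnSeries.ofPowerSeries_apply_coeff, PowerSeries.coeff_map,
      PowerSeries.coeff_zero_eq_constantCoeff, constantCoeff_dedekindEtaUnit, map_one]
  have h2 := congrArg (fun z => HahnSeries.coeff z 1) h1
  rw [show (p : L) ^ 12 = algebraMap k L ((p : k) ^ 12) by simp, coeff_algebraMap_mul,
    coeff_algebraMap_mul, hd1,
    qExpand_coeff_of_not_dvd p _ (by exact_mod_cast hp.not_dvd_one), mul_zero, mul_one] at h2
  exact ha.ne_zero h2.symm

end Fermat.RED
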