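import Fermat.Agent.RED.UnitArg

/-!
# Symmetric functions of the branches have integral coefficients

The polynomials with the branches of `j(pτ)` and of `p¹² Δ(pτ)/Δ(τ)` as roots, and an interpolation
polynomial between them, are fixed by `ζ ↦ ζᵃ`; so their coefficients are series with integral
coefficients. Used by `RED/LevelOne` to construct the level one data.
-/

set_option autoImplicit false

noncomputable section

open ModularCurve Polynomial

namespace Fermat.RED

/-- A polynomial in `j` with integral coefficients in `q` has integral coefficients. -/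
theorem exists_int_poly_of_aeval_jqModC {g : ℂ[X]}
    (h : ∀ n : ℤ, ∃ z : ℤ, (aeval (jqModC ℂ) g).coeff n = z) :
    ∃ g' : ℤ[X], g'.map (Int.castRingHom ℂ) = g := by
  induction hd : g.natDegree using Nat.strong_induction_on generalizing g with
  | _ d ih =>
    subst hd
    obtain ⟨z, hz⟩ := h (-(g.natDegree : ℤ))
    rw [coeff_aeval_jqModC] at hz
    by_cases hd0 : g.natDegree = 0
    · refine ⟨C z, ?_⟩
      rw [Polynomial.map_C, eq_C_of_natDegree_eq_zero hd0]
      congr 1
      simpa [leadingCoeff, hd0] using hz.symm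
    · have hint : ∀ n : ℤ, ∃ w : ℤ, (aeval (jqModC ℂ) g.eraseLead).coeff n = w := by
        intro n
        obtain ⟨w, hw⟩ := h n
        obtain ⟨c, hc⟩ : ∃ c : ℤ, (jqModC ℂ ^ g.natDegree).coeff n = c :=
          ⟨((jqModC ℤ) ^ g.natDegree).coeff n, by
            rw [← coeffMap_jqModC (Int.castRingHom ℂ), ← map_pow]; rfl⟩
        refine ⟨w - z * c, ?_⟩
        have := g.eraseLead_add_monomial_natDegree_leadingCoeff
        have h2 := congrArg (fun q => (aeval (jqModC ℂ) q).coeff n) this
        simp only [map_add, aeval_monomial, HahnSeries.coeff_add, coeff_algebraMap_mul, hz, hw,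
          hc] at h2
        push_cast
        linear_combination h2
      have hlt : g.eraseLead.natDegree < g.natDegree := by
        rcases eraseLead_natDegree_lt_or_eraseLead_eq_zero g with h' | h'
        · exact h'
        · rw [h', natDegree_zero]; omega
      obtain ⟨g', hg'⟩ := ih _ hlt hint rfl
      refine ⟨g' + monomial g.natDegree z, ?_⟩
      rw [Polynomial.map_add, hg', Polynomial.map_monomial, eq_intCast, ← hz,
        eraseLead_add_monomial_natDegree_leadingCoeff]

section Product

variable (R : Type*) [CommRing R] (p : ℕ) [NeZero p] (ζ : Rˣ)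

/-- `∏ (X - yᵢ)`. -/
def prodY : (LaurentSeries R)[X] := ∏ i, (X - C (yRoot R p ζ i))

/-- `∏ (X - uᵢ)`. -/
def prodU : (LaurentSeries R)[X] := ∏ i, (X - C (uRoot R p ζ i))

/-- `∑ uᵢ ∏_{m ≠ i} (X - y_m)`. -/
def interpYU : (LaurentSeries R)[X] :=
  ∑ i, C (uRoot R p ζ i) * ∏ m ∈ Finset.univ.erase i, (X - C (yRoot R p ζ m))

variable {R} {S : Type*} [CommRing S] (f : R →+* S)

/-- `prodY` commutes with maps of coefficients. -/
theorem map_prodY : (prodY R p ζ).map (coeffMap f) = prodY S p (Units.map (f : R →* S) ζ) := by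
  simp [prodY, Polynomial.map_prod, coeffMap_yRoot]

/-- `prodU` commutes with maps of coefficients. -/
theorem map_prodU : (prodU R p ζ).map (coeffMap f) = prodU S p (Units.map (f : R →* S) ζ) := by
  simp [prodU, Polynomial.map_prod, coeffMap_uRoot]

/-- `interpYU` commutes with maps of coefficients. -/
theorem map_interpYU :
    (interpYU R p ζ).map (coeffMap f) = interpYU S p (Units.map (f : R →* S) ζ) := by
  simp [interpYU, Polynomial.map_sum, Polynomial.map_prod, coeffMap_yRoot, coeffMap_uRoot]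

variable {p}

/-- The permutation of the branches induced by `ζ ↦ ζ^a`. -/
def powPerm {a : ℕ} (ha : a.Coprime p) : Option (Fin p) ≃ Option (Fin p) :=
  Equiv.optionCongr (Equiv.ofBijective
    (fun b : Fin p => (⟨a * b % p, Nat.mod_lt _ (Nat.pos_of_neZero p)⟩ : Fin p))
    ((Finite.injective_iff_bijective).mp fun b c h => by
      have h' : a * (b : ℕ) % p = a * (c : ℕ) % p := congrArg Fin.val h
      have := Nat.ModEq.cancel_left_of_coprime (m := p) (by rw [Nat.gcd_comm]; exact ha) h'
      exact Fin.ext (Nat.ModEq.eq_of_lt_of_lt this b.2 c.2)))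

/-- Replacing `ζ` by `ζ^a` permutes the branches. -/
theorem yRoot_powPerm (hζ : ζ ^ p = 1) {a : ℕ} (ha : a.Coprime p) (i : Option (Fin p)) :
    yRoot R p (ζ ^ a) i = yRoot R p ζ (powPerm ha i) := by
  cases i <;> simp [yRoot, powPerm, ← pow_eq_pow_mod _ hζ, pow_mul]

/-- Replacing `ζ` by `ζ^a` permutes the units. -/
theorem uRoot_powPerm (hζ : ζ ^ p = 1) {a : ℕ} (ha : a.Coprime p) (i : Option (Fin p)) :
    uRoot R p (ζ ^ a) i = uRoot R p ζ (powPerm ha i) := by
  cases i <;> simp [uRoot, powPerm, ← pow_eq_pow_mod _ hζ, pow_mul]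

/-- `prodY` does not depend on the primitive root. -/
theorem prodY_pow (hζ : ζ ^ p = 1) {a : ℕ} (ha : a.Coprime p) :
    prodY R p (ζ ^ a) = prodY R p ζ := by
  simp only [prodY, yRoot_powPerm ζ hζ ha]
  exact Equiv.prod_comp (powPerm ha) (fun i => X - C (yRoot R p ζ i))

/-- `prodU` does not depend on the primitive root. -/
theorem prodU_pow (hζ : ζ ^ p = 1) {a : ℕ} (ha : a.Coprime p) :
    prodU R p (ζ ^ a) = prodU R p ζ := by
  simp only [prodU, uRoot_powPerm ζ hζ ha]
  exact Equiv.prod_comp (powPerm ha) (fun i => X - C (uRoot R p ζ i))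

/-- `interpYU` does not depend on the primitive root. -/
theorem interpYU_pow (hζ : ζ ^ p = 1) {a : ℕ} (ha : a.Coprime p) :
    interpYU R p (ζ ^ a) = interpYU R p ζ := by
  simp only [interpYU, yRoot_powPerm ζ hζ ha, uRoot_powPerm ζ hζ ha]
  rw [← Equiv.sum_comp (powPerm ha) (fun i => C (uRoot R p ζ i) *
    ∏ m ∈ Finset.univ.erase i, (X - C (yRoot R p ζ m)))]
  refine Finset.sum_congr rfl fun i _ => ?_
  congr 1
  exact Finset.prod_equiv (powPerm ha) (fun m => by simp) (fun _ _ => rfl)

end Product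

/-- A family of polynomials built symmetrically from the branches has integral coefficients. -/
theorem exists_int_coeff {p : ℕ} [NeZero p] {ζ : ℂˣ} (hζ : IsPrimitiveRoot ζ p)
    (P : ∀ (R : Type) [CommRing R], Rˣ → (LaurentSeries R)[X])
    (hmap : ∀ (R S : Type) [CommRing R] [CommRing S] (f : R →+* S) (z : Rˣ),
      (P R z).map (coeffMap f) = P S (Units.map (f : R →* S) z))
    (hperm : ∀ (R : Type) [CommRing R] (z : Rˣ), z ^ p = 1 → ∀ a : ℕ, a.Coprime p →
      P R (z ^ a) = P R z)
    (n : ℕ) (m : ℤ) : ∃ z : ℤ, ((P ℂ ζ).coeff n).coeff m = z := by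
  let K := CyclotomicField p ℚ
  have : IsCyclotomicExtension {p} ℚ K := CyclotomicField.isCyclotomicExtension p ℚ
  have : IsGalois ℚ K := IsCyclotomicExtension.isGalois {p} ℚ K
  have : FiniteDimensional ℚ K := IsCyclotomicExtension.finiteDimensional {p} ℚ K
  have hz : IsPrimitiveRoot (IsCyclotomicExtension.zeta p ℚ K) p :=
    IsCyclotomicExtension.zeta_spec p ℚ K
  set zK := IsCyclotomicExtension.zeta p ℚ K
  have hζ' : IsPrimitiveRoot (ζ : ℂ) p :=
    hζ.map_of_injective (f := Units.coeHom ℂ) Units.val_injective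
  -- the embedding sending the root of `K` to `ζ`
  let e : K →ₐ[ℚ] ℂ := (IsPrimitiveRoot.powerBasis ℚ hz).lift (ζ : ℂ) (by
    rw [IsPrimitiveRoot.powerBasis_gen, ← cyclotomic_eq_minpoly_rat hz (Nat.pos_of_neZero p),
      aeval_def, ← eval_map, map_cyclotomic]
    exact hζ'.isRoot_cyclotomic (Nat.pos_of_neZero p))
  have he : e zK = (ζ : ℂ) := by
    have := (IsPrimitiveRoot.powerBasis ℚ hz).lift_gen (ζ : ℂ)
    have hgen : (IsPrimitiveRoot.powerBasis ℚ hz).gen = zK := IsPrimitiveRoot.powerBasis_gen ℚ hz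
    refine Eq.trans (congrArg e hgen.symm) ?_
    exact this _
  -- integral coefficients
  let O := integralClosure ℤ K
  have hzint : IsIntegral ℤ zK := hz.isIntegral (Nat.pos_of_neZero p)
  let zO : Oˣ := Units.ofPowEqOne ⟨zK, hzint⟩ p (Subtype.ext hz.pow_eq_one) (NeZero.ne p)
  set i : O →+* K := O.val.toRingHom
  have hzO : (e : K →+* ℂ).comp i (zO : O) = (ζ : ℂ) := he
  set c : K := (((P O zO).map (coeffMap i)).coeff n).coeff m with hc
  have hec : ((P ℂ ζ).coeff n).coeff m = e c := by
    have hu : Units.map (((e : K →+* ℂ).comp i : O →+* ℂ) : O →* ℂ) zO = ζ := Units.ext hzO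
    rw [← hu, ← hmap O ℂ ((e : K →+* ℂ).comp i) zO, hc]
    simp [Polynomial.coeff_map, coeffMap_coeff]
  have hcint : IsIntegral ℤ c := by
    rw [hc, Polynomial.coeff_map, coeffMap_coeff]
    exact ((((P O zO).coeff n).coeff m)).2
  have hfix : ∀ σ : K ≃ₐ[ℚ] K, σ c = c := by
    intro σ
    have hσz : IsPrimitiveRoot (σ zK) p := hz.map_of_injective σ.injective
    obtain ⟨a, -, hcop, hσa⟩ := (hz.isPrimitiveRoot_iff (k := p)).mp hσz
    set zK' : Kˣ := Units.map (i : O →* K) zO
    have hu : Units.map ((σ : K →+* K) : K →* K) zK' = zK' ^ a := Units.ext (by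
      simpa [zK', i, zO] using hσa.symm)
    have hpow : zK' ^ p = 1 := Units.ext (by simpa [zK', i, zO] using hz.pow_eq_one)
    have h2 : ((P O zO).map (coeffMap i)).map (coeffMap (σ : K →+* K))
        = (P O zO).map (coeffMap i) := by
      rw [hmap O K i zO, hmap K K (σ : K →+* K), hu, hperm K zK' hpow a hcop]
    have h3 := congrArg (fun q => (q.coeff n).coeff m) h2
    simp only [Polynomial.coeff_map (f := coeffMap (σ : K →+* K)), coeffMap_coeff] at h3
    exact h3
  obtain ⟨r, hr⟩ := IntermediateField.mem_bot.mp ((IsGalois.mem_bot_iff_fixed c).mpr hfix)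
  have hrint : IsIntegral ℤ r := by
    rw [← hr] at hcint
    exact (isIntegral_algebraMap_iff (algebraMap ℚ K).injective).mp hcint
  obtain ⟨z, hzr⟩ := IsIntegrallyClosed.isIntegral_iff.mp hrint
  exact ⟨z, by rw [hec, ← hr, AlgHom.commutes, ← hzr]; simp⟩

end Fermat.RED
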