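import Fermat.Agent.RED.LevelOneFun
import Fermat.Agent.RED.LevelOneInt

/-!
# Existence of level one data

For every prime `p` there are integral polynomials as asked by `LevelOneData`: the symmetric
functions of the branches are invariant functions of exponential growth with integral expansions,
hence polynomials in `j`. The chosen data is `levelOne p`.
-/

set_option autoImplicit false

noncomputable section

open Polynomial UpperHalfPlane
open scoped MatrixGroups

namespace Fermat.RED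

open Fermat.MC

/-- The expansion of a polynomial in `j`. -/
theorem qL_aeval_jA (g : ℂ[X]) (h : aeval jA g ∈ perAlg) :
    qL ⟨aeval jA g, h⟩ = aeval (ModularCurve.jqModC ℂ) g := by
  have hj : qL ⟨jA, jA_mem_perAlg⟩ = ModularCurve.jqModC ℂ := by
    rw [qL_jA, ModularCurve.coeffEmb, ← ModularCurve.jqModC_rat, ModularCurve.coeffMap_jqModC]
  have e : (⟨aeval jA g, h⟩ : perAlg) = aeval (⟨jA, jA_mem_perAlg⟩ : perAlg) g :=
    Subtype.ext (Polynomial.aeval_algHom_apply perAlg.val (⟨jA, jA_mem_perAlg⟩ : perAlg) g)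
  rw [e, ← Polynomial.aeval_algHom_apply, hj]

/-- An invariant function with integral expansion is an integral polynomial in `j`. -/
theorem mem_range_evalAt {p : ℕ} [NeZero p] {F : ℍ → ℂ} (hF : F ∈ growAlg)
    (hinv : ∀ γ : SL(2, ℤ), compSL γ F = F) (h : F ∘ affH (posN p) 0 ∈ perAlg)
    (hint : ∀ m : ℤ, ∃ z : ℤ, (qL ⟨_, h⟩).coeff m = z) :
    qL ⟨_, h⟩ ∈ (evalAt ℂ (jb ℂ 1 p)).range := by
  have hW : F ∈ W 1 := mem_W_one hF.1 (fun γ z => congrFun (hinv γ) z) hF.2
  obtain ⟨g, hg⟩ := exists_poly_of_mem_W_one hW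
  have hFp : F ∈ perAlg := Lvl.W_le_perAlg (CongruenceSubgroup.Gamma0 1) hW
  have h1 : qL ⟨_, h⟩ = ModularCurve.qExpand ℂ p (aeval (ModularCurve.jqModC ℂ) g) := by
    rw [← qL_aeval_jA g (hg ▸ hFp), ← qL_congr hFp (hg ▸ hFp) hg]
    exact qL_comp_posN p ⟨F, hFp⟩
  obtain ⟨g', hg'⟩ := exists_int_poly_of_aeval_jqModC (g := g) (fun m => by
    obtain ⟨z, hz⟩ := hint ((p : ℤ) * m)
    rw [h1, ModularCurve.qExpand_coeff_mul] at hz
    exact ⟨z, hz⟩)
  refine RingHom.mem_range.mpr ⟨g', ?_⟩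
  have hc : (ModularCurve.qExpand ℂ p).comp
      ((aeval (ModularCurve.jqModC ℂ)).toRingHom.comp (mapRingHom (Int.castRingHom ℂ)))
        = evalAt ℂ (jb ℂ 1 p) := by
    refine Polynomial.ringHom_ext' (RingHom.ext_int _ _) ?_
    simp [evalAt, jb_one]
  rw [h1, ← hg', ← hc]
  rfl

variable {p : ℕ} [hp : Fact p.Prime]

/-- `z ↦ p z` as a ring endomorphism of functions. -/
def scaleHom (p : ℕ) [NeZero p] : (ℍ → ℂ) →+* (ℍ → ℂ) :=
  RingHom.pi fun z => Pi.evalRingHom (fun _ : ℍ => ℂ) (affH (posN p) 0 z)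

/-- `F ↦ F ∘ γ` as a ring endomorphism of functions. -/
def compSLHom (γ : SL(2, ℤ)) : (ℍ → ℂ) →+* (ℍ → ℂ) :=
  RingHom.pi fun z => Pi.evalRingHom (fun _ : ℍ => ℂ) (γ • z)

/-- The value of `compSLHom`. -/
theorem compSLHom_apply (γ : SL(2, ℤ)) (F : ℍ → ℂ) : compSLHom γ F = compSL γ F := rfl

/-- The value of `scaleHom`. -/
theorem scaleHom_apply (F : ℍ → ℂ) : scaleHom p F = F ∘ affH (posN p) 0 := rfl

/-- A polynomial with invariant coefficients and integral expansions lifts to polynomials in `j`. -/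
theorem mem_lifts_of_invariant (P : (ℍ → ℂ)[X]) (T : (LaurentSeries ℂ)[X])
    (hgrow : ∀ n, P.coeff n ∈ growAlg)
    (hinv : ∀ γ : SL(2, ℤ), P.map (compSLHom γ) = P)
    (hq : ∃ Q : (perAlg)[X], Q.map perAlg.val.toRingHom = P.map (scaleHom p)
      ∧ Q.map qL.toRingHom = T)
    (hint : ∀ n m, ∃ z : ℤ, (T.coeff n).coeff m = z) :
    T ∈ Polynomial.lifts (evalAt ℂ (jb ℂ 1 p)) := by
  obtain ⟨Q, hQ, hQT⟩ := hq
  rw [Polynomial.lifts_iff_coeff_lifts]
  intro n
  have hcoe : ((Q.coeff n : perAlg) : ℍ → ℂ) = P.coeff n ∘ affH (posN p) 0 := by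
    have := congrArg (fun R => Polynomial.coeff R n) hQ
    simp only [Polynomial.coeff_map] at this
    exact this
  have hT : T.coeff n = qL (Q.coeff n) := by rw [← hQT, Polynomial.coeff_map]; rfl
  have hmem : P.coeff n ∘ affH (posN p) 0 ∈ perAlg := hcoe ▸ (Q.coeff n).2
  have hTn : T.coeff n = qL ⟨_, hmem⟩ := by
    rw [hT]
    exact congrArg qL (Subtype.ext hcoe)
  rw [hTn]
  refine mem_range_evalAt (hgrow n) (fun γ => ?_) hmem (fun m => by rw [← hTn]; exact hint n m)
  have := congrArg (fun R => Polynomial.coeff R n) (hinv γ)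
  simp only [Polynomial.coeff_map, compSLHom_apply] at this
  exact this

/-- Coefficients of a lifted polynomial lie in the subalgebra. -/
theorem coeff_mem_of_mem_lifts {S : Subalgebra ℂ (ℍ → ℂ)} {P : (ℍ → ℂ)[X]}
    (h : P ∈ Polynomial.lifts S.val.toRingHom) (n : ℕ) : P.coeff n ∈ S := by
  obtain ⟨x, hx⟩ := (Polynomial.lifts_iff_coeff_lifts P).mp h n
  exact hx ▸ x.2

variable (p)

/-- The polynomial of the branches of `j (p τ)` lifts. -/
theorem prodY_mem_lifts :
    prodY ℂ p (zetaC p) ∈ Polynomial.lifts (evalAt ℂ (jb ℂ 1 p)) := by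
  choose h hL using exists_qL_yFun p
  refine mem_lifts_of_invariant (∏ i, (X - C (yFun p i))) _ (coeff_mem_of_mem_lifts ?_) ?_
    ⟨∏ i, (X - C ⟨_, h i⟩), ?_, ?_⟩
    (exists_int_coeff (isPrimitiveRoot_zetaC p) (fun R _ z => prodY R p z)
      (fun R S _ _ f z => map_prodY (f := f) (p := p) (ζ := z))
      (fun R _ z hz a ha => prodY_pow z hz ha))
  · exact ⟨∏ i, (X - C (⟨_, yFun_mem_growAlg p i⟩ : growAlg)), by simp [Polynomial.map_prod]⟩
  · intro γ
    obtain ⟨σ, hσ⟩ := permutes p γ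
    simp only [Polynomial.map_prod, Polynomial.map_sub, map_X, map_C, compSLHom_apply,
      fun i => (hσ i).1]
    exact Equiv.prod_comp σ (fun i => X - C (yFun p i))
  · simp [Polynomial.map_prod, scaleHom_apply]
  · simp [Polynomial.map_prod, prodY, hL]

/-- The polynomial of the branches of the unit lifts. -/
theorem prodU_mem_lifts :
    prodU ℂ p (zetaC p) ∈ Polynomial.lifts (evalAt ℂ (jb ℂ 1 p)) := by
  choose h hL using exists_qL_uFun p
  refine mem_lifts_of_invariant (∏ i, (X - C (uFun p i))) _ (coeff_mem_of_mem_lifts ?_) ?_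
    ⟨∏ i, (X - C ⟨_, h i⟩), ?_, ?_⟩
    (exists_int_coeff (isPrimitiveRoot_zetaC p) (fun R _ z => prodU R p z)
      (fun R S _ _ f z => map_prodU (f := f) (p := p) (ζ := z))
      (fun R _ z hz a ha => prodU_pow z hz ha))
  · exact ⟨∏ i, (X - C (⟨_, uFun_mem_growAlg p i⟩ : growAlg)), by simp [Polynomial.map_prod]⟩
  · intro γ
    obtain ⟨σ, hσ⟩ := permutes p γ
    simp only [Polynomial.map_prod, Polynomial.map_sub, map_X, map_C, compSLHom_apply,
      fun i => (hσ i).2]
    exact Equiv.prod_comp σ (fun i => X - C (uFun p i))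
  · simp [Polynomial.map_prod, scaleHom_apply]
  · simp [Polynomial.map_prod, prodU, hL]

/-- The interpolation polynomial lifts. -/
theorem interpYU_mem_lifts :
    interpYU ℂ p (zetaC p) ∈ Polynomial.lifts (evalAt ℂ (jb ℂ 1 p)) := by
  choose hu hLu using exists_qL_uFun p
  choose hy hLy using exists_qL_yFun p
  refine mem_lifts_of_invariant
    (∑ i, C (uFun p i) * ∏ m ∈ Finset.univ.erase i, (X - C (yFun p m))) _
    (coeff_mem_of_mem_lifts ?_) ?_
    ⟨∑ i, C ⟨_, hu i⟩ * ∏ m ∈ Finset.univ.erase i, (X - C ⟨_, hy m⟩), ?_, ?_⟩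
    (exists_int_coeff (isPrimitiveRoot_zetaC p) (fun R _ z => interpYU R p z)
      (fun R S _ _ f z => map_interpYU (f := f) (p := p) (ζ := z))
      (fun R _ z hz a ha => interpYU_pow z hz ha))
  · exact ⟨∑ i, C (⟨_, uFun_mem_growAlg p i⟩ : growAlg) *
      ∏ m ∈ Finset.univ.erase i, (X - C (⟨_, yFun_mem_growAlg p m⟩ : growAlg)),
      by simp [Polynomial.map_prod, Polynomial.map_sum]⟩
  · intro γ
    obtain ⟨σ, hσ⟩ := permutes p γ
    simp only [Polynomial.map_sum, Polynomial.map_mul, Polynomial.map_prod, Polynomial.map_sub,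
      map_X, map_C, compSLHom_apply, fun i => (hσ i).1, fun i => (hσ i).2]
    rw [← Equiv.sum_comp σ (fun i => C (uFun p i) *
      ∏ m ∈ Finset.univ.erase i, (X - C (yFun p m)))]
    refine Finset.sum_congr rfl fun i _ => ?_
    congr 1
    exact Finset.prod_equiv σ (fun m => by simp) (fun _ _ => rfl)
  · simp [Polynomial.map_prod, Polynomial.map_sum, scaleHom_apply]
  · simp [Polynomial.map_prod, Polynomial.map_sum, interpYU, hLu, hLy]

/-- The series of `Δ` starts with `q`. -/
theorem deltaSeries_order_lead : deltaSeries ℂ ≠ 0 ∧ (deltaSeries ℂ).order = 1 ∧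
    (deltaSeries ℂ).coeff 1 = 1 := by
  have hd1 : (deltaSeries ℂ).coeff 1 = 1 := by
    rw [deltaSeries, HahnSeries.coeff_single_mul, one_mul,
      show (1 : ℤ) - 1 = ((0 : ℕ) : ℤ) by norm_num,
      HahnSeries.ofPowerSeries_apply_coeff, PowerSeries.coeff_map,
      PowerSeries.coeff_zero_eq_constantCoeff, ModularCurve.constantCoeff_dedekindEtaUnit, map_one]
  have hne : deltaSeries ℂ ≠ 0 := fun h => by simp [h] at hd1
  refine ⟨hne, le_antisymm (HahnSeries.order_le_of_coeff_ne_zero (by rw [hd1]; exact one_ne_zero))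
    (le_of_not_gt fun h => hne (HahnSeries.coeff_order_eq_zero.mp ?_)), hd1⟩
  rw [deltaSeries, HahnSeries.coeff_single_mul,
    ModularCurve.ofPowerSeries_coeff_of_neg _ (by rw [deltaSeries] at h; omega), mul_zero]

/-- Order and leading coefficient from the coefficients. -/
theorem order_lead_of_coeff {K : Type*} [Field K] {f : LaurentSeries K} {a : ℤ}
    (h0 : f.coeff a ≠ 0)
    (hlt : ∀ n < a, f.coeff n = 0) : f.order = a ∧ f.leadingCoeff = f.coeff a := by
  have hne : f ≠ 0 := fun h => h0 (by rw [h]; simp)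
  have ho : f.order = a := le_antisymm (HahnSeries.order_le_of_coeff_ne_zero h0)
    (le_of_not_gt fun h => hne (HahnSeries.coeff_order_eq_zero.mp (hlt _ h)))
  exact ⟨ho, by rw [HahnSeries.leadingCoeff_eq, ho]⟩

/-- Order and norm of the leading coefficient, both multiplicative. -/
def ordNorm (f : LaurentSeries ℂ) : ℤ × ℝ := (f.order, ‖f.leadingCoeff‖)

/-- `ordNorm` is multiplicative. -/
theorem ordNorm_mul {f g : LaurentSeries ℂ} (hf : f ≠ 0) (hg : g ≠ 0) :
    ordNorm (f * g) = ((ordNorm f).1 + (ordNorm g).1, (ordNorm f).2 * (ordNorm g).2) := by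
  simp [ordNorm, HahnSeries.order_mul hf hg, HahnSeries.leadingCoeff_mul]

/-- The order and leading size of the series of `Δ (m τ)`. -/
theorem ordNorm_qExpand_delta (m : ℕ) [NeZero m] :
    ordNorm (ModularCurve.qExpand ℂ m (deltaSeries ℂ)) = ((m : ℤ), 1) := by
  obtain ⟨-, ho, hc⟩ := deltaSeries_order_lead
  have h1 : (ModularCurve.qExpand ℂ m (deltaSeries ℂ)).coeff (m : ℤ) = 1 := by
    have := ModularCurve.qExpand_coeff_mul m (deltaSeries ℂ) 1
    rwa [mul_one, hc] at this
  obtain ⟨h2, h3⟩ := order_lead_of_coeff (a := (m : ℤ)) (by rw [h1]; exact one_ne_zero)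
      (fun n hn => by
    by_cases hd : (m : ℤ) ∣ n
    · obtain ⟨t, rfl⟩ := hd
      rw [ModularCurve.qExpand_coeff_mul]
      refine HahnSeries.coeff_eq_zero_of_lt_order ?_
      rw [ho]
      have : (0 : ℤ) < m := by exact_mod_cast Nat.pos_of_neZero m
      nlinarith
    · exact ModularCurve.qExpand_coeff_of_not_dvd m _ hd)
  simp [ordNorm, h2, h3, h1]

/-- The product of the branches of the unit has order `0` and leading size `p ^ 12`. -/
theorem prodU_coeff_zero_ordNorm :
    ordNorm ((prodU ℂ p (zetaC p)).coeff 0) = (0, (p : ℝ) ^ 12) ∧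
      (prodU ℂ p (zetaC p)).coeff 0 ≠ 0 := by
  have : NeZero (p * p) := ⟨Nat.mul_ne_zero (NeZero.ne p) (NeZero.ne p)⟩
  have hne : deltaSeries ℂ ≠ 0 := deltaSeries_order_lead.1
  set qD := ModularCurve.qExpand ℂ p (deltaSeries ℂ)
  have hqD : qD ≠ 0 := (_root_.map_ne_zero _).mpr hne
  have hinv : qD * ModularCurve.qExpand ℂ p (deltaSeriesInv ℂ) = 1 := by
    rw [← map_mul, deltaSeries_mul_inv, map_one]
  have hcoeff : (prodU ℂ p (zetaC p)).coeff 0 = ∏ i, -(uRoot ℂ p (zetaC p) i) := by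
    rw [prodU, coeff_zero_eq_eval_zero, eval_prod]
    simp
  -- multiply each factor by the denominator
  have key : ∀ i, uRoot ℂ p (zetaC p) i * qD ≠ 0 ∧
      ordNorm (uRoot ℂ p (zetaC p) i * qD) = match i with
        | none => ((p * p : ℕ) : ℤ).natAbs |> fun n => ((n : ℤ), (p : ℝ) ^ 12)
        | some _ => (1, 1) := by
    intro i
    cases i with
    | none =>
      have e : uRoot ℂ p (zetaC p) none * qD =
          algebraMap ℂ _ ((p : ℂ) ^ 12) * ModularCurve.qExpand ℂ (p * p) (deltaSeries ℂ) := by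
        simp only [uRoot]
        rw [mul_assoc, mul_assoc, mul_comm (ModularCurve.qExpand ℂ p (deltaSeriesInv ℂ)) qD,
          hinv, mul_one]
        simp [map_pow, map_natCast]
      have h1 := ordNorm_qExpand_delta (p * p)
      have hc : (p : ℂ) ^ 12 ≠ 0 := pow_ne_zero _ (Nat.cast_ne_zero.mpr (NeZero.ne p))
      have ha : algebraMap ℂ (LaurentSeries ℂ) ((p : ℂ) ^ 12) ≠ 0 :=
        (_root_.map_ne_zero _).mpr hc
      have hq : ModularCurve.qExpand ℂ (p * p) (deltaSeries ℂ) ≠ 0 := (_root_.map_ne_zero _).mpr hne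
      refine ⟨by rw [e]; exact mul_ne_zero ha hq, ?_⟩
      rw [e, ordNorm_mul ha hq, h1]
      simp [ordNorm, ModularCurve.algebraMap_laurentSeries_eq_single, HahnSeries.order_single hc]
    | some b =>
      have e : uRoot ℂ p (zetaC p) (some b) * qD = twist (zetaC p ^ (b : ℕ)) (deltaSeries ℂ) := by
        simp only [uRoot]
        rw [mul_assoc, mul_comm (ModularCurve.qExpand ℂ p (deltaSeriesInv ℂ)) qD, hinv, mul_one]
      obtain ⟨h0, ho, hc⟩ := deltaSeries_order_lead
      have hnorm : ‖((zetaC p : ℂˣ) : ℂ)‖ = 1 :=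
        Complex.norm_eq_one_of_pow_eq_one
          (by rw [← Units.val_pow_eq_pow_val, (isPrimitiveRoot_zetaC p).pow_eq_one];
                rfl) (NeZero.ne p)
      have ht : (twist (zetaC p ^ (b : ℕ)) (deltaSeries ℂ)).coeff 1
          = ((zetaC p ^ (b : ℕ) : ℂˣ) : ℂ) := by simp [hc]
      obtain ⟨h2, h3⟩ := order_lead_of_coeff (a := (1 : ℤ)) (by rw [ht]; exact Units.ne_zero _)
        (fun n hn => by
          rw [twist_coeff, HahnSeries.coeff_eq_zero_of_lt_order (by rw [ho]; exact hn), mul_zero])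
      refine ⟨by rw [e]; exact (_root_.map_ne_zero _).mpr hne, ?_⟩
      rw [e]
      simp [ordNorm, h2, h3, ht, hnorm]
  have hprod : ((prodU ℂ p (zetaC p)).coeff 0) * qD ^ (p + 1)
      = ∏ i, (-(uRoot ℂ p (zetaC p) i * qD)) := by
    rw [hcoeff]
    simp only [← neg_mul]
    rw [Finset.prod_mul_distrib, Finset.prod_const]
    simp
  have hkey : ∀ s : Finset (Option (Fin p)), (∏ i ∈ s, -(uRoot ℂ p (zetaC p) i * qD)) ≠ 0 ∧
      ordNorm (∏ i ∈ s, -(uRoot ℂ p (zetaC p) i * qD)) =
        (∑ i ∈ s, (ordNorm (uRoot ℂ p (zetaC p) i * qD)).1,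
          ∏ i ∈ s, (ordNorm (uRoot ℂ p (zetaC p) i * qD)).2) := by
    intro s
    induction s using Finset.induction with
    | empty =>
      refine ⟨by simp, ?_⟩
      simp [ordNorm, HahnSeries.leadingCoeff_one]
    | insert a s has ih =>
      rw [Finset.prod_insert has, Finset.sum_insert has, Finset.prod_insert has]
      have hna := neg_ne_zero.mpr (key a).1
      refine ⟨mul_ne_zero hna ih.1, ?_⟩
      rw [ordNorm_mul hna ih.1, ih.2]
      simp [ordNorm, HahnSeries.leadingCoeff_neg]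
  have hpow : ∀ n : ℕ, ordNorm (qD ^ n) = ((n : ℤ) * p, 1) := by
    intro n
    induction n with
    | zero => simp [ordNorm, HahnSeries.leadingCoeff_one]
    | succ n ih =>
      rw [pow_succ, ordNorm_mul (pow_ne_zero n hqD) hqD, ih, ordNorm_qExpand_delta p]
      push_cast
      simp [add_mul]
  obtain ⟨hne', hval⟩ := hkey Finset.univ
  rw [← hprod] at hne' hval
  have hc0 : (prodU ℂ p (zetaC p)).coeff 0 ≠ 0 := left_ne_zero_of_mul hne'
  refine ⟨?_, hc0⟩
  rw [ordNorm_mul hc0 (pow_ne_zero _ hqD), hpow, Fintype.sum_option, Fintype.prod_option,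
    (key none).2, Finset.sum_congr rfl (fun b _ => congrArg Prod.fst (key (some b)).2),
    Finset.prod_congr rfl (fun b _ => congrArg Prod.snd (key (some b)).2)] at hval
  simp only [Prod.ext_iff, Finset.sum_const, Finset.prod_const, Finset.card_univ, Fintype.card_fin,
    one_pow, mul_one, nsmul_eq_mul, Int.natAbs_natCast] at hval
  push_cast at hval
  exact Prod.ext (show _ = (0 : ℤ) by linarith [hval.1]) hval.2

/-- Level one data exist. -/
theorem nonempty_levelOneData : Nonempty (LevelOneData p) := by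
  obtain ⟨Φ, hΦ, hΦdeg, hΦm⟩ := Polynomial.lifts_and_natDegree_eq_and_monic (prodY_mem_lifts p)
    (monic_prod_of_monic _ _ fun _ _ => monic_X_sub_C _)
  obtain ⟨Ψ, hΨ, -, hΨm⟩ := Polynomial.lifts_and_natDegree_eq_and_monic (prodU_mem_lifts p)
    (monic_prod_of_monic _ _ fun _ _ => monic_X_sub_C _)
  obtain ⟨G, hG⟩ := interpYU_mem_lifts p
  refine ⟨⟨Φ, Ψ, G, hΦm, ?_, hΨm, ?_, zetaC p, isPrimitiveRoot_zetaC p, hΦ, hΨ, hG⟩⟩
  · rw [hΦdeg, prodY, natDegree_prod_of_monic _ _ fun _ _ => monic_X_sub_C _]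
    simp
  -- the constant term has no pole, so is constant, of absolute value `p¹²`
  · obtain ⟨hon, hne⟩ := prodU_coeff_zero_ordNorm p
    rw [← hΨ, Polynomial.coeff_map] at hon hne
    have hj : jb ℂ 1 p = ModularCurve.qExpand ℂ p (ModularCurve.jqModC ℂ) := jb_one p
    set c0 := Ψ.coeff 0
    have hc : evalAt ℂ (jb ℂ 1 p) c0 = ModularCurve.qExpand ℂ p
        (aeval (ModularCurve.jqModC ℂ) (c0.map (Int.castRingHom ℂ))) := by
      have : (evalAt ℂ (jb ℂ 1 p)) = (ModularCurve.qExpand ℂ p).comp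
          ((aeval (ModularCurve.jqModC ℂ)).toRingHom.comp (mapRingHom (Int.castRingHom ℂ))) := by
        refine Polynomial.ringHom_ext' (RingHom.ext_int _ _) ?_
        simp [evalAt, hj]
      rw [this]; rfl
    set d := c0.natDegree
    have hd : (c0.map (Int.castRingHom ℂ)).natDegree = d :=
      natDegree_map_eq_of_injective (Int.castRingHom ℂ).injective_int _
    have hc00 : c0 ≠ 0 := fun h => hne (by rw [h, map_zero])
    have hlead : (evalAt ℂ (jb ℂ 1 p) c0).coeff ((p : ℤ) * -(d : ℤ))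
        = ((c0.leadingCoeff : ℤ) : ℂ) := by
      rw [hc, ModularCurve.qExpand_coeff_mul, ← hd, coeff_aeval_jqModC,
        leadingCoeff_map_of_injective (Int.castRingHom ℂ).injective_int]
      rfl
    obtain ⟨ho, hl⟩ := order_lead_of_coeff (f := evalAt ℂ (jb ℂ 1 p) c0) (a := (p : ℤ) * -(d : ℤ))
      (by rw [hlead]; exact_mod_cast leadingCoeff_ne_zero.mpr hc00) (fun n hn => by
        rw [hc]
        by_cases hdv : (p : ℤ) ∣ n
        · obtain ⟨t, rfl⟩ := hdv
          rw [ModularCurve.qExpand_coeff_mul]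
          refine coeff_aeval_jqModC_of_lt ?_
          rw [hd]
          exact lt_of_mul_lt_mul_left hn (by positivity)
        · exact ModularCurve.qExpand_coeff_of_not_dvd p _ hdv)
    simp only [ordNorm, Prod.mk.injEq, ho, hl, hlead] at hon
    have hd0 : d = 0 := by
      have := hon.1
      rcases mul_eq_zero.mp this with h | h
      · exact absurd (Nat.cast_eq_zero.mp h) (NeZero.ne p)
      · omega
    have h2 : ((c0.leadingCoeff.natAbs : ℕ) : ℝ) = (p : ℝ) ^ 12 := by
      rw [← hon.2, Complex.norm_intCast, Nat.cast_natAbs, Int.cast_abs]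
    exact ⟨c0.leadingCoeff, by exact_mod_cast h2, by
      conv_lhs => rw [eq_C_of_natDegree_eq_zero hd0]
      rw [leadingCoeff, show c0.natDegree = 0 from hd0]⟩

/-- A choice of level one data. -/
def levelOne (p : ℕ) [Fact p.Prime] : LevelOneData p := (nonempty_levelOneData p).some

end Fermat.RED
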