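import Fermat.Agent.RED.Laurent

/-!
# Level one data: integral relations between `j(τ)` and `j(pτ)`

`LevelOneData p` bundles integral polynomials (`Φ` the modular polynomial, with its companions for
`p¹² Δ(pτ)/Δ(τ)`) together with the identities they satisfy on `q`-expansions. The identities pass
to every domain with a primitive `p`-th root of unity. The data is constructed in `RED/LevelOne`.
-/

set_option autoImplicit false

noncomputable section

open ModularCurve Polynomial

namespace Fermat.RED

section Series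

variable (R : Type*) [CommRing R]

/-- Evaluation of an integral polynomial at a Laurent series. -/
def evalAt (x : LaurentSeries R) : Polynomial ℤ →+* LaurentSeries R :=
  Polynomial.eval₂RingHom (Int.castRingHom (LaurentSeries R)) x

/-- The `q`-expansion of `Δ`. -/
def deltaSeries : LaurentSeries R :=
  HahnSeries.single (1 : ℤ) 1 *
    HahnSeries.ofPowerSeries ℤ R (dedekindEtaUnit.map (Int.castRingHom R))

/-- The `q`-expansion of `Δ⁻¹`. -/
def deltaSeriesInv : LaurentSeries R :=
  HahnSeries.single (-1 : ℤ) 1 *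
    HahnSeries.ofPowerSeries ℤ R (dedekindEtaUnitInv.map (Int.castRingHom R))

/-- The two series are inverse to one another. -/
theorem deltaSeries_mul_inv : deltaSeries R * deltaSeriesInv R = 1 := by
  rw [deltaSeries, deltaSeriesInv, mul_mul_mul_comm, HahnSeries.single_mul_single, ← map_mul,
    ← map_mul, dedekindEtaUnit_mul_inv, map_one, map_one, mul_one, mul_one]
  simp

/-- The series of `Δ` is defined over `ℤ`. -/
theorem coeffMap_deltaSeries {S : Type*} [CommRing S] (f : R →+* S) :
    coeffMap f (deltaSeries R) = deltaSeries S := by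
  rw [deltaSeries, deltaSeries, map_mul, coeffMap_single, map_one, coeffMap_ofPowerSeries,
    ← RingHom.comp_apply (PowerSeries.map f) (PowerSeries.map (Int.castRingHom R)),
    ← PowerSeries.map_comp, RingHom.ext_int (f.comp (Int.castRingHom R)) (Int.castRingHom S)]

/-- The series of `Δ⁻¹` is defined over `ℤ`. -/
theorem coeffMap_deltaSeriesInv {S : Type*} [CommRing S] (f : R →+* S) :
    coeffMap f (deltaSeriesInv R) = deltaSeriesInv S := by
  rw [deltaSeriesInv, deltaSeriesInv, map_mul, coeffMap_single, map_one, coeffMap_ofPowerSeries,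
    ← RingHom.comp_apply (PowerSeries.map f) (PowerSeries.map (Int.castRingHom R)),
    ← PowerSeries.map_comp, RingHom.ext_int (f.comp (Int.castRingHom R)) (Int.castRingHom S)]

variable (p : ℕ) [NeZero p]

/-- The roots of `Φ_p (j(q^p), Y)`. -/
def yRoot (ζ : Rˣ) : Option (Fin p) → LaurentSeries R
  | none => jb R 1 (p * p)
  | some b => jb R (ζ ^ (b : ℕ)) 1

/-- The conjugates of `p¹² Δ(pτ)/Δ(τ)`, as series in `q^(1/p)`. -/
def uRoot (ζ : Rˣ) : Option (Fin p) → LaurentSeries R
  | none => haveI : NeZero (p * p) := ⟨Nat.mul_ne_zero (NeZero.ne p) (NeZero.ne p)⟩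
            (p : LaurentSeries R) ^ 12 * qExpand R (p * p) (deltaSeries R) *
              qExpand R p (deltaSeriesInv R)
  | some b => twist (ζ ^ (b : ℕ)) (deltaSeries R) * qExpand R p (deltaSeriesInv R)

/-- The defining identities of the level one data `(Φ, Ψ, G)` over the ring `R`. -/
structure LevelOneIdentities (ζ : Rˣ) (Φ Ψ G : Polynomial (Polynomial ℤ)) : Prop where
  /-- The roots of `Φ` over `j(q^p)` are the `yRoot`. -/
  eq_modular : Φ.map (evalAt R (jb R 1 p)) = ∏ i, (X - C (yRoot R p ζ i))
  /-- The roots of `Ψ` over `j(q^p)` are the `uRoot`. -/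
  eq_unit : Ψ.map (evalAt R (jb R 1 p)) = ∏ i, (X - C (uRoot R p ζ i))
  /-- `G` interpolates: its value at each `yRoot` is the `uRoot` times the derivative of `Φ`
  there. -/
  eq_interp : G.map (evalAt R (jb R 1 p))
    = ∑ i, C (uRoot R p ζ i) * ∏ m ∈ Finset.univ.erase i, (X - C (yRoot R p ζ m))

end Series

/-- Level one data at the prime `p`. -/
structure LevelOneData (p : ℕ) [NeZero p] where
  /-- The modular polynomial. -/
  Φ : Polynomial (Polynomial ℤ)
  /-- The polynomial of the unit `p¹² Δ(pτ)/Δ(τ)`. -/
  Ψ : Polynomial (Polynomial ℤ)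
  /-- The interpolation polynomial between their roots. -/
  G : Polynomial (Polynomial ℤ)
  /-- `Φ` is monic. -/
  monic_Φ : Φ.Monic
  /-- `Φ` has degree `p + 1`. -/
  natDegree_Φ : Φ.natDegree = p + 1
  /-- `Ψ` is monic. -/
  monic_Ψ : Ψ.Monic
  /-- The constant term of `Ψ` is `± p ^ 12`. -/
  constant_Ψ : ∃ c : ℤ, c.natAbs = p ^ 12 ∧ Ψ.coeff 0 = C c
  /-- The defining identities hold over `ℂ` for some primitive `p`-th root of unity. -/
  identities : ∃ ζ : ℂˣ, IsPrimitiveRoot ζ p ∧ LevelOneIdentities ℂ p ζ Φ Ψ G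

section Transfer

variable {R S : Type*} [CommRing R] [CommRing S] (f : R →+* S) (p : ℕ) [NeZero p]

/-- Maps of coefficients commute with evaluation. -/
theorem coeffMap_comp_evalAt (x : LaurentSeries R) :
    (coeffMap f).comp (evalAt R x) = evalAt S (coeffMap f x) := by
  refine Polynomial.ringHom_ext' (RingHom.ext_int _ _) ?_
  simp [evalAt]

/-- Maps of coefficients carry roots to roots. -/
theorem coeffMap_yRoot (ζ : Rˣ) (i : Option (Fin p)) :
    coeffMap f (yRoot R p ζ i) = yRoot S p (Units.map (f : R →* S) ζ) i := by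
  cases i <;> simp [yRoot, coeffMap_jb, map_pow]

/-- Maps of coefficients carry units to units. -/
theorem coeffMap_uRoot (ζ : Rˣ) (i : Option (Fin p)) :
    coeffMap f (uRoot R p ζ i) = uRoot S p (Units.map (f : R →* S) ζ) i := by
  cases i <;> simp [uRoot, ModularCurve.coeffMap_qExpand, coeffMap_twist, coeffMap_deltaSeries,
    coeffMap_deltaSeriesInv, map_pow, map_natCast]

variable {f p}

/-- `j(qᵉ)` is defined over `ℤ`. -/
theorem coeffMap_jb_one (e : ℕ) [NeZero e] : coeffMap f (jb R 1 e) = jb S 1 e := by
  rw [coeffMap_jb, map_one]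

/-- The identities transfer along ring maps. -/
theorem LevelOneIdentities.map {ζ : Rˣ} {Φ Ψ G : Polynomial (Polynomial ℤ)}
    (h : LevelOneIdentities R p ζ Φ Ψ G) :
    LevelOneIdentities S p (Units.map (f : R →* S) ζ) Φ Ψ G := by
  constructor
  · have := congrArg (Polynomial.map (coeffMap f)) h.eq_modular
    simpa [Polynomial.map_map, coeffMap_comp_evalAt, coeffMap_jb_one, Polynomial.map_prod,
      coeffMap_yRoot] using this
  · have := congrArg (Polynomial.map (coeffMap f)) h.eq_unit
    simpa [Polynomial.map_map, coeffMap_comp_evalAt, coeffMap_jb_one, Polynomial.map_prod,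
      coeffMap_uRoot] using this
  · have := congrArg (Polynomial.map (coeffMap f)) h.eq_interp
    simpa [Polynomial.map_map, coeffMap_comp_evalAt, coeffMap_jb_one, Polynomial.map_prod,
      Polynomial.map_sum, coeffMap_yRoot, coeffMap_uRoot] using this

/-- The identities may be checked after an injective ring map. -/
theorem LevelOneIdentities.of_map (hf : Function.Injective f) {ζ : Rˣ}
    {Φ Ψ G : Polynomial (Polynomial ℤ)}
    (h : LevelOneIdentities S p (Units.map (f : R →* S) ζ) Φ Ψ G) :
    LevelOneIdentities R p ζ Φ Ψ G := by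
  have hinj := Polynomial.map_injective (coeffMap f) (coeffMap_injective f hf)
  constructor
  · apply hinj
    simpa [Polynomial.map_map, coeffMap_comp_evalAt, coeffMap_jb_one, Polynomial.map_prod,
      coeffMap_yRoot] using h.eq_modular
  · apply hinj
    simpa [Polynomial.map_map, coeffMap_comp_evalAt, coeffMap_jb_one, Polynomial.map_prod,
      coeffMap_uRoot] using h.eq_unit
  · apply hinj
    simpa [Polynomial.map_map, coeffMap_comp_evalAt, coeffMap_jb_one, Polynomial.map_prod,
      Polynomial.map_sum, coeffMap_yRoot, coeffMap_uRoot] using h.eq_interp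

end Transfer

/-- The identities of level one data hold over every domain, at every primitive root of unity. -/
theorem LevelOneData.identities_of_isPrimitiveRoot {p : ℕ} [NeZero p] (D : LevelOneData p)
    {k : Type*} [CommRing k] [IsDomain k] {ζ : kˣ} (hζ : IsPrimitiveRoot ζ p) :
    LevelOneIdentities k p ζ D.Φ D.Ψ D.G := by
  obtain ⟨ζ₀, hζ₀, hD⟩ := D.identities
  have hpos : 0 < p := Nat.pos_of_neZero p
  set c : ℤ[X] := cyclotomic p ℤ with hc
  -- transfer through the universal ring `ℤ[X]/Φ_p`, which embeds in `ℂ`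
  let R := AdjoinRoot c
  have hroot₀ : c.eval₂ (Int.castRingHom ℂ) (ζ₀ : ℂ) = 0 := by
    rw [hc, ← eval_map, map_cyclotomic]
    exact (hζ₀.map_of_injective (f := Units.coeHom ℂ) Units.val_injective).isRoot_cyclotomic hpos
  have hrootk : c.eval₂ (Int.castRingHom k) (ζ : k) = 0 := by
    rw [hc, ← eval_map, map_cyclotomic]
    exact (hζ.map_of_injective (f := Units.coeHom k) Units.val_injective).isRoot_cyclotomic hpos
  let f₀ : R →+* ℂ := AdjoinRoot.lift (Int.castRingHom ℂ) (ζ₀ : ℂ) hroot₀
  let fk : R →+* k := AdjoinRoot.lift (Int.castRingHom k) (ζ : k) hrootk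
  have hinj : Function.Injective f₀ := by
    rw [injective_iff_map_eq_zero]
    intro x hx
    obtain ⟨g, rfl⟩ := AdjoinRoot.mk_surjective x
    rw [AdjoinRoot.lift_mk] at hx
    rw [AdjoinRoot.mk_eq_zero, hc,
      cyclotomic_eq_minpoly
        (hζ₀.map_of_injective (f := Units.coeHom ℂ) Units.val_injective) hpos]
    refine minpoly.isIntegrallyClosed_dvd ?_ ?_
    · exact (hζ₀.map_of_injective (f := Units.coeHom ℂ) Units.val_injective).isIntegral hpos
    · rw [aeval_def]; exact hx
  have hrpow : (AdjoinRoot.root c) ^ p = 1 := by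
    apply hinj
    rw [map_pow, map_one, AdjoinRoot.lift_root]
    have := congrArg (Units.val) hζ₀.pow_eq_one
    simpa using this
  let ζR : Rˣ := Units.ofPowEqOne _ p hrpow (NeZero.ne p)
  have h₀ : Units.map (f₀ : R →* ℂ) ζR = ζ₀ := Units.ext (by
    simp only [ζR, f₀, Units.coe_map, MonoidHom.coe_coe, Units.val_ofPowEqOne]
    exact AdjoinRoot.lift_root hroot₀)
  have hk : Units.map (fk : R →* k) ζR = ζ := Units.ext (by
    simp only [ζR, fk, Units.coe_map, MonoidHom.coe_coe, Units.val_ofPowEqOne]
    exact AdjoinRoot.lift_root hrootk)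
  rw [← hk]
  exact (LevelOneIdentities.of_map (f := f₀) (ζ := ζR) hinj (by rw [h₀]; exact hD)).map

end Fermat.RED
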