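import Mathlib
import Fermat.Prelude.Def_ModularCurve_X0ModL

/-!
# Twists of Laurent series and the branches `j(c qᵉ)`

The automorphism `q ↦ c q` of a ring of Laurent series (`twist`) and the series `jb k c e = j(c
qᵉ)` with their orders, leading coefficients and behaviour under maps of the coefficient ring.
These are the series from which `RED/ModPoly` builds the modular polynomials; `JAC/QDiff` and
`RED/Full/IntC` use them too.
-/

set_option autoImplicit false

noncomputable section

open HahnSeries ModularCurve

namespace Fermat.RED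

/-- Scalar multiplication of series is multiplication by constants. -/
theorem laurent_smul_def {k : Type*} [Field k] (a : k) (x : LaurentSeries k) :
    a • x = algebraMap k (LaurentSeries k) a * x := by
  ext n
  rw [algebraMap_laurentSeries_eq_single, HahnSeries.coeff_single_mul, sub_zero,
    HahnSeries.coeff_smul, smul_eq_mul]

section Twist

variable {R S : Type*} [CommRing R] [CommRing S]

/-- The underlying series of `f (c * q)`. -/
def twistSeries (c : Rˣ) (f : LaurentSeries R) : LaurentSeries R where
  coeff n := ((c ^ n : Rˣ) : R) * f.coeff n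
  isPWO_support' := f.isPWO_support.mono fun n hn => by
    simp only [Function.mem_support] at hn ⊢
    intro h
    exact hn (by rw [h, mul_zero])

/-- The coefficients of a twisted series. -/
@[simp] theorem twistSeries_coeff (c : Rˣ) (f : LaurentSeries R) (n : ℤ) :
    (twistSeries c f).coeff n = ((c ^ n : Rˣ) : R) * f.coeff n := rfl

/-- Twisting keeps the support. -/
theorem twistSeries_support (c : Rˣ) (f : LaurentSeries R) :
    (twistSeries c f).support = f.support := by
  ext n
  simp [HahnSeries.mem_support, Units.mul_right_eq_zero]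

/-- The automorphism `q ↦ c q` of the ring of Laurent series. -/
def twist (c : Rˣ) : LaurentSeries R →+* LaurentSeries R where
  toFun := twistSeries c
  map_one' := by
    ext n
    rcases eq_or_ne n 0 with rfl | hn
    · simp
    · simp [HahnSeries.coeff_one, hn]
  map_zero' := by ext n; simp
  map_add' x y := by ext n; simp [mul_add]
  map_mul' x y := by
    ext n
    rw [twistSeries_coeff, HahnSeries.coeff_mul,
      HahnSeries.coeff_mul_right' (s := y.support) y.isPWO_support
        (twistSeries_support c y).subset,
      Finset.mul_sum]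
    refine Finset.sum_congr ?_ fun ij hij => ?_
    · ext ij
      simp only [Finset.mem_antidiagonal, twistSeries_support]
    rw [Finset.mem_antidiagonal] at hij
    rw [twistSeries_coeff, twistSeries_coeff, ← hij.2.2, zpow_add, Units.val_mul]
    ring

/-- The coefficients of a twist. -/
@[simp] theorem twist_coeff (c : Rˣ) (f : LaurentSeries R) (n : ℤ) :
    (twist c f).coeff n = ((c ^ n : Rˣ) : R) * f.coeff n := rfl

/-- Twisting by `1` changes nothing. -/
@[simp] theorem twist_one_apply (f : LaurentSeries R) : twist 1 f = f := by ext n; simp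

/-- Twists compose. -/
theorem twist_twist (c d : Rˣ) (f : LaurentSeries R) : twist c (twist d f) = twist (c * d) f := by
  ext n
  simp [mul_zpow, mul_assoc]

/-- Twisting a series in `q^a` twists by the `a`-th power. -/
theorem twist_qExpand (c : Rˣ) (a : ℕ) [NeZero a] (f : LaurentSeries R) :
    twist c (qExpand R a f) = qExpand R a (twist (c ^ a) f) := by
  ext n
  by_cases h : (a : ℤ) ∣ n
  · obtain ⟨m, rfl⟩ := h
    rw [twist_coeff, qExpand_coeff_mul, qExpand_coeff_mul, twist_coeff, ← zpow_natCast, ← zpow_mul]
  · rw [twist_coeff, qExpand_coeff_of_not_dvd a _ h, qExpand_coeff_of_not_dvd a _ h, mul_zero]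

/-- Maps of coefficients commute with twists. -/
theorem coeffMap_twist (f : R →+* S) (c : Rˣ) (x : LaurentSeries R) :
    coeffMap f (twist c x) = twist (Units.map (f : R →* S) c) (coeffMap f x) := by
  ext n
  rw [coeffMap_coeff, twist_coeff, twist_coeff, coeffMap_coeff, map_mul]
  congr 1
  rw [← map_zpow]
  rfl

/-- Twists fix constants. -/
@[simp] theorem twist_algebraMap {k : Type*} [Field k] (c : kˣ) (a : k) :
    twist c (algebraMap k (LaurentSeries k) a) = algebraMap k (LaurentSeries k) a := by
  rw [algebraMap_laurentSeries_eq_single]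
  ext n
  rcases eq_or_ne n 0 with rfl | hn
  · simp
  · simp [HahnSeries.coeff_single_of_ne hn]

end Twist

/-- An injective map of coefficients is injective on series. -/
theorem coeffMap_injective {R S : Type*} [CommRing R] [CommRing S] (f : R →+* S)
    (hf : Function.Injective f) : Function.Injective (coeffMap f) := fun x y h => by
  ext n
  exact hf (by simpa using congrArg (fun z => z.coeff n) h)

section Branch

variable (k : Type*) [CommRing k]

/-- The series `j(c qᵉ)` (zero for the junk value `e = 0`). -/
def jb (c : kˣ) (e : ℕ) : LaurentSeries k :=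
  if h : e = 0 then 0 else haveI : NeZero e := ⟨h⟩; qExpand k e (twist c (jqModC k))

variable {k}

/-- The value of `jb` at a nonzero exponent. -/
theorem jb_def (c : kˣ) (e : ℕ) [NeZero e] : jb k c e = qExpand k e (twist c (jqModC k)) := by
  rw [jb, dif_neg (NeZero.ne e)]

/-- `jb 1 e = j(qᵉ)`. -/
theorem jb_one (e : ℕ) [NeZero e] : jb k 1 e = qExpand k e (jqModC k) := by simp [jb_def]

/-- `q ↦ qᵃ` multiplies the exponent of a branch. -/
theorem qExpand_jb (a : ℕ) [NeZero a] (c : kˣ) (e : ℕ) [NeZero e] :
    qExpand k a (jb k c e) = jb k c (a * e) := by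
  have : NeZero (a * e) := ⟨Nat.mul_ne_zero (NeZero.ne a) (NeZero.ne e)⟩
  rw [jb_def, jb_def, qExpand_qExpand]

/-- The twist of a branch. -/
theorem twist_jb (d c : kˣ) (e : ℕ) [NeZero e] : twist d (jb k c e) = jb k (d ^ e * c) e := by
  rw [jb_def, twist_qExpand, twist_twist, jb_def]

/-- The polar coefficient of a branch. -/
theorem coeff_jb_neg (c : kˣ) (e : ℕ) [NeZero e] :
    (jb k c e).coeff (-(e : ℤ)) = ((c⁻¹ : kˣ) : k) := by
  rw [show (-(e : ℤ)) = (e : ℤ) * (-1) by ring, jb_def, qExpand_coeff_mul, twist_coeff,
    coeff_jqModC_neg_one, mul_one, zpow_neg_one]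

/-- A branch has no terms below its pole. -/
theorem coeff_jb_of_lt (c : kˣ) (e : ℕ) [NeZero e] {n : ℤ} (hn : n < -(e : ℤ)) :
    (jb k c e).coeff n = 0 := by
  by_cases h : (e : ℤ) ∣ n
  · obtain ⟨m, rfl⟩ := h
    rw [jb_def, qExpand_coeff_mul, twist_coeff,
      coeff_jqModC_of_lt k (k := m) (by nlinarith), mul_zero]
  · rw [jb_def, qExpand_coeff_of_not_dvd e _ h]

/-- Branches are nonzero. -/
theorem jb_ne_zero [Nontrivial k] (c : kˣ) (e : ℕ) [NeZero e] : jb k c e ≠ 0 := fun h => by
  have := coeff_jb_neg c e
  rw [h, HahnSeries.coeff_zero] at this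
  exact (c⁻¹).ne_zero this.symm

/-- A branch has order `-e`. -/
theorem order_jb [Nontrivial k] (c : kˣ) (e : ℕ) [NeZero e] : (jb k c e).order = -(e : ℤ) := by
  refine le_antisymm (HahnSeries.order_le_of_coeff_ne_zero ?_) ?_
  · rw [coeff_jb_neg]; exact (c⁻¹).ne_zero
  · by_contra h
    push Not at h
    exact (jb_ne_zero c e) (by
      have := coeff_jb_of_lt c e h
      exact HahnSeries.coeff_order_eq_zero.mp this)

/-- A branch determines its parameters. -/
theorem jb_inj [Nontrivial k] {c c' : kˣ} {e e' : ℕ} [NeZero e] [NeZero e']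
    (h : jb k c e = jb k c' e') : c = c' ∧ e = e' := by
  have he : e = e' := by
    have := congrArg HahnSeries.order h
    rw [order_jb, order_jb] at this
    omega
  refine ⟨?_, he⟩
  have h1 := congrArg (fun z => z.coeff (-(e : ℤ))) h
  simp only [coeff_jb_neg] at h1
  rw [he] at h1
  simp only [coeff_jb_neg] at h1
  exact inv_injective (Units.ext h1)

/-- A branch whose exponent is not divisible by `p` is not a series in `qᵖ`. -/
theorem jb_ne_qExpand [Nontrivial k] (c : kˣ) (e : ℕ) [NeZero e] {p : ℕ} [NeZero p]
    (hpe : ¬ p ∣ e) (f : LaurentSeries k) : jb k c e ≠ qExpand k p f := fun h => by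
  have h1 := congrArg (fun z => z.coeff (-(e : ℤ))) h
  simp only [coeff_jb_neg] at h1
  rw [qExpand_coeff_of_not_dvd p f (by
    rw [dvd_neg]
    exact_mod_cast hpe)] at h1
  exact (c⁻¹).ne_zero h1

/-- Maps of coefficients carry branches to branches. -/
theorem coeffMap_jb {S : Type*} [CommRing S] (f : k →+* S) (c : kˣ) (e : ℕ) [NeZero e] :
    coeffMap f (jb k c e) = jb S (Units.map (f : k →* S) c) e := by
  rw [jb_def, ModularCurve.coeffMap_qExpand, coeffMap_twist, coeffMap_jqModC, jb_def]

end Branch

section Descent

variable {k K : Type*} [Field k] [Field K]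

/-- Linear independence of Laurent series survives extension of the coefficient field. -/
theorem linearIndependent_coeffMap [Algebra k K] {ι : Type*} {v : ι → LaurentSeries k}
    (hv : LinearIndependent k v) :
    LinearIndependent K (fun i => coeffMap (algebraMap k K) (v i)) := by
  classical
  rw [linearIndependent_iff'] at hv ⊢
  intro s g hg i hi
  rw [← Module.forall_dual_apply_eq_zero_iff k (g i)]
  intro φ
  refine hv s (fun j => φ (g j)) ?_ i hi
  ext n
  have h1 := congrArg (fun z => z.coeff n) hg
  simp only [HahnSeries.coeff_sum, HahnSeries.coeff_smul, coeffMap_coeff, smul_eq_mul,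
    HahnSeries.coeff_zero] at h1 ⊢
  have h2 := congrArg φ h1
  simp only [map_sum, map_zero] at h2
  convert h2 using 1
  refine Finset.sum_congr rfl fun j _ => ?_
  rw [mul_comm (g j), ← Algebra.smul_def, map_smul, smul_eq_mul, mul_comm]

end Descent

end Fermat.RED
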