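import Mathlib

/-!
# Embeddings of simple extensions inside a fixed field

Degree and extension of embeddings for `F⟮y⟯` with `F` an intermediate field, restricted to the
ground field. Used in the induction of `RED/Degree`. The lemmas are stated for abstract fields, as
instance search inside concrete towers of Laurent series fields is slow.
-/

set_option autoImplicit false

open Polynomial IntermediateField

namespace Fermat.RED

variable {J L Ω : Type*} [Field J] [Field L] [Algebra J L] [Field Ω] [Algebra J Ω]

/-- `F` lies in `F⟮y⟯`, seen over `J`. -/
theorem mem_adjoinSimple_of_mem (F : IntermediateField J L) (y : L) {x : L} (hx : x ∈ F) :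
    x ∈ (F⟮y⟯).restrictScalars J := by
  rw [IntermediateField.mem_restrictScalars]
  exact IntermediateField.algebraMap_mem _ (⟨x, hx⟩ : F)

/-- `F⟮y⟯` is the least extension of `F` containing `y`. -/
theorem adjoinSimple_le (F E : IntermediateField J L) (y : L) (hF : F ≤ E) (hy : y ∈ E) :
    (F⟮y⟯).restrictScalars J ≤ E := fun x hx => by
  rw [IntermediateField.mem_restrictScalars] at hx
  induction hx using IntermediateField.adjoin_induction with
  | mem z hz => rw [Set.mem_singleton_iff] at hz; subst hz; exact hy
  | algebraMap r => exact hF r.2
  | add a b _ _ h1 h2 => exact add_mem h1 h2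
  | inv a _ h1 => exact inv_mem h1
  | mul a b _ _ h1 h2 => exact mul_mem h1 h2

/-- The degree of `F⟮y⟯` over `J` is that of `F` times the degree of `y` over `F`. -/
theorem finrank_adjoinSimple (F : IntermediateField J L) {y : L} (hy : IsIntegral F y) :
    Module.finrank J ((F⟮y⟯).restrictScalars J) = Module.finrank J F * (minpoly F y).natDegree := by
  rw [← IntermediateField.adjoin.finrank hy]
  exact (Module.finrank_mul_finrank J F F⟮y⟯).symm

/-- An embedding extends to a subfield of a simple extension, sending the generator to a given
conjugate. -/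
theorem exists_algHom_extension (F F' : IntermediateField J L) {y : L} (hy : IsIntegral F y)
    (φ : F →ₐ[J] Ω) {z : Ω} (hz : ((minpoly F y).map φ.toRingHom).IsRoot z)
    (hle : F' ≤ (F⟮y⟯).restrictScalars J) :
    ∃ ψ : F' →ₐ[J] Ω, ∀ hmem : y ∈ F', ψ ⟨y, hmem⟩ = z := by
  let : Algebra F Ω := φ.toRingHom.toAlgebra
  have : IsScalarTower J F Ω := IsScalarTower.of_algebraMap_eq fun r => (φ.commutes r).symm
  set pb := IntermediateField.adjoin.powerBasis hy
  have hgen : aeval z (minpoly F pb.gen) = 0 := by
    rw [IntermediateField.adjoin.powerBasis_gen, IntermediateField.minpoly_gen, aeval_def,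
      ← eval_map]
    exact hz
  set ψ := pb.lift z hgen
  refine ⟨(ψ.restrictScalars J).comp (IntermediateField.inclusion hle), fun hmem => ?_⟩
  have := pb.lift_gen z hgen
  rw [IntermediateField.adjoin.powerBasis_gen] at this
  exact this

/-- An element of a finite extension may be sent to any conjugate. -/
theorem exists_algHom_of_isRoot [IsAlgClosed Ω] (F : IntermediateField J L)
    (hfin : 0 < Module.finrank J F) (x : F) {z : Ω}
    (hz : ((minpoly J x).map (algebraMap J Ω)).IsRoot z) : ∃ φ : F →ₐ[J] Ω, φ x = z := by
  have : Module.Finite J F := Module.finite_of_finrank_pos hfin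
  have hroot : z ∈ (minpoly J x).rootSet Ω := by
    rw [Polynomial.mem_rootSet]
    exact ⟨minpoly.ne_zero (IsIntegral.of_finite J x), by rw [aeval_def, ← eval_map]; exact hz⟩
  rw [← (Algebra.IsAlgebraic.of_finite J F).range_eval_eq_rootSet_minpoly Ω x] at hroot
  exact hroot

/-- Elements of a finite extension are integral. -/
theorem isIntegral_of_finrank_pos (F : IntermediateField J L)
    (hfin : 0 < Module.finrank J F) (x : F) : IsIntegral J x := by
  have : Module.Finite J F := Module.finite_of_finrank_pos hfin
  exact IsIntegral.of_finite J x

end Fermat.RED
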