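import Fermat.Agent.RED.ModPoly

/-!
# Roots of the modular polynomial on a branch

The roots of `Φ_p(j(cᵖ q^(pa)), Y)` as Laurent series, their distinctness, and the common root
lemma: a field of series containing `j(q^(rd))` and `j(q^(d/p))` contains `j(q^d)`. Used by
`RED/UnitArg`.
-/

set_option autoImplicit false

noncomputable section

open ModularCurve Polynomial

namespace Fermat.RED

section Dvd

variable {K : Type*} [Field K] {ι : Type*} [Fintype ι]

open Classical in
/-- A monic divisor of a product of distinct linear factors has as many roots among them as its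
degree. -/
theorem natDegree_eq_card_of_dvd_prod {g : K[X]} {r : ι → K} (hr : Function.Injective r)
    (h : g ∣ ∏ i, (X - C (r i))) :
    g.natDegree = (Finset.univ.filter fun i => g.IsRoot (r i)).card := by
  have hne : (∏ i, (X - C (r i))) ≠ 0 :=
    Finset.prod_ne_zero_iff.mpr fun i _ => X_sub_C_ne_zero _
  have hg0 : g ≠ 0 := ne_zero_of_dvd_ne_zero hne h
  have hs : g.Splits := (Splits.prod fun i _ => Splits.X_sub_C (r i)).of_dvd hne h
  have hroots : (∏ i, (X - C (r i))).roots = (Finset.univ.map ⟨r, hr⟩).val := by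
    rw [← roots_prod_X_sub_C (Finset.univ.map ⟨r, hr⟩), Finset.prod_map]
    rfl
  have hle : g.roots ≤ (Finset.univ.map ⟨r, hr⟩).val := hroots ▸ roots.le_of_dvd hne h
  have hnd : g.roots.Nodup := Multiset.nodup_of_le hle (Finset.univ.map ⟨r, hr⟩).nodup
  rw [hs.natDegree_eq_card_roots, ← Finset.card_map ⟨r, hr⟩]
  refine congrArg Multiset.card ((Multiset.Nodup.ext hnd (Finset.nodup _)).mpr fun x => ?_)
  rw [mem_roots hg0, Finset.mem_val, Finset.mem_map]
  constructor
  · intro hx
    obtain ⟨i, -, hi⟩ := Finset.mem_map.mp (Multiset.mem_of_le hle ((mem_roots hg0).mpr hx))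
    exact ⟨i, Finset.mem_filter.mpr
      ⟨Finset.mem_univ i, by simp only [Function.Embedding.coeFn_mk] at hi; rw [hi]; exact hx⟩, hi⟩
  · rintro ⟨i, hi, rfl⟩
    exact (Finset.mem_filter.mp hi).2

end Dvd

section Children

variable (k : Type*) [CommRing k] (p : ℕ)

/-- The roots of `Φ_p (j(cᵖ q^(pa)), Y)`. -/
def child (ζ c : kˣ) (a : ℕ) : Option (Fin p) → LaurentSeries k
  | none => jb k (c ^ (p * p)) (p * p * a)
  | some b => jb k (ζ ^ (b : ℕ) * c) a

variable {k p}

/-- The modular polynomial at a branch splits into the children. -/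
theorem LevelOneIdentities.map_Φ_eq [NeZero p] {Φ Ψ G : Polynomial (Polynomial ℤ)} {ζ : kˣ}
    (h : LevelOneIdentities k p ζ Φ Ψ G) (c : kˣ) (a : ℕ) [NeZero a] :
    Φ.map (evalAt k (jb k (c ^ p) (p * a))) = ∏ i, (X - C (child k p ζ c a i)) := by
  set f : LaurentSeries k →+* LaurentSeries k := (qExpand k a).comp (twist c) with hf
  have hj : f (jb k 1 p) = jb k (c ^ p) (p * a) := by
    rw [hf, RingHom.comp_apply, twist_jb, mul_one, qExpand_jb, Nat.mul_comm a p]
  have hcomp : f.comp (evalAt k (jb k 1 p)) = evalAt k (jb k (c ^ p) (p * a)) := by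
    refine Polynomial.ringHom_ext' (RingHom.ext_int _ _) ?_
    simp only [RingHom.comp_apply, evalAt, coe_eval₂RingHom, eval₂_X]
    exact hj
  have := congrArg (Polynomial.map f) h.eq_modular
  rw [Polynomial.map_map, hcomp, Polynomial.map_prod] at this
  rw [this]
  refine Finset.prod_congr rfl fun i _ => ?_
  rw [Polynomial.map_sub, map_X, map_C]
  congr 2
  cases i with
  | none =>
    have : NeZero (p * p) := ⟨Nat.mul_ne_zero (NeZero.ne p) (NeZero.ne p)⟩
    simp only [yRoot, child, hf, RingHom.comp_apply, twist_jb, mul_one, qExpand_jb]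
    rw [Nat.mul_comm a (p * p)]
  | some b =>
    simp only [yRoot, child, hf, RingHom.comp_apply, twist_jb, pow_one, qExpand_jb, mul_one]
    rw [mul_comm c]

/-- The children of a branch are distinct. -/
theorem child_injective [Nontrivial k] [NeZero p] (hp : 1 < p) {ζ : kˣ}
    (hζ : IsPrimitiveRoot ζ p) (c : kˣ) (a : ℕ) [NeZero a] :
    Function.Injective (child k p ζ c a) := by
  have : NeZero (p * p * a) :=
    ⟨Nat.mul_ne_zero (Nat.mul_ne_zero (NeZero.ne p) (NeZero.ne p)) (NeZero.ne a)⟩
  have hlt : a < p * p * a :=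
    lt_mul_of_one_lt_left (Nat.pos_of_neZero a)
      (Nat.one_lt_mul_iff.mpr ⟨by omega, by omega, .inl hp⟩)
  intro x y hxy
  cases x <;> cases y
  · rfl
  · have := (jb_inj hxy).2
    omega
  · have := (jb_inj hxy).2
    omega
  · rename_i b b'
    have := mul_right_cancel (jb_inj hxy).1
    exact congrArg some (Fin.ext (hζ.pow_inj b.2 b'.2 this))

end Children

section CommonRoot

variable {k : Type*} [Field k]

/-- The branch at `j(q^(rd))` and the branch at `j(q^(d/p))` have only the child `j(q^d)` in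
common. -/
theorem eq_some_zero_of_child_eq {p r e : ℕ} [NeZero p] [NeZero r]
    [NeZero (r * p * (p * e))] [NeZero (r * e)] (hp : p.Prime) (hr : r.Prime) {ζp ζr : kˣ}
    (hζr : IsPrimitiveRoot ζr r) {i : Option (Fin r)} {m : Option (Fin p)}
    (hm : child k r ζr 1 (r * p * (p * e)) i = child k p ζp 1 (r * e) m) :
    i = some ⟨0, hr.pos⟩ := by
  have : NeZero (r * r * (r * p * (p * e))) :=
    ⟨Nat.mul_ne_zero (Nat.mul_ne_zero (NeZero.ne r) (NeZero.ne r)) (NeZero.ne _)⟩
  have : NeZero (p * p * (r * e)) :=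
    ⟨Nat.mul_ne_zero (Nat.mul_ne_zero (NeZero.ne p) (NeZero.ne p)) (NeZero.ne _)⟩
  have hre : 0 < r * e := Nat.pos_of_neZero _
  cases i with
  | none =>
    exfalso
    cases m with
    | none =>
      have := (jb_inj hm).2
      have : r * r = 1 := Nat.eq_of_mul_eq_mul_right (Nat.pos_of_neZero (p * p * (r * e)))
        (by linarith [this])
      exact hr.one_lt.ne' (Nat.eq_one_of_mul_eq_one_right this)
    | some m =>
      have := (jb_inj hm).2
      have : r * r * (p * p) = 1 := Nat.eq_of_mul_eq_mul_right hre (by linarith [this])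
      exact hr.one_lt.ne' (Nat.eq_one_of_mul_eq_one_right
        (Nat.eq_one_of_mul_eq_one_right this))
  | some i =>
    cases m with
    | none =>
      have := (jb_inj hm).1
      simp only [one_pow, mul_one] at this
      exact congrArg some (Fin.ext (hζr.pow_inj i.2 hr.pos (by rw [this, pow_zero])))
    | some m =>
      exfalso
      have := (jb_inj hm).2
      have : p * p = 1 := Nat.eq_of_mul_eq_mul_right hre (by linarith [this])
      exact hp.one_lt.ne' (Nat.eq_one_of_mul_eq_one_right this)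

/-- The common-root lemma by contradiction: no subfield contains `j(q^(rd))` and `j(q^(d/p))` but
not `j(q^d)`. -/
theorem jb_mem_of_mem (F : Subfield (LaurentSeries k)) {p r d : ℕ} [NeZero p] [NeZero r] [NeZero d]
    (hp : p.Prime) (hr : r.Prime) (hpd : p ∣ d)
    (Dp : LevelOneData p) (Dr : LevelOneData r) {ζp ζr : kˣ}
    (hζp : IsPrimitiveRoot ζp p) (hζr : IsPrimitiveRoot ζr r)
    (ha : jb k 1 (d * r) ∈ F) (hb : jb k 1 (d / p) ∈ F) (hx : jb k 1 d ∈ F → False) :
    False := by
  obtain ⟨e, rfl⟩ := hpd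
  rw [Nat.mul_div_cancel_left _ hp.pos] at hb
  have : NeZero e := ⟨fun h => NeZero.ne (p * e) (by rw [h, Nat.mul_zero])⟩
  have : NeZero (r * p) := ⟨Nat.mul_ne_zero (NeZero.ne r) (NeZero.ne p)⟩
  have : NeZero (r * p * (p * e)) := ⟨Nat.mul_ne_zero (NeZero.ne _) (NeZero.ne _)⟩
  have : NeZero (r * e) := ⟨Nat.mul_ne_zero (NeZero.ne r) (NeZero.ne e)⟩
  set h : F →+* LaurentSeries k := (qExpand k (r * p)).comp F.subtype with hh
  set evA : Polynomial ℤ →+* F := eval₂RingHom (Int.castRingHom F) ⟨_, ha⟩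
  set evB : Polynomial ℤ →+* F := eval₂RingHom (Int.castRingHom F) ⟨_, hb⟩
  have hA : h.comp evA = evalAt k (jb k (1 ^ r) (r * (r * p * (p * e)))) := by
    refine Polynomial.ringHom_ext' (RingHom.ext_int _ _) ?_
    simp only [evA, evalAt, RingHom.comp_apply, coe_eval₂RingHom, eval₂_X, hh,
      Subfield.subtype_apply, qExpand_jb, one_pow]
    ring_nf
  have hB : h.comp evB = evalAt k (jb k (1 ^ p) (p * (r * e))) := by
    refine Polynomial.ringHom_ext' (RingHom.ext_int _ _) ?_
    simp only [evB, evalAt, RingHom.comp_apply, coe_eval₂RingHom, eval₂_X, hh,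
      Subfield.subtype_apply, qExpand_jb, one_pow]
    ring_nf
  set x : LaurentSeries k := jb k 1 (r * p * (p * e)) with hxdef
  have hAprod := (Dr.identities_of_isPrimitiveRoot hζr).map_Φ_eq 1 (r * p * (p * e))
  have hBprod := (Dp.identities_of_isPrimitiveRoot hζp).map_Φ_eq 1 (r * e)
  rw [← hA, ← Polynomial.map_map] at hAprod
  rw [← hB, ← Polynomial.map_map] at hBprod
  set A : (↥F)[X] := Dr.Φ.map evA
  set B : (↥F)[X] := Dp.Φ.map evB
  -- the element `j(q^d)` is a root of both polynomials
  have hxA : eval₂ F.subtype (jb k 1 (p * e)) A = 0 := by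
    apply (qExpand_injective (r * p))
    rw [map_zero, hom_eval₂, ← hh, qExpand_jb, ← eval_map, hAprod, eval_prod]
    refine Finset.prod_eq_zero (Finset.mem_univ (some ⟨0, hr.pos⟩)) ?_
    simp [child]
  have hxB : eval₂ F.subtype (jb k 1 (p * e)) B = 0 := by
    apply (qExpand_injective (r * p))
    rw [map_zero, hom_eval₂, ← hh, qExpand_jb, ← eval_map, hBprod, eval_prod]
    refine Finset.prod_eq_zero (Finset.mem_univ none) ?_
    simp only [child, one_pow, eval_sub, eval_X, eval_C]
    rw [sub_eq_zero]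
    ring_nf
  let : Algebra F (LaurentSeries k) := F.subtype.toAlgebra
  have hint : IsIntegral F (jb k 1 (p * e)) :=
    ⟨A, Dr.monic_Φ.map _, hxA⟩
  set g := minpoly F (jb k 1 (p * e)) with hg
  have hgA : g.map h ∣ ∏ i, (X - C (child k r ζr 1 (r * p * (p * e)) i)) :=
    hAprod ▸ Polynomial.map_dvd h (minpoly.dvd F _ hxA)
  have hgB : g.map h ∣ ∏ i, (X - C (child k p ζp 1 (r * e) i)) :=
    hBprod ▸ Polynomial.map_dvd h (minpoly.dvd F _ hxB)
  classical
  have hcard := natDegree_eq_card_of_dvd_prod (child_injective hr.one_lt hζr 1 _) hgA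
  have hsub : (Finset.univ.filter fun i => (g.map h).IsRoot (child k r ζr 1 (r * p * (p * e)) i))
      ⊆ {some ⟨0, hr.pos⟩} := by
    intro i hi
    have hi' : (∏ m, (X - C (child k p ζp 1 (r * e) m))).IsRoot
        (child k r ζr 1 (r * p * (p * e)) i) := (Finset.mem_filter.mp hi).2.dvd hgB
    rw [IsRoot.def, eval_prod, Finset.prod_eq_zero_iff] at hi'
    obtain ⟨m, -, hm⟩ := hi'
    rw [eval_sub, eval_X, eval_C, sub_eq_zero] at hm
    exact Finset.mem_singleton.mpr (eq_some_zero_of_child_eq hp hr hζr hm)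
  have hdeg : g.natDegree ≤ 1 := by
    rw [← Polynomial.natDegree_map h, hcard]
    exact le_trans (Finset.card_le_card hsub) (by simp)
  have hdeg1 : g.degree = 1 := by
    have := minpoly.natDegree_pos hint
    rw [degree_eq_natDegree (minpoly.ne_zero hint)]
    have h1 : g.natDegree = 1 := le_antisymm hdeg this
    rw [h1]; rfl
  obtain ⟨y, hy⟩ := minpoly.mem_range_of_degree_eq_one F _ hdeg1
  exact hx (hy ▸ y.2)

/-- A subfield containing `j(q^(rd))` and `j(q^(d/p))` contains `j(q^d)`. -/
theorem jb_mem (F : Subfield (LaurentSeries k)) {p r d : ℕ} [NeZero p] [NeZero r] [NeZero d]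
    (hp : p.Prime) (hr : r.Prime) (hpd : p ∣ d)
    (Dp : LevelOneData p) (Dr : LevelOneData r) {ζp ζr : kˣ}
    (hζp : IsPrimitiveRoot ζp p) (hζr : IsPrimitiveRoot ζr r)
    (ha : jb k 1 (d * r) ∈ F) (hb : jb k 1 (d / p) ∈ F) : jb k 1 d ∈ F :=
  by_contra fun hx => jb_mem_of_mem F hp hr hpd Dp Dr hζp hζr ha hb hx

end CommonRoot

end Fermat.RED
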