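import Fermat.Agent.RED.UnitArg
import Fermat.Agent.RED.LevelOne
import Fermat.Agent.MF.DedekindPsi
import Fermat.Agent.RED.Roots

/-!
# Level fields and their branches

`levelField k M = k(j)(j(q^d) : d ∣ M)` and the values of its embeddings in an algebraic closure of
`k((u))`, `u^N₀ = q`: the value at `j(q^M)` is one of the series `val (a, b)`, read off from the
modular polynomials.
-/

set_option autoImplicit false

noncomputable section

open ModularCurve Polynomial IntermediateField

namespace Fermat.RED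

/-- The recursion of the Dedekind psi function at a prime. -/
theorem dedekindPsi_prime_mul {p m : ℕ} (hp : p.Prime) (hm : m ≠ 0) :
    dedekindPsi (p * m) = (if p ∣ m then p else p + 1) * dedekindPsi m := by
  have key : ∀ e, dedekindPsi (p ^ e * p) = (if e = 0 then p + 1 else p) * dedekindPsi (p ^ e) := by
    intro e
    rw [← pow_succ]
    rcases e with _ | e
    · rw [MF.dedekindPsi_prime_pow hp 0]
      simp
    · rw [MF.dedekindPsi_prime_pow hp (e + 1), MF.dedekindPsi_prime_pow hp e,
        if_neg (Nat.succ_ne_zero e)]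
      ring
  obtain ⟨e, m', hm', rfl⟩ := Nat.exists_eq_pow_mul_and_not_dvd hm p hp.ne_one
  have hcop : ∀ t, (p ^ t).Coprime m' := fun t => (hp.coprime_iff_not_dvd.mpr hm').pow_left t
  rw [← mul_assoc, mul_comm p, ← pow_succ, MF.dedekindPsi_mul (hcop _), pow_succ, key,
    MF.dedekindPsi_mul (hcop _)]
  rcases e with _ | e
  · simp [hm']
  · have : p ∣ p ^ (e + 1) * m' := (dvd_pow_self p (Nat.succ_ne_zero e)).mul_right m'
    simp [this, mul_assoc]

/-- Primitive `n`-th roots of unity exist as units, when `n ≠ 0` in `k`. -/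
theorem exists_isPrimitiveRoot_unit (k : Type*) [Field k] [IsAlgClosed k] (n : ℕ)
    (hn : (n : k) ≠ 0) : ∃ ξ : kˣ, IsPrimitiveRoot ξ n := by
  have : NeZero (n : k) := ⟨hn⟩
  have : NeZero n := .of_neZero_natCast k
  obtain ⟨z, hz⟩ := HasEnoughRootsOfUnity.exists_primitiveRoot k n
  exact ⟨_, hz.isUnit_unit (NeZero.ne n)⟩

/-- A divisor of a nonzero natural number of `k` is nonzero. -/
theorem natCast_ne_zero_of_dvd {k : Type*} [Field k] {a b : ℕ} (h : a ∣ b) (hb : (b : k) ≠ 0) :
    (a : k) ≠ 0 := by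
  obtain ⟨c, rfl⟩ := h
  rw [Nat.cast_mul] at hb
  exact left_ne_zero_of_mul hb

variable (k : Type*) [Field k]

/-- `k(j)(j(q^d) : d ∣ M)`, as an extension of `k(j)`. -/
def levelField (M : ℕ) : IntermediateField (jField k) (LaurentSeries k) :=
  IntermediateField.adjoin (jField k) (divisorExpansionsC k M)

/-- Over `k` the level field is the full function field of level `M`. -/
theorem levelField_restrictScalars (M : ℕ) :
    (levelField k M).restrictScalars k = modularFunctionFieldFullC k M := by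
  rw [levelField, jField, IntermediateField.adjoin_adjoin_left]
  refine le_antisymm (IntermediateField.adjoin_le_iff.mpr ?_)
    (IntermediateField.adjoin.mono k _ _ Set.subset_union_right)
  rintro x (rfl | hx)
  · exact jqModC_mem_full k M
  · exact IntermediateField.subset_adjoin k _ hx

/-- `j(q^d)` lies in the field of level `M` for `d ∣ M`. -/
theorem jb_mem_levelField {M d : ℕ} [NeZero M] (h : d ∣ M) : jb k 1 d ∈ levelField k M := by
  have : NeZero d := ⟨fun h0 => NeZero.ne M (Nat.eq_zero_of_zero_dvd (h0 ▸ h))⟩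
  rw [jb_one]
  exact IntermediateField.subset_adjoin _ _ (mem_divisorExpansionsC k M h)

/-- The element `j(q^d)` of the field of level `M`. -/
def jE (M d : ℕ) [NeZero M] (h : d ∣ M) : levelField k M := ⟨jb k 1 d, jb_mem_levelField k h⟩

/-- The value of `jE`. -/
@[simp] theorem coe_jE (M d : ℕ) [NeZero M] (h : d ∣ M) :
    (jE k M d h : LaurentSeries k) = jb k 1 d := rfl

/-- The level field grows with the level. -/
theorem levelField_mono {M M' : ℕ} (h : M ∣ M') : levelField k M ≤ levelField k M' :=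
  IntermediateField.adjoin.mono _ _ _ fun _ ⟨d, hne, hd, hx⟩ => ⟨d, hne, hd.trans h, hx⟩

/-- An algebraic closure of `k((u))`, regarded as a `k(j)`-algebra through `u^N₀ = q`. -/
def Branch (k : Type*) [Field k] (_N₀ : ℕ) : Type _ := AlgebraicClosure (LaurentSeries k)

/-- The branch is a field, being an algebraic closure. -/
instance (N₀ : ℕ) : Field (Branch k N₀) := inferInstanceAs (Field (AlgebraicClosure _))

/-- The branch is algebraically closed. -/
instance (N₀ : ℕ) : IsAlgClosed (Branch k N₀) :=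
  inferInstanceAs (IsAlgClosed (AlgebraicClosure _))

/-- The inclusion of `k((u))`. -/
def inc (N₀ : ℕ) : LaurentSeries k →+* Branch k N₀ :=
  algebraMap (LaurentSeries k) (AlgebraicClosure (LaurentSeries k))

/-- The inclusion of `k((u))` is injective. -/
theorem inc_injective (N₀ : ℕ) : Function.Injective (inc k N₀) := (inc k N₀).injective

/-- The algebra structure of a branch over `k(j)`. -/
instance instAlgebraBranch (N₀ : ℕ) [NeZero N₀] : Algebra (jField k) (Branch k N₀) :=
  ((inc k N₀).comp ((qExpand k N₀).comp (jField k).val.toRingHom)).toAlgebra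

/-- The structure map of a branch is `q = u^N₀`. -/
theorem algebraMap_branch (N₀ : ℕ) [NeZero N₀] (x : jField k) :
    algebraMap (jField k) (Branch k N₀) x = inc k N₀ (qExpand k N₀ x) := rfl

/-- The coercion of an element of `k(j)` in the field of level `M`. Cite it instead of `rfl`, for
which the kernel unfolds the generators of the field. -/
theorem coe_algebraMap_levelField {k : Type*} [Field k] (M : ℕ) (c : jField k) :
    ((algebraMap (jField k) (levelField k M) c : levelField k M) : LaurentSeries k) = c :=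
  IntermediateField.coe_algebraMap_apply _ c

/-- The branch at the cusp `∞`. -/
def inftyHom (M N₀ : ℕ) [NeZero N₀] : levelField k M →ₐ[jField k] Branch k N₀ where
  toRingHom := (inc k N₀).comp ((qExpand k N₀).comp (levelField k M).val.toRingHom)
  commutes' c :=
    congrArg (fun y => inc k N₀ (qExpand k N₀ y)) (coe_algebraMap_levelField M c)

/-- The value at `(a, b)` of the `M`-th branch, in the coordinate `u = q^(1/N₀)`. -/
def val (ξ : kˣ) (N₀ M a b : ℕ) : LaurentSeries k :=
  jb k (ξ ^ (N₀ / M * (a * b))) (a * a * (N₀ / M))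

variable {k}

/-- Evaluating an integral bivariate polynomial commutes with a ring map to series. -/
theorem coe_eval₂ {R : Type*} [CommRing R] (f : R →+* LaurentSeries k)
    (P : Polynomial (Polynomial ℤ)) (x y : R) :
    (P.map (eval₂RingHom (Int.castRingHom R) x)).eval₂ f (f y)
      = (P.map (evalAt k (f x))).eval (f y) := by
  rw [eval₂_map, eval_map]
  congr 1
  refine Polynomial.ringHom_ext' (RingHom.ext_int _ _) ?_
  simp [evalAt]

/-- Evaluating the inner variable commutes with ring maps. -/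
theorem map_evalI {R S : Type*} [CommRing R] [CommRing S] (f : R →+* S) (x : R)
    (P : Polynomial (Polynomial ℤ)) :
    (P.map (eval₂RingHom (Int.castRingHom R) x)).map f
      = P.map (eval₂RingHom (Int.castRingHom S) (f x)) := by
  rw [Polynomial.map_map]
  congr 1
  refine Polynomial.ringHom_ext' (RingHom.ext_int _ _) ?_
  simp

section Roots

variable {p : ℕ} [Fact p.Prime]

/-- `Φ_p(j(q^m), Y)` vanishes at `j(q^(pm))`. -/
theorem eval_modular_self_mul {ζ : kˣ} (hζ : IsPrimitiveRoot ζ p) (m : ℕ) [NeZero m] :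
    ((levelOne p).Φ.map (evalAt k (jb k 1 m))).eval (jb k 1 (p * m)) = 0 := by
  have : NeZero (p * m) := ⟨Nat.mul_ne_zero (NeZero.ne p) (NeZero.ne m)⟩
  apply qExpand_injective p
  rw [map_zero, ← eval₂_at_apply, ← eval_map]
  have h := ((levelOne p).identities_of_isPrimitiveRoot hζ).map_Φ_eq 1 m
  simp only [one_pow] at h
  rw [evalAt, map_evalI, qExpand_jb, qExpand_jb, ← evalAt, h, eval_prod]
  refine Finset.prod_eq_zero (Finset.mem_univ none) ?_
  rw [eval_sub, eval_X, eval_C, sub_eq_zero, child, one_pow, mul_assoc]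

/-- `Φ_p(j(q^(pm)), Y)` vanishes at `j(q^m)`. -/
theorem eval_modular_mul_self {ζ : kˣ} (hζ : IsPrimitiveRoot ζ p) (m : ℕ) [NeZero m] :
    ((levelOne p).Φ.map (evalAt k (jb k 1 (p * m)))).eval (jb k 1 m) = 0 := by
  have : NeZero (p * m) := ⟨Nat.mul_ne_zero (NeZero.ne p) (NeZero.ne m)⟩
  apply qExpand_injective p
  rw [map_zero, ← eval₂_at_apply, ← eval_map]
  have h := ((levelOne p).identities_of_isPrimitiveRoot hζ).map_Φ_eq 1 (p * m)
  simp only [one_pow] at h
  rw [evalAt, map_evalI, qExpand_jb, qExpand_jb, ← evalAt, h, eval_prod]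
  refine Finset.prod_eq_zero (Finset.mem_univ (some 0)) ?_
  simp [child]

variable (k)

/-- `Φ_p(j_m, Y)` over the field of level `M`. -/
def modPolyAt (p : ℕ) [Fact p.Prime] (M m : ℕ) [NeZero M] (hm : m ∣ M) :
    Polynomial (levelField k M) :=
  (levelOne p).Φ.map (eval₂RingHom (Int.castRingHom _) (jE k M m hm))

variable {k}

/-- `modPolyAt` is monic. -/
theorem modPolyAt_monic {M m : ℕ} [NeZero M] (hm : m ∣ M) : (modPolyAt k p M m hm).Monic :=
  (levelOne p).monic_Φ.map _

/-- `modPolyAt` has degree `p + 1`. -/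
theorem natDegree_modPolyAt {M m : ℕ} [NeZero M] (hm : m ∣ M) :
    (modPolyAt k p M m hm).natDegree = p + 1 := by
  rw [modPolyAt, (levelOne p).monic_Φ.natDegree_map, (levelOne p).natDegree_Φ]

/-- The image of `modPolyAt` under a ring map. -/
theorem modPolyAt_map {S : Type*} [CommRing S] {M m : ℕ} [NeZero M] (hm : m ∣ M)
    (f : levelField k M →+* S) :
    (modPolyAt k p M m hm).map f
      = (levelOne p).Φ.map (eval₂RingHom (Int.castRingHom S) (f (jE k M m hm))) :=
  map_evalI f _ _

/-- `Φ_p(j_m, Y)` vanishes at `j_(pm)` in the level field. -/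
theorem eval_modPolyAt_mul {ζ : kˣ} (hζ : IsPrimitiveRoot ζ p) {M m : ℕ} [NeZero M] [NeZero m]
    (hm : m ∣ M) (hpm : p * m ∣ M) :
    (modPolyAt k p M m hm).eval (jE k M (p * m) hpm) = 0 := by
  apply (levelField k M).val.toRingHom.injective
  rw [map_zero, ← eval₂_at_apply, ← eval_map, modPolyAt_map]
  exact eval_modular_self_mul hζ m

/-- `Φ_p(j_(pm), Y)` vanishes at `j_m` in the level field. -/
theorem eval_modPolyAt_div {ζ : kˣ} (hζ : IsPrimitiveRoot ζ p) {M m : ℕ} [NeZero M] [NeZero m]
    (hpm : p * m ∣ M) :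
    (modPolyAt k p M (p * m) hpm).eval (jE k M m ((dvd_mul_left m p).trans hpm)) = 0 := by
  apply (levelField k M).val.toRingHom.injective
  rw [map_zero, ← eval₂_at_apply, ← eval_map, modPolyAt_map]
  exact eval_modular_mul_self hζ m

/-- `j_(pm)` is a root of `Φ_p(j_m, Y)` over the field of level `m`. -/
theorem aeval_modPolyAt_top {ζ : kˣ} (hζ : IsPrimitiveRoot ζ p) (m : ℕ) [NeZero m] :
    aeval (jb k 1 (p * m)) (modPolyAt k p m m dvd_rfl) = 0 := by
  rw [aeval_def, ← eval_map, modPolyAt_map]
  exact eval_modular_self_mul hζ m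

/-- The values of `φ` at `j_(pm)` among the children of its value at `j_m`. -/
theorem exists_child_of_apply {ζ : kˣ} (hζ : IsPrimitiveRoot ζ p) {M m N₀ : ℕ} [NeZero M]
    [NeZero m] (hm : m ∣ M) (hpm : p * m ∣ M)
    (φ : levelField k M →+* Branch k N₀) {c : kˣ} {a : ℕ} [NeZero a]
    (hφ : φ (jE k M m hm) = inc k N₀ (jb k (c ^ p) (p * a))) :
    ∃ i, φ (jE k M (p * m) hpm) = inc k N₀ (child k p ζ c a i) := by
  have h0 := congrArg φ (eval_modPolyAt_mul hζ hm hpm)
  rw [map_zero, ← eval₂_at_apply, ← eval_map, modPolyAt_map, hφ, ← map_evalI] at h0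
  rw [← evalAt, ((levelOne p).identities_of_isPrimitiveRoot hζ).map_Φ_eq c a,
    Polynomial.map_prod, eval_prod, Finset.prod_eq_zero_iff] at h0
  obtain ⟨i, -, hi⟩ := h0
  refine ⟨i, ?_⟩
  rw [Polynomial.map_sub, map_X, map_C, eval_sub, eval_X, eval_C, sub_eq_zero] at hi
  exact hi

end Roots

/-- The value of any embedding at `j_M` is one of the values `val (a, b)`. -/
theorem exists_val_of_algHom {N₀ : ℕ} [NeZero N₀] {ξ : kˣ} (hξ : IsPrimitiveRoot ξ N₀) :
    ∀ (M : ℕ) [NeZero M], M ∣ N₀ → ∀ φ : levelField k M →ₐ[jField k] Branch k N₀,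
      ∃ a b, a ∣ M ∧ φ (jE k M M dvd_rfl) = inc k N₀ (val k ξ N₀ M a b) := by
  intro M
  induction M using Nat.strong_induction_on with
  | _ M ih =>
    intro _ hMN φ
    by_cases hM1 : M = 1
    · subst hM1
      refine ⟨1, 0, one_dvd _, ?_⟩
      have hj : jE k 1 1 dvd_rfl
          = algebraMap (jField k) (levelField k 1) ⟨jqModC k, jqModC_mem_jField k⟩ := by
        apply Subtype.ext
        simp [jb_one, qExpand_one_apply]
      rw [hj, AlgHom.commutes, algebraMap_branch]
      simp [val, jb_one]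
    · obtain ⟨p, hp, m, rfl⟩ : ∃ p, p.Prime ∧ ∃ m, M = p * m :=
        ⟨M.minFac, Nat.minFac_prime hM1, M / M.minFac,
          (Nat.mul_div_cancel' M.minFac_dvd).symm⟩
      have := Fact.mk hp
      have : NeZero m := ⟨fun h => NeZero.ne (p * m) (by rw [h, mul_zero])⟩
      have hlt : m < p * m := lt_mul_of_one_lt_left (Nat.pos_of_neZero m) hp.one_lt
      have hmN : m ∣ N₀ := (dvd_mul_left m p).trans hMN
      -- by induction `j_m` takes some value `val (a, b)`; the children of that value are values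
      obtain ⟨a, b, ha, hab⟩ := ih m hlt hmN
        (φ.comp (IntermediateField.inclusion (levelField_mono k (dvd_mul_left m p))))
      obtain ⟨n₁, hn₁⟩ := hMN
      have hn₁0 : n₁ ≠ 0 := fun h => NeZero.ne N₀ (by rw [hn₁, h, mul_zero])
      have hdiv : N₀ / m = p * n₁ := by
        rw [hn₁, mul_right_comm]
        exact Nat.mul_div_cancel _ (Nat.pos_of_neZero m)
      have hdiv' : N₀ / (p * m) = n₁ := by
        rw [hn₁]
        exact Nat.mul_div_cancel_left _ (Nat.pos_of_neZero _)
      have ha0 : a ≠ 0 := fun h => NeZero.ne m (Nat.eq_zero_of_zero_dvd (h ▸ ha))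
      have : NeZero (a * a * n₁) := ⟨Nat.mul_ne_zero (Nat.mul_ne_zero ha0 ha0) hn₁0⟩
      obtain ⟨d, rfl⟩ := ha
      have hζ : IsPrimitiveRoot (ξ ^ (n₁ * (a * d))) p :=
        hξ.pow (Nat.pos_of_neZero N₀) (by rw [hn₁]; ring)
      have hφ : φ.toRingHom (jE k (p * (a * d)) (a * d) (dvd_mul_left _ _))
          = inc k N₀ (jb k ((ξ ^ (n₁ * (a * b))) ^ p) (p * (a * a * n₁))) := by
        refine Eq.trans ?_ (hab.trans ?_)
        · rfl
        · rw [val, hdiv, ← pow_mul]
          ring_nf
      obtain ⟨i, hi⟩ := exists_child_of_apply hζ (dvd_mul_left _ _) dvd_rfl φ.toRingHom hφ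
      cases i with
      | none =>
        refine ⟨p * a, p * b, Nat.mul_dvd_mul_left p (dvd_mul_right a d), ?_⟩
        refine Eq.trans (show φ _ = φ.toRingHom _ from rfl) (hi.trans ?_)
        rw [val, hdiv', child, ← pow_mul]
        ring_nf
      | some β =>
        refine ⟨a, b + d * β, (dvd_mul_right a d).trans (dvd_mul_left _ p), ?_⟩
        refine Eq.trans (show φ _ = φ.toRingHom _ from rfl) (hi.trans ?_)
        rw [val, hdiv', child, ← pow_mul, ← pow_add]
        ring_nf

/-- If `pM ∣ N₀`, every embedding of the field of level `M` takes values in series in `u^p`. -/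
theorem mem_range_of_algHom {N₀ M p : ℕ} [NeZero N₀] [NeZero M] [NeZero p] {ξ : kˣ}
    (hξ : IsPrimitiveRoot ξ N₀) (hpM : p * M ∣ N₀)
    (φ : levelField k M →ₐ[jField k] Branch k N₀) (x : levelField k M) :
    φ x ∈ ((inc k N₀).comp (qExpand k p)).fieldRange := by
  set S := ((inc k N₀).comp (qExpand k p)).fieldRange
  obtain ⟨t, ht⟩ := hpM
  have : NeZero (M * t) := ⟨fun h => NeZero.ne N₀ (by rw [ht, mul_assoc, h, mul_zero])⟩
  obtain ⟨x, hx⟩ := x
  -- check it on generators: there the values are series in `u^p`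
  induction hx using IntermediateField.adjoin_induction with
  | mem y hy =>
    obtain ⟨δ, hne, hδ, rfl⟩ := hy
    have := hne
    have hδN : δ ∣ N₀ := hδ.trans ⟨p * t, by rw [ht]; ring⟩
    obtain ⟨a, b, haδ, hab⟩ := exists_val_of_algHom hξ δ hδN
      (φ.comp (IntermediateField.inclusion (levelField_mono k hδ)))
    have hdiv : N₀ / δ = p * (M / δ * t) := by
      obtain ⟨e, rfl⟩ := hδ
      rw [ht, show p * (δ * e) * t = p * (e * t) * δ by ring,
        Nat.mul_div_cancel _ (Nat.pos_of_neZero δ), Nat.mul_div_cancel_left _ (Nat.pos_of_neZero δ)]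
    have ha0 : a ≠ 0 := fun h => NeZero.ne δ (Nat.eq_zero_of_zero_dvd (h ▸ haδ))
    have : NeZero (a * a * (M / δ * t)) :=
      ⟨Nat.mul_ne_zero (Nat.mul_ne_zero ha0 ha0) fun h => by
        rw [h, mul_zero] at hdiv
        exact NeZero.ne N₀ (by rw [← Nat.mul_div_cancel' hδN, hdiv, mul_zero])⟩
    refine RingHom.mem_fieldRange.mpr
      ⟨jb k (ξ ^ (N₀ / δ * (a * b))) (a * a * (M / δ * t)), ?_⟩
    rw [RingHom.comp_apply, qExpand_jb]
    have e1 : (jE k δ δ dvd_rfl : LaurentSeries k) = qExpand k δ (jqModC k) := jb_one δ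
    refine Eq.trans ?_ (hab.symm.trans ?_)
    · rw [val, hdiv]
      ring_nf
    · rw [AlgHom.comp_apply]
      congr 1
      exact Subtype.ext e1
  | algebraMap r =>
    rw [show (⟨algebraMap _ _ r, _⟩ : levelField k M) = algebraMap (jField k) (levelField k M) r
      from rfl, AlgHom.commutes, algebraMap_branch]
    refine RingHom.mem_fieldRange.mpr ⟨qExpand k (M * t) (r : LaurentSeries k), ?_⟩
    rw [RingHom.comp_apply, qExpand_qExpand]
    exact congrArg _ (qExpand_congr (by rw [ht, mul_assoc]) _)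
  | add y z hy hz h1 h2 =>
    have : (⟨y + z, add_mem hy hz⟩ : levelField k M) = ⟨y, hy⟩ + ⟨z, hz⟩ := rfl
    rw [this, map_add]
    exact add_mem h1 h2
  | inv y hy h1 =>
    have : (⟨y⁻¹, inv_mem hy⟩ : levelField k M) = (⟨y, hy⟩ : levelField k M)⁻¹ := rfl
    rw [this, map_inv₀]
    exact inv_mem h1
  | mul y z hy hz h1 h2 =>
    have : (⟨y * z, mul_mem hy hz⟩ : levelField k M) = ⟨y, hy⟩ * ⟨z, hz⟩ := rfl
    rw [this, map_mul]
    exact mul_mem h1 h2

end Fermat.RED
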