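import Fermat.Agent.RED.Branch
import Fermat.Agent.RED.Adjoin

/-!
# The degree of the level field

For `M` invertible in the algebraically closed field `k`, the field of level `M` has degree `ψ(M)`
over `k(j)`, in every characteristic, and every value of `RED/Branch` comes from an embedding. The
proof is an induction over the primes dividing `M`.
-/

set_option autoImplicit false

noncomputable section

open ModularCurve Polynomial IntermediateField

namespace Fermat.RED

variable {k : Type*} [Field k]

/-- Roots of an equation with coefficients series in `q^p` are stable under `q ↦ η q`, `η^p = 1`. -/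
theorem isRoot_twist_of_qExpand {K : Type*} [Field K] {p : ℕ} [NeZero p]
    (f : K →+* LaurentSeries k) (G : K[X]) {η : kˣ} (hη : η ^ p = 1) {x : LaurentSeries k}
    (h : (G.map ((qExpand k p).comp f)).IsRoot x) :
    (G.map ((qExpand k p).comp f)).IsRoot (twist η x) := by
  have hc : (twist η).comp ((qExpand k p).comp f) = (qExpand k p).comp f := by
    refine RingHom.ext fun a => ?_
    simp [twist_qExpand, hη]
  rw [IsRoot.def, ← hc, eval_map, ← hom_eval₂, ← eval_map, h.eq_zero, map_zero]

variable [IsAlgClosed k]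

section Step

variable {p m : ℕ} [Fact p.Prime] [NeZero m]

/-- Each `j (q ^ δ)`, `δ ∣ p m`, lies in the field of level `m` with `j (q ^ (p m))` adjoined. -/
theorem jb_mul_mem_adjoin (hpm : ((p * m : ℕ) : k) ≠ 0) (δ : ℕ) (hδ : δ ∣ p * m) :
    jb k 1 δ ∈ ((levelField k m)⟮jb k 1 (p * m)⟯).restrictScalars (jField k) := by
  set E := ((levelField k m)⟮jb k 1 (p * m)⟯).restrictScalars (jField k)
  have hp : p.Prime := Fact.out
  have : NeZero (p * m) := ⟨Nat.mul_ne_zero hp.ne_zero (NeZero.ne m)⟩
  suffices H : ∀ e δ, δ * e = p * m → jb k 1 δ ∈ E from H _ δ (Nat.mul_div_cancel' hδ)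
  intro e
  induction e using Nat.strong_induction_on with
  | _ e ih =>
    intro δ hδe
    have : NeZero δ := ⟨fun h => NeZero.ne (p * m) (by rw [← hδe, h, zero_mul])⟩
    by_cases hδm : δ ∣ m
    · exact mem_adjoinSimple_of_mem _ _ (jb_mem_levelField k hδm)
    by_cases he : e = 1
    · subst he
      rw [mul_one] at hδe
      rw [hδe]
      exact IntermediateField.mem_adjoin_simple_self _ _
    have hpδ : p ∣ δ := by
      by_contra hpd
      exact hδm (((hp.coprime_iff_not_dvd.mpr hpd).symm).dvd_of_dvd_mul_left ⟨e, hδe.symm⟩)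
    obtain ⟨r, hr, f, rfl⟩ : ∃ r, r.Prime ∧ ∃ f, e = r * f :=
      ⟨e.minFac, Nat.minFac_prime he, e / e.minFac, (Nat.mul_div_cancel' e.minFac_dvd).symm⟩
    have hf : 0 < f := Nat.pos_of_ne_zero fun h => by
      rw [h, mul_zero, mul_zero] at hδe
      exact NeZero.ne (p * m) hδe.symm
    have hrp : r ≠ p := fun h => hδm ⟨f, Nat.eq_of_mul_eq_mul_left hp.pos (by
      rw [← hδe, h]; ring)⟩
    have ha : jb k 1 (δ * r) ∈ E :=
      ih f (lt_mul_of_one_lt_left hf hr.one_lt) (δ * r) (by rw [mul_assoc, hδe])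
    -- `δ r` is larger and `δ / p` divides `m`: both branches are in `E`
    have hb : jb k 1 (δ / p) ∈ E := by
      obtain ⟨δ', rfl⟩ := hpδ
      rw [Nat.mul_div_cancel_left _ hp.pos]
      refine mem_adjoinSimple_of_mem _ _
        (jb_mem_levelField k ⟨r * f, Nat.eq_of_mul_eq_mul_left hp.pos ?_⟩)
      rw [← hδe]; ring
    have := Fact.mk hr
    have : NeZero r := ⟨hr.ne_zero⟩
    obtain ⟨ζp, hζp⟩ := exists_isPrimitiveRoot_unit k p
      (natCast_ne_zero_of_dvd (dvd_mul_right p m) hpm)
    obtain ⟨ζr, hζr⟩ := exists_isPrimitiveRoot_unit k r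
      (natCast_ne_zero_of_dvd ⟨δ * f, by rw [← hδe]; ring⟩ hpm)
    exact jb_mem E.toSubfield hp hr hpδ (levelOne p) (levelOne r) hζp hζr ha hb

/-- The field of level `p m` is obtained from that of level `m` by adjoining `j_(pm)`. -/
theorem levelField_prime_mul (hpm : ((p * m : ℕ) : k) ≠ 0) :
    levelField k (p * m)
      = ((levelField k m)⟮jb k 1 (p * m)⟯).restrictScalars (jField k) := by
  have : NeZero (p * m) := ⟨Nat.mul_ne_zero (Fact.out : p.Prime).ne_zero (NeZero.ne m)⟩
  refine le_antisymm (IntermediateField.adjoin_le_iff.mpr ?_)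
    (adjoinSimple_le _ _ _ (levelField_mono k (dvd_mul_left m p)) (jb_mem_levelField k dvd_rfl))
  rintro x ⟨δ, hne, hδ, rfl⟩
  have := hne
  rw [← jb_one δ]
  exact jb_mul_mem_adjoin hpm δ hδ

omit [IsAlgClosed k] in
/-- `j_(pm)` is integral over the field of level `m`. -/
theorem isIntegral_jb_mul {ζ : kˣ} (hζ : IsPrimitiveRoot ζ p) :
    IsIntegral (levelField k m) (jb k 1 (p * m)) :=
  ⟨modPolyAt k p m m dvd_rfl, modPolyAt_monic _, aeval_modPolyAt_top hζ m⟩

/-- The degree of the field of level `p m` by multiplicativity. -/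
theorem finrank_levelField_prime_mul (hpm : ((p * m : ℕ) : k) ≠ 0) :
    Module.finrank (jField k) (levelField k (p * m))
      = Module.finrank (jField k) (levelField k m)
        * (minpoly (levelField k m) (jb k 1 (p * m))).natDegree := by
  obtain ⟨ζ, hζ⟩ := exists_isPrimitiveRoot_unit k p
    (natCast_ne_zero_of_dvd (dvd_mul_right p m) hpm)
  rw [levelField_prime_mul hpm]
  exact finrank_adjoinSimple _ (isIntegral_jb_mul hζ)

omit [IsAlgClosed k] in
/-- The minimal polynomial of `j_(pm)` has as degree the number of children which are roots of its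
image along a branch. -/
theorem natDegree_minpoly_eq_card {ζ c : kˣ} (hζ : IsPrimitiveRoot ζ p) {a : ℕ} [NeZero a]
    (h : levelField k m →+* LaurentSeries k)
    (hj : h (jE k m m dvd_rfl) = jb k (c ^ p) (p * a)) [DecidablePred fun i =>
      ((minpoly (levelField k m) (jb k 1 (p * m))).map h).IsRoot (child k p ζ c a i)] :
    (minpoly (levelField k m) (jb k 1 (p * m))).natDegree
      = (Finset.univ.filter fun i =>
          ((minpoly (levelField k m) (jb k 1 (p * m))).map h).IsRoot (child k p ζ c a i)).card := by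
  classical
  have hdvd := Polynomial.map_dvd h (minpoly.dvd _ _ (aeval_modPolyAt_top (k := k) hζ m))
  rw [modPolyAt_map, hj, ← evalAt,
    ((levelOne p).identities_of_isPrimitiveRoot hζ).map_Φ_eq c a] at hdvd
  have := natDegree_eq_card_of_dvd_prod (child_injective (Fact.out : p.Prime).one_lt hζ c a) hdvd
  rw [Polynomial.natDegree_map] at this
  convert this

/-- `j(q^(pm))` is not in the field of level `m` when `p ∤ m`. -/
theorem jb_mul_not_mem_levelField (hp : ¬ p ∣ m) (hpm : ((p * m : ℕ) : k) ≠ 0)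
    (hfin : 0 < Module.finrank (jField k) (levelField k m)) :
    jb k 1 (p * m) ∉ levelField k m := by
  classical
  intro hmem
  have hpp : p.Prime := Fact.out
  have : NeZero (p * m) := ⟨Nat.mul_ne_zero hpp.ne_zero (NeZero.ne m)⟩
  obtain ⟨ξ, hξ⟩ := exists_isPrimitiveRoot_unit k (p * m) hpm
  obtain ⟨ζ, hζ⟩ := exists_isPrimitiveRoot_unit k p
    (natCast_ne_zero_of_dvd (dvd_mul_right p m) hpm)
  have hle : levelField k (p * m) ≤ levelField k m := by
    rw [levelField_prime_mul hpm]
    exact adjoinSimple_le _ _ _ le_rfl hmem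
  have hp1 : p ∣ p * m := dvd_mul_right p m
  set x : levelField k m := IntermediateField.inclusion hle (jE k (p * m) p hp1) with hx
  -- every embedding sends `j_p` to the same series
  have key : ∀ φ : levelField k m →ₐ[jField k] Branch k (p * m),
      φ x = inc k (p * m) (child k p ζ 1 m none) := by
    intro φ
    set φ' := φ.comp (IntermediateField.inclusion hle)
    have hj : jE k (p * m) 1 (one_dvd _)
        = algebraMap (jField k) (levelField k (p * m)) ⟨jqModC k, jqModC_mem_jField k⟩ := by
      apply Subtype.ext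
      simp [jb_one, qExpand_one_apply]
    have h1 : φ'.toRingHom (jE k (p * m) 1 (one_dvd _))
        = inc k (p * m) (jb k ((1 : kˣ) ^ p) (p * m)) := by
      rw [show φ'.toRingHom (jE k (p * m) 1 (one_dvd _)) = φ' (jE k (p * m) 1 (one_dvd _)) from rfl,
        hj, AlgHom.commutes, algebraMap_branch, one_pow, jb_one]
    obtain ⟨i, hi⟩ := exists_child_of_apply (m := 1) hζ (one_dvd _) (by simp) φ'.toRingHom h1
    have hi' : φ x = inc k (p * m) (child k p ζ 1 m i) := by
      rw [← hi, hx]
      change φ' _ = φ' _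
      congr 1
      exact Subtype.ext (by simp)
    cases i with
    | none => exact hi'
    | some β =>
      exfalso
      obtain ⟨w, hw⟩ := RingHom.mem_fieldRange.mp (mem_range_of_algHom hξ dvd_rfl φ x)
      rw [hi', RingHom.comp_apply] at hw
      exact jb_ne_qExpand _ _ hp w (inc_injective k _ hw).symm
  -- so `j_p` lies in `k(j)`
  set g := minpoly (jField k) x with hg
  have hint : IsIntegral (jField k) x := isIntegral_of_finrank_pos _ hfin x
  set hq : jField k →+* LaurentSeries k := (qExpand k (p * m)).comp (jField k).val.toRingHom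
  set P : (jField k)[X] := (levelOne p).Φ.map
    (eval₂RingHom (Int.castRingHom _) (⟨jqModC k, jqModC_mem_jField k⟩ : jField k))
  have hPx : aeval x P = 0 := by
    apply (levelField k m).val.toRingHom.injective
    change (levelField k m).val (aeval x P) = (levelField k m).val 0
    rw [map_zero, ← aeval_algHom_apply, aeval_def, ← eval_map, map_evalI]
    have h0 := eval_modular_self_mul (k := k) hζ 1
    simp only [mul_one, jb_one 1, qExpand_one_apply] at h0
    have hv : (levelField k m).val x = jb k 1 p := by simp [hx]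
    rw [hv]
    exact h0
  have hdvd := Polynomial.map_dvd hq (minpoly.dvd _ _ hPx)
  have hj2 : hq ⟨jqModC k, jqModC_mem_jField k⟩ = jb k ((1 : kˣ) ^ p) (p * m) := by
    simp [hq, jb_one]
  rw [map_evalI, hj2, ← evalAt,
    ((levelOne p).identities_of_isPrimitiveRoot hζ).map_Φ_eq 1 m] at hdvd
  have hcard := natDegree_eq_card_of_dvd_prod (child_injective hpp.one_lt hζ 1 m) hdvd
  have hsub : (Finset.univ.filter fun i => (g.map hq).IsRoot (child k p ζ 1 m i)) ⊆ {none} := by
    intro i hi
    rw [Finset.mem_singleton]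
    apply child_injective hpp.one_lt hζ 1 m
    apply inc_injective k (p * m)
    have hroot : (g.map (algebraMap (jField k) (Branch k (p * m)))).IsRoot
        (inc k (p * m) (child k p ζ 1 m i)) := by
      rw [IsRoot.def, show algebraMap (jField k) (Branch k (p * m))
          = (inc k (p * m)).comp hq from rfl, eval_map, ← eval₂_map, eval₂_at_apply,
        (Finset.mem_filter.mp hi).2.eq_zero, map_zero]
    obtain ⟨φ, hφ⟩ := exists_algHom_of_isRoot _ hfin x hroot
    exact hφ.symm.trans (key φ)
  have hdeg : g.degree = 1 := by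
    rw [degree_eq_natDegree (minpoly.ne_zero hint)]
    have h1 : g.natDegree ≤ 1 := by
      rw [← Polynomial.natDegree_map hq, hcard]
      exact le_trans (Finset.card_le_card hsub) (by simp)
    have h2 := minpoly.natDegree_pos hint
    rw [show g.natDegree = 1 from le_antisymm h1 h2]
    rfl
  obtain ⟨y, hy⟩ := minpoly.mem_range_of_degree_eq_one _ _ hdeg
  refine jb_prime_not_mem_jField hpp (levelOne p) hζ
    (natCast_ne_zero_of_dvd (dvd_mul_right p m) hpm) ?_
  have hv : (levelField k m).val x = jb k 1 p := by simp [hx]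
  rw [← hv, ← hy]
  exact y.2

/-- Adjoining `j (q ^ (p m))` has degree `p + 1` for `p ∤ m`. -/
theorem natDegree_minpoly_of_not_dvd (hp : ¬ p ∣ m) (hpm : ((p * m : ℕ) : k) ≠ 0)
    (hfin : 0 < Module.finrank (jField k) (levelField k m)) :
    (minpoly (levelField k m) (jb k 1 (p * m))).natDegree = p + 1 := by
  classical
  have hpp : p.Prime := Fact.out
  have : NeZero (p * m) := ⟨Nat.mul_ne_zero hpp.ne_zero (NeZero.ne m)⟩
  obtain ⟨ζ, hζ⟩ := exists_isPrimitiveRoot_unit k p
    (natCast_ne_zero_of_dvd (dvd_mul_right p m) hpm)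
  set h : levelField k m →+* LaurentSeries k :=
    (qExpand k p).comp (levelField k m).val.toRingHom with hh
  have hj : h (jE k m m dvd_rfl) = jb k ((1 : kˣ) ^ p) (p * m) := by
    simp [hh, qExpand_jb]
  set G := minpoly (levelField k m) (jb k 1 (p * m))
  have hcard := natDegree_minpoly_eq_card hζ h hj
  have hint := isIntegral_jb_mul (m := m) hζ
  have hne1 : G.natDegree ≠ 1 := fun h1 => by
    obtain ⟨y, hy⟩ := minpoly.mem_range_of_degree_eq_one (levelField k m) (jb k 1 (p * m)) (by
      rw [degree_eq_natDegree (minpoly.ne_zero hint), h1]; rfl)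
    exact jb_mul_not_mem_levelField hp hpm hfin (hy ▸ y.2)
  -- the child `none` is a root; another root gives all others by twisting
  have hnone : (G.map h).IsRoot (child k p ζ 1 m none) := by
    have e : child k p ζ 1 m none = qExpand k p (jb k 1 (p * m)) := by
      simp [child, qExpand_jb, mul_assoc]
    rw [IsRoot.def, e, eval_map, hh, ← hom_eval₂]
    exact (congrArg _ (minpoly.aeval (levelField k m) (jb k 1 (p * m)))).trans (map_zero _)
  obtain ⟨β₀, hβ₀⟩ : ∃ β, (G.map h).IsRoot (child k p ζ 1 m (some β)) := by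
    by_contra hno
    push Not at hno
    apply hne1
    rw [hcard, Finset.card_eq_one]
    refine ⟨none, Finset.ext fun i => ?_⟩
    rw [Finset.mem_filter, Finset.mem_singleton]
    cases i with
    | none => exact ⟨fun _ => rfl, fun _ => ⟨Finset.mem_univ _, hnone⟩⟩
    | some β => exact ⟨fun h => absurd h.2 (hno β), fun h => nomatch h⟩
  have hall : ∀ i, (G.map h).IsRoot (child k p ζ 1 m i) := by
    intro i
    cases i with
    | none => exact hnone
    | some β =>
      set t : ℕ := (((β : ℕ) : ZMod p) - ((β₀ : ℕ) : ZMod p)).val *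
        ((m : ZMod p)⁻¹).val with ht
      have hη : (ζ ^ t) ^ p = 1 := by rw [← pow_mul, mul_comm, pow_mul, hζ.pow_eq_one, one_pow]
      have := isRoot_twist_of_qExpand _ G hη hβ₀
      convert this using 1
      simp only [child, twist_jb, mul_one, ← pow_mul, ← pow_add]
      refine congrArg (jb k · m) ?_
      rw [pow_eq_pow_iff_modEq, ← hζ.eq_orderOf, ← ZMod.natCast_eq_natCast_iff]
      have hm0 : (m : ZMod p) ≠ 0 := fun h => hp ((ZMod.natCast_eq_zero_iff m p).mp h)
      push_cast [ht, ZMod.natCast_zmod_val]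
      field_simp
      ring
  rw [hcard, Finset.filter_true_of_mem fun i _ => hall i]
  simp

/-- Adjoining `j (q ^ (p m))` has degree `p` for `p ∣ m`. -/
theorem natDegree_minpoly_of_dvd (hp : p ∣ m) (hpm : ((p * m : ℕ) : k) ≠ 0) [NeZero (p * m)]
    {ξ : kˣ} (hξ : IsPrimitiveRoot ξ (p * m))
    (φ : levelField k m →ₐ[jField k] Branch k (p * m))
    (hφ : φ (jE k m m dvd_rfl) = inc k (p * m) (jb k 1 p)) :
    (minpoly (levelField k m) (jb k 1 (p * m))).natDegree = p := by
  classical
  have hpp : p.Prime := Fact.out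
  obtain ⟨e, rfl⟩ := hp
  have : NeZero e := ⟨fun h => NeZero.ne (p * e) (by rw [h, mul_zero])⟩
  obtain ⟨ζ, hζ⟩ := exists_isPrimitiveRoot_unit k p
    (natCast_ne_zero_of_dvd (dvd_mul_right p _) hpm)
  set f : LaurentSeries k →+* Branch k (p * (p * e)) := (inc k _).comp (qExpand k p) with hf
  set φ₀ : levelField k (p * e) →+* LaurentSeries k :=
    f.rangeRestrictFieldEquiv.symm.toRingHom.comp
      (φ.toRingHom.codRestrict f.fieldRange fun x => mem_range_of_algHom hξ dvd_rfl φ x) with hφ₀
  have hspec : ∀ x, f (φ₀ x) = φ x := by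
    intro x
    have := f.rangeRestrictFieldEquiv.apply_symm_apply
      ⟨φ x, mem_range_of_algHom hξ dvd_rfl φ x⟩
    exact congrArg Subtype.val this
  set h : levelField k (p * e) →+* LaurentSeries k := (qExpand k p).comp φ₀ with hh
  have hinc : ∀ x, inc k (p * (p * e)) (h x) = φ x := hspec
  have hj : h (jE k (p * e) (p * e) dvd_rfl) = jb k ((1 : kˣ) ^ p) (p * 1) := by
    apply inc_injective k (p * (p * e))
    rw [hinc, hφ, one_pow, mul_one]
  set G := minpoly (levelField k (p * e)) (jb k 1 (p * (p * e)))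
  have hcard := natDegree_minpoly_eq_card hζ h hj
  have hint := isIntegral_jb_mul (m := p * e) hζ
  -- `j_e` sits at the unramified root
  set w := jE k (p * e) e (dvd_mul_left e p)
  have hw : h w = child k p ζ 1 1 none := by
    have h0 := congrArg h (eval_modPolyAt_div hζ (M := p * e) (m := e) dvd_rfl)
    rw [map_zero, ← eval₂_at_apply, ← eval_map, modPolyAt_map, hj, ← evalAt,
      ((levelOne p).identities_of_isPrimitiveRoot hζ).map_Φ_eq 1 1, eval_prod,
      Finset.prod_eq_zero_iff] at h0
    obtain ⟨i, -, hi⟩ := h0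
    rw [eval_sub, eval_X, eval_C, sub_eq_zero] at hi
    cases i with
    | none => exact hi
    | some β =>
      exfalso
      exact jb_ne_qExpand _ 1 hpp.not_dvd_one _ hi.symm
  have hnone : ¬ (G.map h).IsRoot (child k p ζ 1 1 none) := by
    intro hr
    rw [← hw] at hr
    have hGw : G.IsRoot w := hr.of_map h.injective
    have h1 := degree_eq_one_of_irreducible_of_root (minpoly.irreducible hint) hGw
    obtain ⟨y, hy⟩ := minpoly.mem_range_of_degree_eq_one (levelField k (p * e))
      (jb k 1 (p * (p * e))) h1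
    have hG : G = X - C y := by
      rw [← minpoly.eq_X_sub_C' (A := levelField k (p * e)) y]
      change minpoly _ _ = _
      rw [← hy, minpoly.algebraMap_eq (algebraMap (levelField k (p * e)) _).injective]
    rw [hG, IsRoot.def, eval_sub, eval_X, eval_C, sub_eq_zero] at hGw
    subst hGw
    have := (jb_inj (e := e) (e' := p * (p * e)) hy).2
    have h2 : 1 * e = p * p * e := by rw [one_mul, mul_assoc]; exact this
    have h3 := Nat.eq_of_mul_eq_mul_right (Nat.pos_of_neZero e) h2
    exact hpp.one_lt.ne' (Nat.eq_one_of_mul_eq_one_right h3.symm)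
  obtain ⟨β₀, hβ₀⟩ : ∃ β, (G.map h).IsRoot (child k p ζ 1 1 (some β)) := by
    by_contra hno
    push Not at hno
    have h0 : G.natDegree = 0 := by
      rw [hcard, Finset.card_eq_zero]
      refine Finset.filter_false_of_mem fun i _ => ?_
      cases i with
      | none => exact hnone
      | some β => exact hno β
    exact (minpoly.natDegree_pos hint).ne' h0
  have hall : ∀ β, (G.map h).IsRoot (child k p ζ 1 1 (some β)) := by
    intro β
    set t : ℕ := β + (p - β₀) with ht
    have hη : (ζ ^ t) ^ p = 1 := by rw [← pow_mul, mul_comm, pow_mul, hζ.pow_eq_one, one_pow]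
    have := isRoot_twist_of_qExpand _ G hη hβ₀
    convert this using 1
    simp only [child, twist_jb, mul_one, pow_one, ← pow_add]
    refine congrArg (jb k · 1) ?_
    rw [pow_eq_pow_iff_modEq, ← hζ.eq_orderOf]
    have hlt := β₀.2
    rw [show t + β₀ = β + p by omega]
    exact (Nat.add_modEq_right (a := β) (n := p)).symm
  rw [hcard, show (Finset.univ.filter fun i => (G.map h).IsRoot (child k p ζ 1 1 i))
      = Finset.univ.erase none from Finset.ext fun i => by
        rw [Finset.mem_filter, Finset.mem_erase]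
        cases i with
        | none => exact ⟨fun h => absurd h.2 hnone, fun h => absurd rfl h.1⟩
        | some β =>
          exact ⟨fun _ => ⟨nofun, Finset.mem_univ _⟩, fun _ => ⟨Finset.mem_univ _, hall β⟩⟩,
    Finset.card_erase_of_mem (Finset.mem_univ _)]
  simp

end Step

/-- The hypothesis that the degree is `ψ` up to level `M`. -/
def DegreeUpTo (k : Type*) [Field k] (M : ℕ) : Prop :=
  ∀ M', M' ≤ M → (M' : k) ≠ 0 → Module.finrank (jField k) (levelField k M') = dedekindPsi M'

/-- `ψ(M)` is positive. -/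
theorem dedekindPsi_pos {M : ℕ} (hM : M ≠ 0) : 0 < dedekindPsi M := by
  refine Finset.sum_pos' (fun _ _ => Nat.zero_le _) ⟨1, ?_, ?_⟩
  · simp [hM]
  · simp [Nat.pos_of_ne_zero hM]

/-- A root of the image of `Φ_p(j_m, Y)` is a conjugate of `j_(pm)` or, if `p ∣ m`, of `j_(m/p)`. -/
theorem exists_extension {p m N₀ : ℕ} [Fact p.Prime] [NeZero m] [NeZero N₀] [NeZero (p * m)]
    (hdeg : DegreeUpTo k (p * m)) (hpm : ((p * m : ℕ) : k) ≠ 0)
    (φ : levelField k m →ₐ[jField k] Branch k N₀) {z : Branch k N₀}
    (hz : ((modPolyAt k p m m dvd_rfl).map φ.toRingHom).IsRoot z) :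
    (∃ φ' : levelField k (p * m) →ₐ[jField k] Branch k N₀, φ' (jE k (p * m) (p * m) dvd_rfl) = z) ∨
      ∃ (e : ℕ) (_ : NeZero e) (_ : m = p * e) (φ' : levelField k e →ₐ[jField k] Branch k N₀),
        φ' (jE k e e dvd_rfl) = z := by
  have hpp : p.Prime := Fact.out
  obtain ⟨ζ, hζ⟩ := exists_isPrimitiveRoot_unit k p
    (natCast_ne_zero_of_dvd (dvd_mul_right p m) hpm)
  set y := jb k 1 (p * m)
  set G := minpoly (levelField k m) y with hG
  set P := modPolyAt k p m m dvd_rfl with hP
  have hint := isIntegral_jb_mul (m := m) hζ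
  have hmle : m ≤ p * m := Nat.le_mul_of_pos_left m hpp.pos
  have hψm := hdeg m hmle (natCast_ne_zero_of_dvd (dvd_mul_left m p) hpm)
  have hψpm := hdeg (p * m) le_rfl hpm
  rw [finrank_levelField_prime_mul hpm, hψm, dedekindPsi_prime_mul hpp (NeZero.ne m)] at hψpm
  have hdegG : G.natDegree = if p ∣ m then p else p + 1 :=
    Nat.eq_of_mul_eq_mul_left (dedekindPsi_pos (NeZero.ne m)) (by rw [hψpm, mul_comm])
  have hGP : G ∣ P := minpoly.dvd _ _ (aeval_modPolyAt_top hζ m)
  have hdegP : P.natDegree = p + 1 := natDegree_modPolyAt _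
  -- either a root of `G`, or the value of `j_(m/p)`
  have hcases : (G.map φ.toRingHom).IsRoot z ∨
      ∃ (e : ℕ) (he : m = p * e), z = φ (jE k m e ⟨p, by rw [he, mul_comm]⟩) := by
    by_cases hp : p ∣ m
    · obtain ⟨e, rfl⟩ := hp
      have : NeZero e := ⟨fun h => NeZero.ne (p * e) (by rw [h, mul_zero])⟩
      set w := jE k (p * e) e ⟨p, mul_comm _ _⟩
      have hGw : ¬ G.IsRoot w := by
        intro hr
        have h1 := degree_eq_one_of_irreducible_of_root (minpoly.irreducible hint) hr
        rw [degree_eq_natDegree (minpoly.ne_zero hint), hdegG, if_pos (dvd_mul_right p e)] at h1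
        exact hpp.one_lt.ne' (by exact_mod_cast h1)
      have hwP : (X - C w) ∣ P := dvd_iff_isRoot.mpr (eval_modPolyAt_div hζ dvd_rfl)
      have hcop : IsCoprime (X - C w) G :=
        (irreducible_X_sub_C w).coprime_iff_not_dvd.mpr fun h => hGw (dvd_iff_isRoot.mp h)
      have hmul : (X - C w) * G ∣ P := hcop.mul_dvd hwP hGP
      have heq : (X - C w) * G = P := by
        refine (eq_of_monic_of_dvd_of_natDegree_le ((monic_X_sub_C w).mul (minpoly.monic hint))
          (modPolyAt_monic _) hmul ?_).symm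
        rw [hdegP, natDegree_mul (X_sub_C_ne_zero w) (minpoly.ne_zero hint), natDegree_X_sub_C,
          hdegG, if_pos (dvd_mul_right p e), add_comm]
      rw [← heq, Polynomial.map_mul, IsRoot.def, eval_mul, mul_eq_zero] at hz
      rcases hz with hz | hz
      · right
        refine ⟨e, rfl, ?_⟩
        rw [Polynomial.map_sub, map_X, map_C, eval_sub, eval_X, eval_C, sub_eq_zero] at hz
        exact hz
      · exact Or.inl hz
    · left
      have heq : G = P := (eq_of_monic_of_dvd_of_natDegree_le (minpoly.monic hint)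
        (modPolyAt_monic _) hGP (by rw [hdegP, hdegG, if_neg hp])).symm
      rw [heq]
      exact hz
  rcases hcases with hroot | ⟨e, rfl, hze⟩
  · left
    obtain ⟨ψ, hψ⟩ := exists_algHom_extension (levelField k m) (levelField k (p * m)) hint φ hroot
      (levelField_prime_mul hpm).le
    exact ⟨ψ, hψ _⟩
  · right
    have : NeZero e := ⟨fun h => NeZero.ne (p * e) (by rw [h, mul_zero])⟩
    refine ⟨e, ‹_›, rfl, φ.comp (IntermediateField.inclusion
      (levelField_mono k (dvd_mul_left e p))), ?_⟩
    rw [hze]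
    rfl

/-- Every value `val (a, b)` is a conjugate of some `j_(M/g²)`. -/
theorem exists_algHom_of_val {N₀ : ℕ} [NeZero N₀] {ξ : kˣ} (hξ : IsPrimitiveRoot ξ N₀) :
    ∀ (M : ℕ), M ∣ N₀ → (M : k) ≠ 0 → DegreeUpTo k M → ∀ a b, a ∣ M →
      ∃ (M' g : ℕ) (_ : NeZero M') (_ : M = g * g * M')
        (φ : levelField k M' →ₐ[jField k] Branch k N₀),
        φ (jE k M' M' dvd_rfl) = inc k N₀ (val k ξ N₀ M a b) := by
  intro M
  induction M using Nat.strong_induction_on with
  | _ M ih =>
    intro hMN hMk hdeg a b ha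
    have : NeZero M := ⟨fun h => hMk (by simp [h])⟩
    by_cases hM1 : M = 1
    · subst hM1
      obtain rfl := Nat.dvd_one.mp ha
      refine ⟨1, 1, inferInstance, rfl, inftyHom k 1 N₀, ?_⟩
      change inc k N₀ (qExpand k N₀ (jb k 1 1)) = _
      rw [qExpand_jb, val]
      simp [pow_mul, hξ.pow_eq_one]
    · obtain ⟨p, hp, m, rfl⟩ : ∃ p, p.Prime ∧ ∃ m, M = p * m :=
        ⟨M.minFac, Nat.minFac_prime hM1, M / M.minFac,
          (Nat.mul_div_cancel' M.minFac_dvd).symm⟩
      have := Fact.mk hp
      have : NeZero m := ⟨fun h => NeZero.ne (p * m) (by rw [h, mul_zero])⟩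
      have hmM : m ≤ p * m := Nat.le_mul_of_pos_left m hp.pos
      have hmN : m ∣ N₀ := (dvd_mul_left m p).trans hMN
      have hmk : (m : k) ≠ 0 := natCast_ne_zero_of_dvd (dvd_mul_left m p) hMk
      obtain ⟨n₁, hn₁⟩ := hMN
      have hn₁0 : n₁ ≠ 0 := fun h => NeZero.ne N₀ (by rw [hn₁, h, mul_zero])
      have hdiv : N₀ / m = p * n₁ := by
        rw [hn₁, mul_right_comm]
        exact Nat.mul_div_cancel _ (Nat.pos_of_neZero m)
      have hdiv' : N₀ / (p * m) = n₁ := by
        rw [hn₁]
        exact Nat.mul_div_cancel_left _ (Nat.pos_of_neZero _)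
      -- a parent value
      obtain ⟨a₀, b₀, i, ha₀, hval⟩ : ∃ (a₀ b₀ : ℕ) (i : Option (Fin p)), a₀ ∣ m ∧
          val k ξ N₀ (p * m) a b = child k p (ξ ^ (n₁ * m)) (ξ ^ (n₁ * (a₀ * b₀)))
            (a₀ * a₀ * n₁) i := by
        by_cases ham : a ∣ m
        · refine ⟨a, b, some ⟨0, hp.pos⟩, ham, ?_⟩
          simp [val, child, hdiv']
        · obtain ⟨a₀, rfl⟩ : p ∣ a := by
            by_contra hpa
            exact ham (((hp.coprime_iff_not_dvd.mpr hpa).symm).dvd_of_dvd_mul_left ha)
          obtain ⟨d, rfl⟩ : a₀ ∣ m := Nat.dvd_of_mul_dvd_mul_left hp.pos ha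
          have hpd : p.Coprime d := hp.coprime_iff_not_dvd.mpr fun ⟨d', hd'⟩ =>
            ham ⟨d', by rw [hd']; ring⟩
          obtain ⟨u, hu⟩ : ∃ u, p * u ≡ 1 [MOD d] := by
            rcases eq_or_ne d 1 with rfl | hd1
            · exact ⟨0, Nat.modEq_one⟩
            · have hd : 1 < d := by
                have : d ≠ 0 := fun h => NeZero.ne (a₀ * d) (by rw [h, mul_zero])
                omega
              obtain ⟨u, hu⟩ := Nat.exists_mul_mod_eq_one_of_coprime hpd hd
              exact ⟨u, by rw [Nat.ModEq, hu.2, Nat.mod_eq_of_lt hd]⟩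
          refine ⟨a₀, b * u, none, dvd_mul_right a₀ d, ?_⟩
          simp only [val, child, hdiv', ← pow_mul]
          rw [show p * p * (a₀ * a₀ * n₁) = p * a₀ * (p * a₀) * n₁ by ring]
          refine congrArg (jb k · _) ?_
          rw [pow_eq_pow_iff_modEq, ← hξ.eq_orderOf, hn₁,
            show n₁ * (a₀ * (b * u)) * (p * p) = n₁ * p * a₀ * (b * (p * u)) by ring,
            show n₁ * (p * a₀ * b) = n₁ * p * a₀ * (b * 1) by ring,
            show p * (a₀ * d) * n₁ = n₁ * p * a₀ * d by ring]
          exact ((hu.mul_left b).mul_left' _).symm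
      obtain ⟨M₀, g, hM₀, hm, φ₀, hφ₀⟩ :=
        ih m (lt_mul_of_one_lt_left (Nat.pos_of_neZero m) hp.one_lt)
        hmN hmk (fun M' h h' => hdeg M' (h.trans hmM) h') a₀ b₀ ha₀
      have : NeZero (p * M₀) := ⟨Nat.mul_ne_zero hp.ne_zero (NeZero.ne M₀)⟩
      have : NeZero (a₀ * a₀ * n₁) :=
        ⟨Nat.mul_ne_zero (Nat.mul_ne_zero (fun h => NeZero.ne m (Nat.eq_zero_of_zero_dvd (h ▸ ha₀)))
          (fun h => NeZero.ne m (Nat.eq_zero_of_zero_dvd (h ▸ ha₀)))) hn₁0⟩
      have hζ : IsPrimitiveRoot (ξ ^ (n₁ * m)) p :=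
        hξ.pow (Nat.pos_of_neZero N₀) (by rw [hn₁]; ring)
      have hdvd : p * M₀ ∣ p * m := Nat.mul_dvd_mul_left p ⟨g * g, by rw [hm]; ring⟩
      have hroot : ((modPolyAt k p M₀ M₀ dvd_rfl).map φ₀.toRingHom).IsRoot
          (inc k N₀ (val k ξ N₀ (p * m) a b)) := by
        have hv : φ₀.toRingHom (jE k M₀ M₀ dvd_rfl)
            = inc k N₀ (jb k ((ξ ^ (n₁ * (a₀ * b₀))) ^ p) (p * (a₀ * a₀ * n₁))) := by
          refine Eq.trans hφ₀ ?_
          rw [val, hdiv, ← pow_mul]
          ring_nf
        rw [IsRoot.def, modPolyAt_map, hv, ← map_evalI, ← evalAt,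
          ((levelOne p).identities_of_isPrimitiveRoot hζ).map_Φ_eq, Polynomial.map_prod, eval_prod]
        refine Finset.prod_eq_zero (Finset.mem_univ i) ?_
        rw [hval, Polynomial.map_sub, map_X, map_C, eval_sub, eval_X, eval_C, sub_self]
      rcases exists_extension (fun M' h h' =>
        hdeg M' (h.trans (Nat.le_of_dvd (Nat.pos_of_neZero _) hdvd)) h')
        (natCast_ne_zero_of_dvd hdvd hMk) φ₀ hroot with ⟨φ', hφ'⟩ | ⟨e, he, hMe, φ', hφ'⟩
      · exact ⟨p * M₀, g, inferInstance, by rw [hm]; ring, φ', hφ'⟩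
      · exact ⟨e, g * p, he, by rw [hm, hMe]; ring, φ', hφ'⟩

omit [IsAlgClosed k] in
/-- The field of level `1` is `k(j)`. -/
theorem finrank_levelField_one : Module.finrank (jField k) (levelField k 1) = 1 := by
  rw [IntermediateField.finrank_eq_one_iff, levelField, eq_bot_iff, IntermediateField.adjoin_le_iff]
  rintro x ⟨d, hne, hd, rfl⟩
  have := hne
  obtain rfl := Nat.dvd_one.mp hd
  rw [qExpand_one_apply]
  exact IntermediateField.mem_bot.mpr ⟨⟨_, jqModC_mem_jField k⟩, rfl⟩

/-- The degree of the field of level `M` over `k(j)` is `ψ(M)`. -/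
theorem finrank_levelField :
    ∀ (M : ℕ), (M : k) ≠ 0 → Module.finrank (jField k) (levelField k M) = dedekindPsi M := by
  intro M
  induction M using Nat.strong_induction_on with
  | _ M ih =>
    intro hMk
    have : NeZero M := ⟨fun h => hMk (by simp [h])⟩
    by_cases hM1 : M = 1
    · subst hM1
      rw [dedekindPsi_one]
      exact finrank_levelField_one
    · obtain ⟨p, hp, m, rfl⟩ : ∃ p, p.Prime ∧ ∃ m, M = p * m :=
        ⟨M.minFac, Nat.minFac_prime hM1, M / M.minFac,
          (Nat.mul_div_cancel' M.minFac_dvd).symm⟩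
      have := Fact.mk hp
      have : NeZero m := ⟨fun h => NeZero.ne (p * m) (by rw [h, mul_zero])⟩
      have hlt : m < p * m := lt_mul_of_one_lt_left (Nat.pos_of_neZero m) hp.one_lt
      have hmk : (m : k) ≠ 0 := natCast_ne_zero_of_dvd (dvd_mul_left m p) hMk
      have hψm := ih m hlt hmk
      -- the step from `m` to `p m` has degree `p + 1` or `p`
      have hup : DegreeUpTo k m := fun M' h h' => ih M' (h.trans_lt hlt) h'
      rw [finrank_levelField_prime_mul hMk, hψm, dedekindPsi_prime_mul hp (NeZero.ne m),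
        mul_comm]
      congr 1
      by_cases hpm : p ∣ m
      · rw [if_pos hpm]
        obtain ⟨ξ, hξ⟩ := exists_isPrimitiveRoot_unit k (p * m) hMk
        obtain ⟨M', g, hM', hg, φ, hφ⟩ :=
          exists_algHom_of_val hξ m (dvd_mul_left m p) hmk hup 1 0 (one_dvd m)
        have hm' : p * m / m = p := Nat.mul_div_cancel _ (Nat.pos_of_neZero m)
        have hv : val k ξ (p * m) m 1 0 = jb k 1 p := by simp [val, hm']
        obtain ⟨a', b', ha', hab⟩ := exists_val_of_algHom hξ M'
          (dvd_trans ⟨g * g, by rw [hg]; ring⟩ (dvd_mul_left m p)) φ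
        have : NeZero p := ⟨hp.ne_zero⟩
        have hdiv : p * m / M' = p * (g * g) := by
          rw [hg, show p * (g * g * M') = p * (g * g) * M' by ring]
          exact Nat.mul_div_cancel _ (Nat.pos_of_neZero M')
        have ha0 : a' ≠ 0 := fun h => NeZero.ne M' (Nat.eq_zero_of_zero_dvd (h ▸ ha'))
        have hg0 : g ≠ 0 := fun h => NeZero.ne m (by rw [hg, h, mul_zero, zero_mul])
        have : NeZero (a' * a' * (p * (g * g))) :=
          ⟨Nat.mul_ne_zero (Nat.mul_ne_zero ha0 ha0)
            (Nat.mul_ne_zero hp.ne_zero (Nat.mul_ne_zero hg0 hg0))⟩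
        -- the embedding realising the value `j(u^p)` lives at level `m` itself
        have heq := (inc_injective k (p * m)) (hφ.symm.trans hab)
        rw [hv, val, hdiv] at heq
        have he := (jb_inj heq).2
        have h1 : 1 * p = a' * a' * (g * g) * p := by rw [one_mul]; linarith
        have h2 := Nat.eq_of_mul_eq_mul_right hp.pos h1
        have hg1 : g = 1 := Nat.eq_one_of_mul_eq_one_right (Nat.eq_one_of_mul_eq_one_left h2.symm)
        have hM'm : M' = m := by rw [hg, hg1, one_mul, one_mul]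
        subst hM'm
        rw [hv] at hφ
        exact natDegree_minpoly_of_dvd hpm hMk hξ φ hφ
      · rw [if_neg hpm]
        exact natDegree_minpoly_of_not_dvd hpm hMk
          (by rw [hψm]; exact dedekindPsi_pos (NeZero.ne m))

end Fermat.RED
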