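import Fermat.Agent.RED.Model.X0
import Fermat.Agent.RED.Model.Tensor
import Fermat.Prelude.Def_ModularCurve_IgusaScheme

/-!
# The special fibre of the Igusa model is integral

For a prime `ℓ ∤ N` both charts of the Igusa model over `ℤ_(ℓ)` stay domains after base change to a
field of characteristic `ℓ`, by the good model of `RED/Model`, and they meet. This proves S28.
-/

set_option autoImplicit false

noncomputable section

open AlgebraicGeometry CategoryTheory CategoryTheory.Limits ModularCurve ModularCurve.IgusaScheme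
open scoped TensorProduct Polynomial

namespace Fermat.RED.Igusa

variable (ℓ : ℕ) [hl : Fact ℓ.Prime]

/-- The localisation of `ℤ` at `ℓ` as a valuation subring of `ℚ`. -/
def ratA : ValuationSubring ℚ where
  toSubring := GaloisRep.ratLocalizedAt ℓ
  mem_or_inv_mem' q := by
    by_cases hq : q.den.Coprime ℓ
    · exact Or.inl hq
    · right
      change (q⁻¹).den.Coprime ℓ
      have hd : ℓ ∣ q.den := by
        by_contra h
        exact hq ((hl.out.coprime_iff_not_dvd.mpr h).symm)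
      have hn : ¬ ℓ ∣ q.num.natAbs := fun h =>
        hl.out.not_dvd_one (q.reduced ▸ Nat.dvd_gcd h hd)
      have hne : q.num ≠ 0 := fun h => hn (by simp [h])
      rw [Rat.den_inv, if_neg hne]
      exact (hl.out.coprime_iff_not_dvd.mpr hn).symm

/-- The identity map from `ℤ_(ℓ)`. -/
def toRatA : ↥(GaloisRep.ratLocalizedAt ℓ) →+* ratA ℓ where
  toFun a := ⟨a.1, a.2⟩
  map_one' := rfl
  map_mul' _ _ := rfl
  map_zero' := rfl
  map_add' _ _ := rfl

/-- The identification is surjective. -/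
theorem toRatA_surjective : Function.Surjective (toRatA ℓ) := fun a => ⟨⟨a.1, a.2⟩, rfl⟩

section Residue

variable (K : Type) [Field K] [CharP K ℓ] [Algebra ↥(GaloisRep.ratLocalizedAt ℓ) K]

/-- The structure map, seen from `ratA`. -/
def strMap : ratA ℓ →+* K where
  toFun a := algebraMap ↥(GaloisRep.ratLocalizedAt ℓ) K ⟨a.1, a.2⟩
  map_one' := map_one _
  map_mul' a b := map_mul (algebraMap ↥(GaloisRep.ratLocalizedAt ℓ) K) ⟨a.1, a.2⟩ ⟨b.1, b.2⟩
  map_zero' := map_zero _
  map_add' a b := map_add (algebraMap ↥(GaloisRep.ratLocalizedAt ℓ) K) ⟨a.1, a.2⟩ ⟨b.1, b.2⟩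

/-- The structure map is local: elements prime to `ℓ` are units. -/
instance isLocalHom_strMap : IsLocalHom (strMap ℓ K) := by
  refine ⟨fun a ha => ?_⟩
  have hn : ¬ ℓ ∣ (a : ℚ).num.natAbs := by
    intro hdvd
    have hmul : a * ((a : ℚ).den : ratA ℓ) = (((a : ℚ).num : ℤ) : ratA ℓ) := by
      apply Subtype.ext
      push_cast
      exact Rat.mul_den_eq_num _
    have := congrArg (strMap ℓ K) hmul
    rw [map_mul, map_natCast, map_intCast,
      (CharP.intCast_eq_zero_iff K ℓ _).mpr (Int.natCast_dvd.mpr hdvd)] at this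
    rcases mul_eq_zero.mp this with h | h
    · exact ha.ne_zero h
    · rw [CharP.cast_eq_zero_iff K ℓ] at h
      exact hl.out.not_dvd_one ((a : ℚ).reduced ▸ Nat.dvd_gcd hdvd h)
  have hne : (a : ℚ) ≠ 0 := fun h => hn (by simp [h])
  have hinv : (a : ℚ)⁻¹ ∈ ratA ℓ := by
    change ((a : ℚ)⁻¹).den.Coprime ℓ
    rw [Rat.den_inv, if_neg (Rat.num_ne_zero.mpr hne)]
    exact (hl.out.coprime_iff_not_dvd.mpr hn).symm
  exact IsUnit.of_mul_eq_one ⟨_, hinv⟩ (Subtype.ext (mul_inv_cancel₀ hne))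

/-- The map from the residue field. -/
def resMap : IsLocalRing.ResidueField (ratA ℓ) →+* K :=
  IsLocalRing.ResidueField.lift (strMap ℓ K)

/-- The structure map of `K` factors through the residue field. -/
theorem resMap_residue (z : ↥(GaloisRep.ratLocalizedAt ℓ)) :
    algebraMap ↥(GaloisRep.ratLocalizedAt ℓ) K z
      = resMap ℓ K (IsLocalRing.residue (ratA ℓ) (toRatA ℓ z)) := by
  rw [resMap, IsLocalRing.ResidueField.lift_residue_apply]
  rfl

include K in
/-- The level is invertible in the residue field. -/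
theorem natCast_ne_zero {N : ℕ} (hN : ¬ ℓ ∣ N) : (N : IsLocalRing.ResidueField (ratA ℓ)) ≠ 0 := by
  intro h
  have := congrArg (resMap ℓ K) h
  rw [map_natCast, map_zero, CharP.cast_eq_zero_iff K ℓ] at this
  exact hN this

end Residue

variable (N : ℕ) [NeZero N]

/-- The chart algebra of the Igusa model is the chart of `RED/Model`. -/
theorem mem_chartAlg_singleton (x f : ↥(modularFunctionFieldFull N)) :
    f ∈ chartAlg N ℓ {x} ↔ (f : Model.FX ℚ N) ∈ Model.chart (ratA ℓ) (x : Model.FX ℚ N) := by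
  have hax : ∀ p : (↥(GaloisRep.ratLocalizedAt ℓ))[X],
      Model.ax (ratA ℓ) (x : Model.FX ℚ N) (p.map (toRatA ℓ)) = Polynomial.aeval x p := by
    intro p
    rw [Model.ax, Polynomial.coe_eval₂RingHom, Polynomial.eval₂_map, Polynomial.aeval_def]
    congr 1
  refine (mem_chartAlg_iff N ℓ).trans ?_
  constructor
  · rintro ⟨P, hP, hPf⟩
    obtain ⟨Q, hQ, -, hQm⟩ := Polynomial.lifts_and_natDegree_eq_and_monic
      (f := Model.ax (ratA ℓ) (x : Model.FX ℚ N))
      (p := P.map (algebraMap _ ↥(modularFunctionFieldFull N)))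
      ((Polynomial.lifts_iff_coeff_lifts _).mpr fun n => by
        rw [Polynomial.coeff_map]
        obtain ⟨p, hp⟩ := (AlgHom.mem_range _).mp
          ((Algebra.adjoin_singleton_eq_range_aeval _ x).le (P.coeff n).2)
        exact ⟨p.map (toRatA ℓ), (hax p).trans hp⟩) (hP.map _)
    refine ⟨Q, hQm, ?_⟩
    change Q.eval₂ (Model.ax (ratA ℓ) (x : Model.FX ℚ N)) f = 0
    rw [← Polynomial.eval_map]
    exact (congrArg (Polynomial.eval f) hQ).trans ((Polynomial.eval_map _ _).trans hPf)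
  · rintro ⟨Q, hQ, hQf⟩
    obtain ⟨Q', hQ', -, hQ'm⟩ := Polynomial.lifts_and_natDegree_eq_and_monic
      (f := algebraMap (Algebra.adjoin ↥(GaloisRep.ratLocalizedAt ℓ) {x})
        ↥(modularFunctionFieldFull N))
      (p := Q.map (Model.ax (ratA ℓ) (x : Model.FX ℚ N)))
      ((Polynomial.lifts_iff_coeff_lifts _).mpr fun n => by
        rw [Polynomial.coeff_map]
        obtain ⟨p, hp⟩ := Polynomial.map_surjective _ (toRatA_surjective ℓ) (Q.coeff n)
        exact ⟨⟨Polynomial.aeval x p, Polynomial.aeval_mem_adjoin_singleton _ x⟩,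
          (hax p).symm.trans (by rw [hp])⟩) (hQ.map _)
    refine ⟨Q', hQ'm, ?_⟩
    rw [← Polynomial.eval_map]
    exact (congrArg (Polynomial.eval f) hQ').trans ((Polynomial.eval_map _ _).trans hQf)

omit [NeZero N] in
/-- The constants of a chart algebra. -/
theorem coe_algebraMap_chartAlg (S : Set ↥(modularFunctionFieldFull N))
    (z : ↥(GaloisRep.ratLocalizedAt ℓ)) :
    ((algebraMap ↥(GaloisRep.ratLocalizedAt ℓ) (chartAlg N ℓ S) z : chartAlg N ℓ S) :
      ↥(modularFunctionFieldFull N))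
      = algebraMap ℚ (Model.FX ℚ N) (toRatA ℓ z : ℚ) :=
  RingHom.congr_fun (Subsingleton.elim (algebraMap ℚ ↥(modularFunctionFieldFull N))
    (algebraMap ℚ (Model.FX ℚ N) : ℚ →+* ↥(modularFunctionFieldFull N))) (z : ℚ)

section Fibre

variable {N} (K : Type) [Field K] [CharP K ℓ] [Algebra ↥(GaloisRep.ratLocalizedAt ℓ) K]

include K in
/-- The good model of `X₀(N)` at `ℓ ∤ N`. -/
theorem goodModel (hN : ¬ ℓ ∣ N) :
    Model.GoodModel (IsLocalRing.residue (ratA ℓ)) (Model.expX ℚ N) (Model.jX ℚ N)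
      (dedekindPsi N) :=
  by
  convert Model.goodModel_X0 (L := ℚ) IsLocalRing.residue_surjective (natCast_ne_zero ℓ K hN)
  exact Subsingleton.elim _ _

/-- The finite chart stays a domain in characteristic `ℓ`. -/
theorem isDomain_fin (hN : ¬ ℓ ∣ N) :
    IsDomain (chartAlgFin N ℓ ⊗[↥(GaloisRep.ratLocalizedAt ℓ)] K) :=
  (goodModel ℓ K hN).isDomain_tensorProduct (toRatA ℓ) (toRatA_surjective ℓ) (resMap ℓ K)
    (resMap_residue ℓ K) (chartAlgFin N ℓ).val.toRingHom Subtype.val_injective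
    (fun f => ⟨fun hf => ⟨⟨f, (mem_chartAlg_singleton ℓ N (jFull N) f).mpr hf⟩, rfl⟩,
      fun ⟨r, hr⟩ => hr ▸ (mem_chartAlg_singleton ℓ N (jFull N) r.1).mp r.2⟩)
    (fun z => coe_algebraMap_chartAlg ℓ N {jFull N} z)

/-- The chart at infinity stays a domain in characteristic `ℓ`. -/
theorem isDomain_inf (hN : ¬ ℓ ∣ N) :
    IsDomain (chartAlgInf N ℓ ⊗[↥(GaloisRep.ratLocalizedAt ℓ)] K) :=
  (goodModel ℓ K hN).inv.isDomain_tensorProduct (toRatA ℓ) (toRatA_surjective ℓ) (resMap ℓ K)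
    (resMap_residue ℓ K) (chartAlgInf N ℓ).val.toRingHom Subtype.val_injective
    (fun f => ⟨fun hf => ⟨⟨f, (mem_chartAlg_singleton ℓ N (jFull N)⁻¹ f).mpr hf⟩, rfl⟩,
      fun ⟨r, hr⟩ => hr ▸ (mem_chartAlg_singleton ℓ N (jFull N)⁻¹ r.1).mp r.2⟩)
    (fun z => coe_algebraMap_chartAlg ℓ N {(jFull N)⁻¹} z)

include K in
/-- `ℓ` is not invertible on the overlap of the two charts. -/
theorem exists_prime_mid (hN : ¬ ℓ ∣ N) :
    ∃ P : PrimeSpectrum (chartAlgMid N ℓ), (ℓ : chartAlgMid N ℓ) ∈ P.asIdeal := by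
  have hu : ¬ IsUnit (ℓ : chartAlgMid N ℓ) := by
    intro hu
    obtain ⟨v, hv⟩ := hu.exists_right_inv
    have hv' : (ℓ : ↥(modularFunctionFieldFull N)) * v.1 = 1 := by
      exact_mod_cast congrArg Subtype.val hv
    have hz : v.1 ∈ chartAlg N ℓ (insert (jFull N)⁻¹ {jFull N}) := by
      rw [show insert (jFull N)⁻¹ ({jFull N} : Set ↥(modularFunctionFieldFull N))
        = {jFull N, (jFull N)⁻¹} from Set.pair_comm _ _]
      exact v.2
    obtain ⟨n, hn⟩ := exists_pow_mul_mem_chartAlg (Set.mem_singleton _) (jFull_ne_zero N) hz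
    have h := goodModel ℓ K hN
    have hint := h.int_chart _ ((mem_chartAlg_singleton ℓ N _ _).mp hn)
    have hvint : Model.expX ℚ N v.1 ∈ Model.intSeries (ratA ℓ) := by
      have e : v.1 = (jFull N)⁻¹ ^ n * (jFull N ^ n * v.1) := by
        rw [← mul_assoc, ← mul_pow, inv_mul_cancel₀ (jFull_ne_zero N), one_pow, one_mul]
      have key : ∀ a b : Model.FX ℚ N, Model.expX ℚ N a ∈ Model.intSeries (ratA ℓ) →
          Model.expX ℚ N b ∈ Model.intSeries (ratA ℓ) →
          Model.expX ℚ N (a ^ n * b) ∈ Model.intSeries (ratA ℓ) := fun a b ha hb => by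
        rw [map_mul, map_pow]; exact mul_mem (pow_mem ha n) hb
      rw [e]
      exact key _ _ h.int_inv hint
    have hℓv : Model.expX ℚ N v.1
        = algebraMap ℚ (LaurentSeries ℚ) ((ℓ : ℚ)⁻¹) := by
      have h1 : Model.expX ℚ N (ℓ : Model.FX ℚ N) * Model.expX ℚ N v.1 = Model.expX ℚ N 1 :=
        (map_mul (Model.expX ℚ N) _ _).symm.trans (congrArg (Model.expX ℚ N) hv')
      rw [map_natCast, map_one] at h1
      rw [map_inv₀, map_natCast]
      exact eq_inv_of_mul_eq_one_right h1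
    have h0 := Model.mem_intSeries_iff.mp hvint 0
    rw [hℓv, algebraMap_laurentSeries_eq_single, HahnSeries.coeff_single_same] at h0
    have h0' : ((ℓ : ℚ)⁻¹).den.Coprime ℓ := h0
    rw [Rat.inv_natCast_den, if_neg hl.out.ne_zero, Nat.coprime_self] at h0'
    exact hl.out.one_lt.ne' h0'
  obtain ⟨M, hM, hℓM⟩ := exists_max_ideal_of_mem_nonunits hu
  exact ⟨⟨M, hM.isPrime⟩, hℓM⟩

/-- Two integral open pieces which meet give an integral scheme. -/
theorem isIntegral_of_two_opens {X U V : Scheme} (u : U ⟶ X) (v : V ⟶ X) [IsOpenImmersion u]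
    [IsOpenImmersion v] [IsIntegral U] [IsIntegral V]
    (hcov : ∀ x, x ∈ Set.range u ∨ x ∈ Set.range v)
    (hmeet : (Set.range u ∩ Set.range v).Nonempty) : IsIntegral X := by
  rw [isIntegral_iff_irreducibleSpace_and_isReduced]
  refine ⟨?_, ?_⟩
  · obtain ⟨z, hzu, hzv⟩ := hmeet
    have hU : IsPreirreducible (Set.range u) := by
      rw [← Set.image_univ]
      exact PreirreducibleSpace.isPreirreducible_univ.image _ u.continuous.continuousOn
    have hV : IsPreirreducible (Set.range v) := by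
      rw [← Set.image_univ]
      exact PreirreducibleSpace.isPreirreducible_univ.image _ v.continuous.continuousOn
    have hoU : IsOpen (Set.range u) := u.isOpenEmbedding.isOpen_range
    -- every nonempty open meets the overlap
    have key : ∀ W : Set X, IsOpen W → W.Nonempty → (Set.range u ∩ W).Nonempty := by
      rintro W hW ⟨w, hw⟩
      rcases hcov w with h | h
      · exact ⟨w, h, hw⟩
      · obtain ⟨y, hy1, hy2, hy3⟩ := hV W (Set.range u) hW hoU ⟨w, h, hw⟩ ⟨z, hzv, hzu⟩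
        exact ⟨y, hy3, hy2⟩
    refine @IrreducibleSpace.mk X _ ⟨fun W₁ W₂ h₁ h₂ ⟨a, _, ha⟩ ⟨b, _, hb⟩ => ?_⟩ ⟨z⟩
    obtain ⟨y, -, hy⟩ := hU W₁ W₂ h₁ h₂ (key W₁ h₁ ⟨a, ha⟩) (key W₂ h₂ ⟨b, hb⟩)
    exact ⟨y, Set.mem_univ y, hy⟩
  · let 𝒰 : X.OpenCover := Scheme.Cover.mkOfCovers Bool (fun b => cond b U V)
      (fun b => match b with
        | true => u
        | false => v)
      (fun x => by
        rcases hcov x with ⟨y, hy⟩ | ⟨y, hy⟩
        · exact ⟨true, y, hy⟩
        · exact ⟨false, y, hy⟩)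
      (fun b => by cases b <;> (dsimp; infer_instance))
    have : ∀ i, IsReduced (𝒰.X i) := fun i => by
      cases i with
      | false => exact inferInstanceAs (IsReduced V)
      | true => exact inferInstanceAs (IsReduced U)
    exact IsReduced.of_openCover (X := X) (𝒰 := 𝒰)

/-- The special fibre of the Igusa model is integral. -/
theorem isIntegral_fibre (hN : ¬ ℓ ∣ N) :
    IsIntegral ↑(pullback (igusaTo N ℓ)
      (Spec.map (CommRingCat.ofHom (algebraMap ↥(GaloisRep.ratLocalizedAt ℓ) K)))) := by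
  set g := Spec.map (CommRingCat.ofHom (algebraMap ↥(GaloisRep.ratLocalizedAt ℓ) K))
  set p := pullback.fst (igusaTo N ℓ) g
  set u := pullback.snd (ιFin N ℓ) p
  set v := pullback.snd (ιInf N ℓ) p
  have hu : Set.range u = p ⁻¹' Set.range (ιFin N ℓ) := IsOpenImmersion.range_pullbackSnd _ _
  have hv : Set.range v = p ⁻¹' Set.range (ιInf N ℓ) := IsOpenImmersion.range_pullbackSnd _ _
  have := isDomain_fin ℓ K hN
  have := isDomain_inf ℓ K hN
  have eU : pullback (ιFin N ℓ) p ≅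
      Spec (CommRingCat.of (chartAlgFin N ℓ ⊗[↥(GaloisRep.ratLocalizedAt ℓ)] K)) :=
    pullbackRightPullbackFstIso _ _ _ ≪≫ pullback.congrHom (ιFin_igusaTo N ℓ) rfl ≪≫
      pullbackSpecIso _ _ _
  have eV : pullback (ιInf N ℓ) p ≅
      Spec (CommRingCat.of (chartAlgInf N ℓ ⊗[↥(GaloisRep.ratLocalizedAt ℓ)] K)) :=
    pullbackRightPullbackFstIso _ _ _ ≪≫ pullback.congrHom (ιInf_igusaTo N ℓ) rfl ≪≫
      pullbackSpecIso _ _ _
  -- the point in the overlap
  obtain ⟨P₀, hP⟩ := exists_prime_mid ℓ K hN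
  obtain ⟨P, hPP⟩ : ∃ P : ↥(XMid N ℓ), P = P₀ := ⟨P₀, rfl⟩
  obtain ⟨y₀⟩ : Nonempty (Spec (CommRingCat.of K)) :=
    inferInstanceAs (Nonempty (PrimeSpectrum K))
  -- both points lie over the closed point of `ℤ_(ℓ)`
  have hbase : (igusaTo N ℓ) (ιFin N ℓ (fFin N ℓ P)) = g y₀ := by
    rw [← Scheme.Hom.comp_apply, ιFin_igusaTo, ← Scheme.Hom.comp_apply, ← Spec.map_comp,
      ← CommRingCat.ofHom_comp]
    have hid : ∀ I J : PrimeSpectrum ↥(GaloisRep.ratLocalizedAt ℓ),
        (ℓ : ↥(GaloisRep.ratLocalizedAt ℓ)) ∈ I.asIdeal →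
        (ℓ : ↥(GaloisRep.ratLocalizedAt ℓ)) ∈ J.asIdeal → I.asIdeal ≤ J.asIdeal := by
      intro I J hI hJ a ha
      by_contra haJ
      have hn : ¬ ℓ ∣ (a : ℚ).num.natAbs := fun hdvd => haJ (by
        have hmul : a * (((a : ℚ).den : ℕ) : ↥(GaloisRep.ratLocalizedAt ℓ))
            = (((a : ℚ).num : ℤ) : ↥(GaloisRep.ratLocalizedAt ℓ)) := by
          apply Subtype.ext
          push_cast
          exact Rat.mul_den_eq_num _
        obtain ⟨c, hc⟩ := Int.natCast_dvd.mpr hdvd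
        have hmem : a * (((a : ℚ).den : ℕ) : ↥(GaloisRep.ratLocalizedAt ℓ)) ∈ J.asIdeal := by
          rw [hmul, hc, Int.cast_mul, Int.cast_natCast]
          exact J.asIdeal.mul_mem_right _ hJ
        refine (J.isPrime.mem_or_mem hmem).resolve_right fun hd => J.isPrime.ne_top ?_
        have hcop : IsCoprime ((a : ℚ).den : ℤ) (ℓ : ℤ) := Nat.isCoprime_iff_coprime.mpr a.2
        obtain ⟨s, t, hst⟩ := hcop
        refine (Ideal.eq_top_iff_one _).mpr ?_
        have := congrArg (Int.cast : ℤ → ↥(GaloisRep.ratLocalizedAt ℓ)) hst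
        push_cast at this
        rw [← this]
        exact add_mem (J.asIdeal.mul_mem_left _ hd) (J.asIdeal.mul_mem_left _ hJ))
      have hne : (a : ℚ) ≠ 0 := fun h => hn (by simp [h])
      have hinv : ((a : ℚ)⁻¹).den.Coprime ℓ := by
        rw [Rat.den_inv, if_neg (Rat.num_ne_zero.mpr hne)]
        exact (hl.out.coprime_iff_not_dvd.mpr hn).symm
      refine I.isPrime.ne_top (Ideal.eq_top_of_isUnit_mem _ ha
        (IsUnit.of_mul_eq_one ⟨(a : ℚ)⁻¹, hinv⟩ (Subtype.ext (mul_inv_cancel₀ hne))))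
    have h1 : ∀ {S : Type} [CommRing S] (φ : ↥(GaloisRep.ratLocalizedAt ℓ) →+* S)
        (Q : PrimeSpectrum S), (ℓ : S) ∈ Q.asIdeal →
        (ℓ : ↥(GaloisRep.ratLocalizedAt ℓ)) ∈ (PrimeSpectrum.comap φ Q).asIdeal := by
      intro S _ φ Q hQ
      simpa [PrimeSpectrum.comap_asIdeal, Ideal.mem_comap] using hQ
    have hK : (ℓ : K) = 0 := CharP.cast_eq_zero K ℓ
    apply PrimeSpectrum.ext
    exact le_antisymm (hid _ _ (h1 _ P (hPP ▸ hP)) (h1 _ y₀ (by rw [hK]; exact zero_mem _)))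
      (hid _ _ (h1 _ y₀ (by rw [hK]; exact zero_mem _)) (h1 _ P (hPP ▸ hP)))
  obtain ⟨z, hz, -⟩ := Scheme.Pullback.exists_preimage_pullback _ _ hbase
  have hzu : z ∈ Set.range u := by rw [hu]; exact ⟨_, hz.symm⟩
  have hzv : z ∈ Set.range v := by
    rw [hv]
    refine ⟨fInf N ℓ P, ?_⟩
    rw [← Scheme.Hom.comp_apply, ← glue_condition, Scheme.Hom.comp_apply]
    exact hz.symm
  have : Nonempty ↑(pullback (ιFin N ℓ) p) := by
    obtain ⟨y, -⟩ := hzu; exact ⟨y⟩
  have : Nonempty ↑(pullback (ιInf N ℓ) p) := by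
    obtain ⟨y, -⟩ := hzv; exact ⟨y⟩
  have := isIntegral_of_isOpenImmersion eU.hom
  have := isIntegral_of_isOpenImmersion eV.hom
  refine isIntegral_of_two_opens u v (fun x => ?_) ⟨z, hzu, hzv⟩
  rw [hu, hv]
  exact mem_range_ιFin_or_mem_range_ιInf N ℓ (p x)

end Fibre

end Fermat.RED.Igusa
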