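import Fermat.Agent.MC.QScale
import Fermat.Agent.MC.LevelOne
import Fermat.Agent.RED.ModPoly

/-!
# The analytic branches of `j(pτ)` and `p¹² Δ(pτ)/Δ(τ)`

The branches as functions on the upper half plane: their `q`-expansions are the formal branches,
they are holomorphic of exponential growth, and `SL(2, ℤ)` permutes the two families
simultaneously. Used by `RED/LevelOne`.
-/

set_option autoImplicit false

noncomputable section

open UpperHalfPlane Filter Asymptotics Function
open ModularForm hiding ext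
open scoped Manifold MatrixGroups Real Topology

namespace Fermat.RED

open Fermat.MC

local notation "Δ" => ModularForm.discriminant

section Translate

/-- The scaling by `1`. -/
def posOne : {x : ℝ // 0 < x} := ⟨1, one_pos⟩

/-- The translation by `c`. -/
theorem coe_affH_one (c : ℝ) (z : ℍ) : (affH posOne c z : ℂ) = (z : ℂ) + c := by
  simp [coe_affH, posOne]

/-- A translate of a periodic function is periodic. -/
theorem periodic_comp_translate {f : ℍ → ℂ} (h : Periodic (MC.ext f) 1) (c : ℝ) :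
    Periodic (MC.ext (f ∘ affH posOne c)) 1 := by
  intro w
  by_cases hw : 0 < w.im
  · have hw' : 0 < (w + 1).im := by simpa using hw
    simp only [MC.ext, comp_apply, ofComplex_apply_of_im_pos hw, ofComplex_apply_of_im_pos hw']
    have := h ((affH posOne c ⟨w, hw⟩ : ℍ) : ℂ)
    simp only [MC.ext, comp_apply, ofComplex_apply] at this
    rw [← this]
    have him : 0 < (((affH posOne c ⟨w, hw⟩ : ℍ) : ℂ) + 1).im := by
      simpa using (affH posOne c ⟨w, hw⟩).im_pos
    rw [ofComplex_apply_of_im_pos him]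
    congr 1
    apply UpperHalfPlane.ext
    simp only [coe_affH_one]
    ring
  · push Not at hw
    have hw' : (w + 1).im ≤ 0 := by simpa using hw
    simp [MC.ext, ofComplex_apply_of_im_nonpos hw, ofComplex_apply_of_im_nonpos hw']

/-- Translates of bounded periodic functions are such. -/
theorem bddPer_comp_translate {f : ℍ → ℂ} (h : BddPer f) (c : ℝ) :
    BddPer (f ∘ affH posOne c) :=
  ⟨mdiff_comp_affH h.1 _ _, periodic_comp_translate h.2.1 c,
    IsBigO.comp_tendsto h.2.2 (tendsto_affH _ _)⟩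

/-- The unit `exp (2πi c)`. -/
def phase (c : ℝ) : ℂˣ := Units.mk0 (Complex.exp (2 * π * Complex.I * c)) (Complex.exp_ne_zero _)

/-- Translation multiplies the coefficients by phases. -/
theorem qExpansion_comp_translate {f : ℍ → ℂ} (h : BddPer f) (c : ℝ) (m : ℕ) :
    (qExpansion 1 (f ∘ affH posOne c)).coeff m = (phase c : ℂ) ^ m * (qExpansion 1 f).coeff m := by
  refine (qExpansion_coeff_unique (F := FnOnH) (show FnOnH from f ∘ affH posOne c) one_pos
    (bddPer_comp_translate h c).analyticAt
    (c := fun m => (phase c : ℂ) ^ m * (qExpansion 1 f).coeff m) (fun τ => ?_) m).symm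
  have hs := hasSum_qExpansion one_pos (by exact_mod_cast h.2.1) h.1 h.2.2 (affH posOne c τ)
  have hq : Periodic.qParam 1 ((affH posOne c τ : ℍ) : ℂ)
      = (phase c : ℂ) * Periodic.qParam 1 τ := by
    simp only [Periodic.qParam, phase, Units.val_mk0, coe_affH_one, ← Complex.exp_add]
    congr 1
    push_cast
    ring
  simp_rw [hq, mul_pow] at hs
  convert hs using 1
  · funext n
    simp only [smul_eq_mul]
    ring
  · rfl

/-- Translation twists the expansion. -/
theorem qS_comp_translate {f : ℍ → ℂ} (h : BddPer f) (c : ℝ) :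
    qS (f ∘ affH posOne c) = twist (phase c) (qS f) := by
  ext k
  rw [twist_coeff]
  rcases le_or_gt 0 k with hk | hk
  · lift k to ℕ using hk
    simp [qS, HahnSeries.ofPowerSeries_apply_coeff, qExpansion_comp_translate h c]
  · simp [qS, ModularCurve.ofPowerSeries_coeff_of_neg _ hk]

/-- Translates stay in the algebra of periodic functions. -/
theorem mem_perAlg_comp_translate {f : ℍ → ℂ} (hf : f ∈ perAlg) (c : ℝ) :
    f ∘ affH posOne c ∈ perAlg :=
  ⟨mdiff_comp_affH hf.1 _ _, periodic_comp_translate hf.2.1 c, hf.2.2.comp_affH _ _⟩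

/-- Translation twists the series. -/
theorem qL_comp_translate (f : perAlg) (c : ℝ) :
    qL ⟨(f : ℍ → ℂ) ∘ affH posOne c, mem_perAlg_comp_translate f.2 c⟩ = twist (phase c) (qL f) := by
  obtain ⟨M, hM⟩ := exists_isBoundedAtImInfty_mul_discriminant_pow f.2.2.2
  have hg := bddPer_mul_discriminant_pow f.2 hM
  have hD := (bddPer_comp_translate bddPer_discriminant c).pow M
  set fN : perAlg := ⟨(f : ℍ → ℂ) ∘ affH posOne c, mem_perAlg_comp_translate f.2 c⟩
  have hmul : fN * ⟨_, hD.mem_perAlg⟩ = ⟨_, (bddPer_comp_translate hg c).mem_perAlg⟩ :=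
    Subtype.ext rfl
  have h1 := congrArg qL hmul
  rw [map_mul, qL_eq_qS hD, qL_eq_qS (bddPer_comp_translate hg c), qS_comp_translate hg,
    qS_pow (bddPer_comp_translate bddPer_discriminant c),
    qS_comp_translate bddPer_discriminant] at h1
  have hne : twist (phase c) (qS Δ) ^ M ≠ 0 :=
    pow_ne_zero _ ((map_ne_zero _).mpr qS_discriminant_ne_zero)
  rw [qL_apply f hM, map_div₀, map_pow, eq_div_iff hne]
  exact h1

end Translate

section DiscriminantInv

/-- `Δ⁻¹` is periodic of exponential growth. -/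
theorem discriminant_inv_mem_perAlg : Δ⁻¹ ∈ perAlg := by
  refine ⟨mdiff_of_analyticAt_ext fun z => ?_, fun w => ?_, ⟨1, ?_⟩⟩
  · refine (analyticAt_ext bddPer_discriminant.1 z).inv ?_
    simp [MC.ext, discriminant_ne_zero]
  · have := bddPer_discriminant.2.1 w
    simp only [MC.ext, comp_apply, Pi.inv_apply] at this ⊢
    rw [this]
  · refine (exp_isBigO_discriminant.inv_rev (Eventually.of_forall fun τ h => ?_)).congr'
      EventuallyEq.rfl (Eventually.of_forall fun τ => ?_)
    · exact absurd h (Real.exp_pos _).ne'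
    · change (Real.exp (-2 * π * τ.im))⁻¹ = Real.exp (2 * π * ((1 : ℕ) : ℝ) * τ.im)
      rw [← Real.exp_neg]
      congr 1
      push_cast
      ring

/-- `Δ` in the algebra of periodic functions. -/
def deltaA : perAlg := ⟨Δ, bddPer_discriminant.mem_perAlg⟩

/-- `Δ⁻¹` in the algebra of periodic functions. -/
def deltaInvA : perAlg := ⟨Δ⁻¹, discriminant_inv_mem_perAlg⟩

/-- The expansion of `Δ`. -/
theorem qL_deltaA : qL deltaA = deltaSeries ℂ := by
  rw [deltaA, qL_eq_qS bddPer_discriminant, qS_discriminant]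
  rfl

/-- The expansion of `Δ⁻¹`. -/
theorem qL_deltaInvA : qL deltaInvA = deltaSeriesInv ℂ := by
  have h : qL deltaA * qL deltaInvA = 1 := by
    rw [← map_mul, show deltaA * deltaInvA = 1 from Subtype.ext (funext fun z => by
      simp [deltaA, deltaInvA, discriminant_ne_zero]), map_one]
  rw [qL_deltaA] at h
  have h2 := deltaSeries_mul_inv ℂ
  have hne : deltaSeries ℂ ≠ 0 := fun h0 => by rw [h0, zero_mul] at h2; exact one_ne_zero h2.symm
  exact mul_left_cancel₀ hne (h.trans h2.symm)

end DiscriminantInv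

section Branches

variable (p : ℕ) [NeZero p]

/-- The scaling by `1/p`. -/
def posInv : {x : ℝ // 0 < x} :=
  ⟨((p : ℝ))⁻¹, inv_pos.mpr (by exact_mod_cast Nat.pos_of_neZero p)⟩

/-- The analytic branches of `j(pτ)`. -/
def yFun : Option (Fin p) → ℍ → ℂ
  | none => jA ∘ affH (posN p) 0
  | some b => jA ∘ affH (posInv p) ((b : ℕ) / p)

/-- The analytic conjugates of `p¹² Δ(pτ)/Δ(τ)`. -/
def uFun : Option (Fin p) → ℍ → ℂ
  | none => fun z => (p : ℂ) ^ 12 * Δ (affH (posN p) 0 z) * (Δ z)⁻¹
  | some b => fun z => Δ (affH (posInv p) ((b : ℕ) / p) z) * (Δ z)⁻¹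

/-- The standard primitive root `exp (2πi/p)`. -/
def zetaC : ℂˣ := phase ((p : ℝ))⁻¹

/-- `zetaC` is a primitive root of unity. -/
theorem isPrimitiveRoot_zetaC : IsPrimitiveRoot (zetaC p) p := by
  rw [← IsPrimitiveRoot.coe_units_iff]
  convert Complex.isPrimitiveRoot_exp p (NeZero.ne p) using 1
  simp only [zetaC, phase, Units.val_mk0]
  congr 1
  push_cast
  ring

omit [NeZero p] in
/-- Powers of `zetaC` as phases. -/
theorem zetaC_pow (b : ℕ) : zetaC p ^ b = phase ((b : ℝ) / p) := by
  ext
  simp only [zetaC, phase, Units.val_pow_eq_pow_val, Units.val_mk0, ← Complex.exp_nat_mul]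
  congr 1
  push_cast
  ring

/-- `τ ↦ (τ + b)/p` after `τ ↦ p τ` is a translation. -/
theorem affH_posInv_comp (b : ℕ) (z : ℍ) :
    affH (posInv p) ((b : ℝ) / p) (affH (posN p) 0 z) = affH posOne ((b : ℝ) / p) z := by
  apply UpperHalfPlane.ext
  have : (p : ℂ) ≠ 0 := Nat.cast_ne_zero.mpr (NeZero.ne p)
  simp [coe_affH, posInv, posN, posOne]
  field_simp

/-- `τ ↦ p τ` twice is `τ ↦ p² τ`. -/
theorem affH_posN_comp [NeZero (p * p)] (z : ℍ) :
    affH (posN p) 0 (affH (posN p) 0 z) = affH (posN (p * p)) 0 z := by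
  apply UpperHalfPlane.ext
  simp [coe_affH, posN]
  ring

omit [NeZero p] in
/-- Expansions of equal functions agree. -/
theorem qL_congr {f g : ℍ → ℂ} (hf : f ∈ perAlg) (hg : g ∈ perAlg) (e : f = g) :
    qL ⟨f, hf⟩ = qL ⟨g, hg⟩ := by
  subst e; rfl

/-- The branches of `j (p τ)` expand as the formal branches. -/
theorem exists_qL_yFun (i : Option (Fin p)) :
    ∃ h : yFun p i ∘ affH (posN p) 0 ∈ perAlg, qL ⟨_, h⟩ = yRoot ℂ p (zetaC p) i := by
  cases i with
  | none =>
    have : NeZero (p * p) := ⟨Nat.mul_ne_zero (NeZero.ne p) (NeZero.ne p)⟩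
    have he : yFun p none ∘ affH (posN p) 0 = jA ∘ affH (posN (p * p)) 0 :=
      funext fun z => congrArg jA (affH_posN_comp p z)
    refine ⟨by rw [he]; exact mem_perAlg_comp_posN (p * p) jA_mem_perAlg, ?_⟩
    rw [qL_congr _ (mem_perAlg_comp_posN (p * p) jA_mem_perAlg) he]
    have h1 := qL_comp_posN (p * p) ⟨jA, jA_mem_perAlg⟩
    rw [qL_jA, ModularCurve.coeffEmb, ← ModularCurve.jqModC_rat,
      ModularCurve.coeffMap_jqModC, ← jb_one] at h1
    simp only [yRoot]
    exact h1
  | some b =>
    have he : yFun p (some b) ∘ affH (posN p) 0 = jA ∘ affH posOne (((b : ℕ) : ℝ) / p) :=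
      funext fun z => congrArg jA (affH_posInv_comp p b z)
    refine ⟨by rw [he]; exact mem_perAlg_comp_translate jA_mem_perAlg _, ?_⟩
    rw [qL_congr _ (mem_perAlg_comp_translate jA_mem_perAlg _) he]
    have h1 := qL_comp_translate ⟨jA, jA_mem_perAlg⟩ (((b : ℕ) : ℝ) / p)
    rw [qL_jA, ModularCurve.coeffEmb, ← ModularCurve.jqModC_rat,
      ModularCurve.coeffMap_jqModC] at h1
    simp only [yRoot, zetaC_pow, jb_def, ModularCurve.qExpand_one_apply]
    exact h1

/-- The branches of the unit expand as the formal branches. -/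
theorem exists_qL_uFun (i : Option (Fin p)) :
    ∃ h : uFun p i ∘ affH (posN p) 0 ∈ perAlg, qL ⟨_, h⟩ = uRoot ℂ p (zetaC p) i := by
  set B : perAlg := ⟨Δ⁻¹ ∘ affH (posN p) 0, mem_perAlg_comp_posN p discriminant_inv_mem_perAlg⟩
  have hB : qL B = ModularCurve.qExpand ℂ p (deltaSeriesInv ℂ) := by
    rw [← qL_deltaInvA]
    exact qL_comp_posN p deltaInvA
  cases i with
  | none =>
    have : NeZero (p * p) := ⟨Nat.mul_ne_zero (NeZero.ne p) (NeZero.ne p)⟩
    set A : perAlg := ⟨Δ ∘ affH (posN (p * p)) 0, mem_perAlg_comp_posN _ deltaA.2⟩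
    have he : uFun p none ∘ affH (posN p) 0 = ((((p : ℂ) ^ 12) • (A * B) : perAlg) : ℍ → ℂ) := by
      funext z
      simp [uFun, A, B, affH_posN_comp, mul_assoc]
    refine ⟨by rw [he]; exact SetLike.coe_mem _, ?_⟩
    refine Eq.trans (congrArg qL (Subtype.ext he)) ?_
    show qL (((p : ℂ) ^ 12) • (A * B)) = _
    rw [Algebra.smul_def, map_mul, AlgHom.commutes, map_mul, hB,
      show qL A = ModularCurve.qExpand ℂ (p * p) (deltaSeries ℂ) by
        rw [← qL_deltaA]; exact qL_comp_posN (p * p) deltaA, map_pow, map_natCast,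
      uRoot, mul_assoc]
  | some b =>
    set A : perAlg := ⟨Δ ∘ affH posOne (((b : ℕ) : ℝ) / p), mem_perAlg_comp_translate deltaA.2 _⟩
    have he : uFun p (some b) ∘ affH (posN p) 0 = ((A * B : perAlg) : ℍ → ℂ) := by
      funext z
      simp [uFun, A, B, affH_posInv_comp]
    refine ⟨by rw [he]; exact SetLike.coe_mem _, ?_⟩
    refine Eq.trans (congrArg qL (Subtype.ext he)) ?_
    rw [map_mul, hB, show qL A = twist (phase (((b : ℕ) : ℝ) / p)) (deltaSeries ℂ) by
      rw [← qL_deltaA]; exact qL_comp_translate deltaA _, uRoot, zetaC_pow]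

/-- The functions of the upper half plane which are holomorphic and of exponential growth. -/
def growAlg : Subalgebra ℂ (ℍ → ℂ) where
  carrier := {f | MDiff f ∧ ExpGrowth f}
  mul_mem' := fun ⟨h1, h2⟩ ⟨k1, k2⟩ => ⟨h1.mul k1, h2.mul k2⟩
  add_mem' := fun ⟨h1, h2⟩ ⟨k1, k2⟩ => ⟨h1.add k1, h2.add k2⟩
  algebraMap_mem' c := ⟨mdifferentiable_const, ExpGrowth.const c⟩

omit [NeZero p] in
/-- Affine substitutions preserve exponential growth. -/
theorem comp_affH_mem_growAlg {f : ℍ → ℂ} (hf : f ∈ growAlg) (g : {x : ℝ // 0 < x}) (b : ℝ) :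
    f ∘ affH g b ∈ growAlg :=
  ⟨mdiff_comp_affH hf.1 g b, hf.2.comp_affH g b⟩

/-- `j` has exponential growth. -/
theorem jA_mem_growAlg : jA ∈ growAlg := ⟨mdiff_jA, expGrowth_jA⟩

/-- `Δ` has exponential growth. -/
theorem discriminant_mem_growAlg : Δ ∈ growAlg :=
  ⟨bddPer_discriminant.1, .of_isBoundedAtImInfty bddPer_discriminant.2.2⟩

/-- The branches have exponential growth. -/
theorem yFun_mem_growAlg (i : Option (Fin p)) : yFun p i ∈ growAlg := by
  cases i <;> exact comp_affH_mem_growAlg jA_mem_growAlg _ _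

/-- The units have exponential growth. -/
theorem uFun_mem_growAlg (i : Option (Fin p)) : uFun p i ∈ growAlg := by
  have hinv : Δ⁻¹ ∈ growAlg := ⟨discriminant_inv_mem_perAlg.1, discriminant_inv_mem_perAlg.2.2⟩
  cases i with
  | none =>
    have : uFun p none = ((p : ℂ) ^ 12) • ((Δ ∘ affH (posN p) 0) * Δ⁻¹) := by
      funext z; simp [uFun, mul_assoc]
    rw [this]
    exact growAlg.smul_mem (mul_mem (comp_affH_mem_growAlg discriminant_mem_growAlg _ _) hinv) _
  | some b =>
    exact mul_mem (comp_affH_mem_growAlg discriminant_mem_growAlg _ _) hinv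

/-- The weight twelve rule for `Δ`. -/
theorem discriminant_smul (γ : SL(2, ℤ)) (z : ℍ) :
    Δ (γ • z) = denom γ z ^ (12 : ℤ) * Δ z :=
  smul_eq_denom_zpow CuspForm.discriminant γ z

/-- `Δ` is invariant under `τ ↦ τ + 1`. -/
theorem discriminant_of_coe_eq_add_one {w w' : ℍ} (h : (w' : ℂ) = (w : ℂ) + 1) : Δ w' = Δ w := by
  have := bddPer_discriminant.2.1 (w : ℂ)
  simp only [MC.ext, comp_apply, ← h, ofComplex_apply] at this
  exact this

/-- `Δ` is invariant under `τ ↦ τ + n`. -/
theorem discriminant_of_coe_eq_add_natCast {w w' : ℍ} {n : ℕ} (h : (w' : ℂ) = (w : ℂ) + n) :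
    Δ w' = Δ w := by
  have := bddPer_discriminant.2.1.nat_mul n (w : ℂ)
  simp only [MC.ext, comp_apply, mul_one, ← h, ofComplex_apply] at this
  exact this

/-- `j` is invariant under `τ ↦ τ + n`. -/
theorem jA_of_coe_eq_add_natCast {w w' : ℍ} {n : ℕ} (h : (w' : ℂ) = (w : ℂ) + n) :
    jA w' = jA w := by
  have := periodic_jA.nat_mul n (w : ℂ)
  simp only [MC.ext, comp_apply, mul_one, ← h, ofComplex_apply] at this
  exact this

/-- The two families are permuted simultaneously by `γ`. -/
def Permutes (γ : SL(2, ℤ)) : Prop :=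
  ∃ σ : Option (Fin p) ≃ Option (Fin p),
    ∀ i, compSL γ (yFun p i) = yFun p (σ i) ∧ compSL γ (uFun p i) = uFun p (σ i)

/-- `T` permutes the branches. -/
theorem permutes_T : Permutes p ModularGroup.T := by
  set s : Fin p ≃ Fin p := Equiv.addRight (⟨1 % p, Nat.mod_lt _ (Nat.pos_of_neZero p)⟩ :
    Fin p) with hs
  refine ⟨Equiv.optionCongr s, fun i => ?_⟩
  have hT : ∀ z : ℍ, ((ModularGroup.T • z : ℍ) : ℂ) = (z : ℂ) + 1 := fun z => by
    rw [modular_T_smul]; simp [add_comm]
  have hD : ∀ z : ℍ, Δ (ModularGroup.T • z) = Δ z := fun z =>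
    discriminant_of_coe_eq_add_one (hT z)
  cases i with
  | none =>
    have hc : ∀ z : ℍ, ((affH (posN p) 0 (ModularGroup.T • z) : ℍ) : ℂ)
        = (affH (posN p) 0 z : ℍ) + (p : ℂ) := fun z => by
      simp only [coe_affH, hT, posN]
      push_cast
      ring
    exact ⟨funext fun z => jA_of_coe_eq_add_natCast (hc z), funext fun z => by
      simp only [compSL_apply, uFun, Equiv.optionCongr_apply, Option.map_none, hD,
        discriminant_of_coe_eq_add_natCast (hc z)]⟩
  | some b =>
    set b' : Fin p := s b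
    have hb' : ∃ n : ℕ, ((b : ℕ) : ℂ) + 1 = ((b' : ℕ) : ℂ) + n * p := by
      refine ⟨((b : ℕ) + 1) / p, ?_⟩
      have hval : (b' : ℕ) = ((b : ℕ) + 1) % p := by
        simp [b', hs, Fin.val_add, Nat.add_mod]
      rw [hval]
      have := Nat.mod_add_div ((b : ℕ) + 1) p
      have h2 := congrArg (Nat.cast : ℕ → ℂ) this
      push_cast at h2
      rw [mul_comm ((p : ℂ)) _] at h2
      exact h2.symm
    -- the branch `b` goes to `b + 1 mod p` up to an integral translation
    obtain ⟨n, hn⟩ := hb'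
    have hp : (p : ℂ) ≠ 0 := Nat.cast_ne_zero.mpr (NeZero.ne p)
    have hc : ∀ z : ℍ,
        ((affH (posInv p) (((b : ℕ) : ℝ) / p) (ModularGroup.T • z) : ℍ) : ℂ)
          = (affH (posInv p) (((b' : ℕ) : ℝ) / p) z : ℍ) + (n : ℂ) := fun z => by
      simp only [coe_affH, hT, posInv]
      push_cast
      field_simp
      linear_combination hn
    exact ⟨funext fun z => jA_of_coe_eq_add_natCast (hc z), funext fun z => by
      simp only [compSL_apply, uFun, Equiv.optionCongr_apply, Option.map_some, hD,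
        discriminant_of_coe_eq_add_natCast (hc z)]
      rfl⟩

/-- The action of `S`. -/
theorem coe_S_smul (z : ℍ) : ((ModularGroup.S • z : ℍ) : ℂ) = -1 / (z : ℂ) := by
  rw [UpperHalfPlane.modular_S_smul]
  simp [neg_div, inv_neg]

/-- `Δ (-1/τ) = τ¹² Δ τ`. -/
theorem discriminant_S_smul (z : ℍ) : Δ (ModularGroup.S • z) = (z : ℂ) ^ (12 : ℤ) * Δ z := by
  rw [discriminant_smul, ModularGroup.denom_S]

variable [Fact p.Prime]

/-- `b ↦ -1/b` on the residues, exchanging `0` and `∞`. -/
def sFun : Option (Fin p) → Option (Fin p)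
  | none => some ⟨0, Nat.pos_of_neZero p⟩
  | some b => if ((b : ℕ) : ZMod p) = 0 then none
      else some ⟨(-(((b : ℕ) : ZMod p))⁻¹).val, ZMod.val_lt _⟩

/-- The permutation of `S` is an involution. -/
theorem sFun_sFun (i : Option (Fin p)) : sFun p (sFun p i) = i := by
  cases i with
  | none => simp [sFun]
  | some b =>
    by_cases h : ((b : ℕ) : ZMod p) = 0
    · simp only [sFun, h, if_true]
      congr 1
      apply Fin.ext
      have := (ZMod.natCast_eq_zero_iff (b : ℕ) p).mp h
      exact (Nat.eq_zero_of_dvd_of_lt this b.2).symm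
    · have hne : ((((-(((b : ℕ) : ZMod p))⁻¹).val : ℕ)) : ZMod p) ≠ 0 := by
        rw [ZMod.natCast_zmod_val]; simpa using h
      simp only [sFun, h, if_false, hne]
      congr 1
      apply Fin.ext
      simp only [ZMod.natCast_zmod_val]
      rw [inv_neg, neg_neg, inv_inv, ZMod.val_cast_of_lt b.2]

/-- `S` permutes the branches. -/
theorem permutes_S : Permutes p ModularGroup.S := by
  refine ⟨⟨sFun p, sFun p, sFun_sFun p, sFun_sFun p⟩, fun i => ?_⟩
  change _ = yFun p (sFun p i) ∧ _ = uFun p (sFun p i)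
  have hp : (p : ℂ) ≠ 0 := Nat.cast_ne_zero.mpr (NeZero.ne p)
  have hz : ∀ z : ℍ, (z : ℂ) ≠ 0 := fun z => z.ne_zero
  have hdisc : ∀ z : ℍ, Δ z ≠ 0 := discriminant_ne_zero
  cases i with
  | none =>
    have hc : ∀ z : ℍ, affH (posN p) 0 (ModularGroup.S • z)
        = ModularGroup.S • affH (posInv p) (((0 : ℕ) : ℝ) / p) z := fun z => by
      apply UpperHalfPlane.ext
      simp only [coe_affH, coe_S_smul, posN, posInv]
      push_cast
      field_simp [hz z]
      simp
    refine ⟨funext fun z => ?_, funext fun z => ?_⟩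
    · simp only [compSL_apply, yFun, comp_apply, sFun, hc, jA_smul]
    · simp only [compSL_apply, uFun, sFun, hc, discriminant_S_smul]
      simp only [coe_affH, posInv]
      push_cast
      field_simp [hz z, hdisc z]
      ring
  | some b =>
    by_cases h : ((b : ℕ) : ZMod p) = 0
    · have hb : (b : ℕ) = 0 := Nat.eq_zero_of_dvd_of_lt
        ((ZMod.natCast_eq_zero_iff (b : ℕ) p).mp h) b.2
      have hc : ∀ z : ℍ, affH (posInv p) (((b : ℕ) : ℝ) / p) (ModularGroup.S • z)
          = ModularGroup.S • affH (posN p) 0 z := fun z => by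
        apply UpperHalfPlane.ext
        simp only [coe_affH, coe_S_smul, posN, posInv, hb]
        push_cast
        field_simp [hz z]
        simp
      simp only [sFun, h, if_true]
      refine ⟨funext fun z => ?_, funext fun z => ?_⟩
      · simp only [compSL_apply, yFun, comp_apply, hc, jA_smul]
      · simp only [compSL_apply, uFun, hc, discriminant_S_smul]
        simp only [coe_affH, posN]
        push_cast
        field_simp [hz z, hdisc z]
        ring
    -- for `b ≠ 0` a matrix of `SL(2, ℤ)` carries the branch `-1/b` to the branch `b`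
    · simp only [sFun, h, if_false]
      set b' : ℕ := (-(((b : ℕ) : ZMod p))⁻¹).val with hb'
      have hdvd : (p : ℤ) ∣ ((b : ℕ) : ℤ) * (b' : ℤ) + 1 := by
        rw [← ZMod.intCast_zmod_eq_zero_iff_dvd]
        push_cast [hb', ZMod.natCast_zmod_val]
        rw [mul_neg, mul_inv_cancel₀ h, neg_add_cancel]
      obtain ⟨e, he⟩ := hdvd
      let γ : SL(2, ℤ) := ⟨!![((b : ℕ) : ℤ), -e; (p : ℤ), -(b' : ℤ)], by
        rw [Matrix.det_fin_two_of]; linear_combination (-1 : ℤ) * he⟩
      have hden : ∀ z : ℍ, denom γ (affH (posInv p) ((b' : ℝ) / p) z) = (z : ℂ) := fun z => by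
        rw [ModularGroup.denom_apply]
        simp [γ, coe_affH, posInv]
        field_simp
        ring
      have hc : ∀ z : ℍ, affH (posInv p) (((b : ℕ) : ℝ) / p) (ModularGroup.S • z)
          = γ • affH (posInv p) ((b' : ℝ) / p) z := fun z => by
        apply UpperHalfPlane.ext
        rw [coe_sl_smul]
        have hd := hden z
        rw [ModularGroup.denom_apply] at hd
        rw [hd]
        simp only [γ, coe_affH, coe_S_smul, posInv, Matrix.of_apply, Matrix.cons_val',
          Matrix.cons_val_zero, Matrix.cons_val_one, Matrix.empty_val', Matrix.cons_val_fin_one]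
        push_cast
        have he' : ((b : ℕ) : ℂ) * (b' : ℂ) + 1 = (p : ℂ) * (e : ℂ) := by exact_mod_cast he
        field_simp [hz z]
        linear_combination -he'
      refine ⟨funext fun z => ?_, funext fun z => ?_⟩
      · simp only [compSL_apply, yFun, comp_apply, hc, jA_smul]
        rfl
      · simp only [compSL_apply, uFun, hc]
        rw [discriminant_smul γ, hden, discriminant_S_smul]
        rw [mul_inv, ← mul_assoc, mul_comm ((z : ℂ) ^ (12 : ℤ)), mul_assoc (Δ _),
          mul_inv_cancel₀ (zpow_ne_zero _ (hz z)), mul_one]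

/-- The modular group permutes the branches. -/
theorem permutes (γ : SL(2, ℤ)) : Permutes p γ := by
  have hγ : γ ∈ Subgroup.closure {ModularGroup.S, ModularGroup.T} := by
    simp [SpecialLinearGroup.SL2Z_generators]
  induction hγ using Subgroup.closure_induction with
  | mem x hx =>
    rcases hx with rfl | hx
    · exact permutes_S p
    · rw [Set.mem_singleton_iff] at hx; subst hx; exact permutes_T p
  | one => exact ⟨Equiv.refl _, fun i => ⟨funext fun z => by simp [compSL_apply],
      funext fun z => by simp [compSL_apply]⟩⟩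
  | mul x y _ _ hx hy =>
    obtain ⟨σ, hσ⟩ := hx
    obtain ⟨τ, hτ⟩ := hy
    exact ⟨σ.trans τ, fun i => ⟨by rw [compSL_mul, (hσ i).1, (hτ _).1]; rfl,
      by rw [compSL_mul, (hσ i).2, (hτ _).2]; rfl⟩⟩
  | inv x _ hx =>
    obtain ⟨σ, hσ⟩ := hx
    refine ⟨σ.symm, fun i => ?_⟩
    obtain ⟨j, rfl⟩ := σ.surjective i
    rw [← (hσ j).1, ← (hσ j).2, ← compSL_mul, ← compSL_mul, mul_inv_cancel, σ.symm_apply_apply]
    exact ⟨funext fun z => by simp [compSL_apply], funext fun z => by simp [compSL_apply]⟩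

end Branches

end Fermat.RED
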