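import Fermat.Agent.RED.Degree

/-!
# `j(q^M)` generates the level field

The `ψ(M)` values `valAt` indexed by `P¹(ℤ/M)` are distinct conjugates of `j(q^M)`, so this series
has degree `ψ(M)` over `k(j)` and generates the level field. Used by `RED/FullField` and
`RED/Model`.
-/

set_option autoImplicit false

noncomputable section

open ModularCurve Polynomial IntermediateField

namespace Fermat.RED

section Generic

variable {J L : Type*} [Field J] [Field L] [Algebra J L]

/-- The degree of an element is at most that of the field. -/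
theorem natDegree_minpoly_le_finrank (F : IntermediateField J L) (hfin : 0 < Module.finrank J F)
    (x : F) : (minpoly J x).natDegree ≤ Module.finrank J F := by
  have : Module.Finite J F := Module.finite_of_finrank_pos hfin
  exact minpoly.natDegree_le x

/-- An element of full degree generates. -/
theorem adjoin_eq_top_of_natDegree (F : IntermediateField J L) (hfin : 0 < Module.finrank J F)
    (x : F) (h : (minpoly J x).natDegree = Module.finrank J F) : J⟮x⟯ = ⊤ := by
  have : Module.Finite J F := Module.finite_of_finrank_pos hfin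
  exact IntermediateField.eq_of_le_of_finrank_eq le_top (by
    rw [IntermediateField.adjoin.finrank (IsIntegral.of_finite _ _), h,
      IntermediateField.finrank_top'])

end Generic

/-- Representatives `(a, b)` of the points of `P¹(ℤ/M)`. -/
def valIndex (M : ℕ) : Finset (Σ _ : ℕ, ℕ) :=
  M.divisors.sigma fun a => (Finset.range (M / a)).filter fun b => (Nat.gcd a (M / a)).Coprime b

/-- Membership in `valIndex`. -/
theorem mem_valIndex {M : ℕ} {i : Σ _ : ℕ, ℕ} :
    i ∈ valIndex M ↔ (i.1 ∣ M ∧ M ≠ 0) ∧ i.2 < M / i.1 ∧ (Nat.gcd i.1 (M / i.1)).Coprime i.2 := by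
  simp [valIndex]

/-- `g t` consecutive integers contain `t φ(g)` prime to `g`. -/
theorem card_filter_coprime_range_mul (g t : ℕ) :
    ((Finset.range (g * t)).filter fun b => g.Coprime b).card = t * Nat.totient g := by
  induction t with
  | zero => simp
  | succ t ih =>
    rw [Finset.range_eq_Ico, ← Finset.Ico_union_Ico_eq_Ico (Nat.zero_le (g * t))
        (Nat.mul_le_mul_left g t.le_succ), Finset.filter_union, Finset.card_union_of_disjoint,
      ← Finset.range_eq_Ico, ih, Nat.mul_succ, Nat.filter_coprime_Ico_eq_totient, Nat.succ_mul]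
    exact Finset.disjoint_filter_filter (Finset.Ico_disjoint_Ico_consecutive _ _ _)

/-- There are `ψ(M)` indices. -/
theorem card_valIndex (M : ℕ) : (valIndex M).card = dedekindPsi M := by
  rw [← Fermat.MF.projLineSum_eq_dedekindPsi, valIndex, Finset.card_sigma, Fermat.MF.projLineSum]
  refine Finset.sum_congr rfl fun a _ => ?_
  obtain ⟨t, ht⟩ := Nat.gcd_dvd_right a (M / a)
  conv_lhs => rw [show Finset.range (M / a) = Finset.range (Nat.gcd a (M / a) * t) by rw [← ht]]
  rw [card_filter_coprime_range_mul]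
  rcases Nat.eq_zero_or_pos (Nat.gcd a (M / a)) with hg | hg
  · simp [hg]
  · conv_rhs => rw [show M / a / Nat.gcd a (M / a) = t from
      Nat.div_eq_of_eq_mul_right hg ht]

variable {k : Type*} [Field k]

/-- The value attached to an index. -/
def valAt (ξ : kˣ) (M : ℕ) (i : Σ _ : ℕ, ℕ) : LaurentSeries k := val k ξ M M i.1 i.2

/-- The value attached to an index as a branch. -/
theorem valAt_eq (ξ : kˣ) {M : ℕ} [NeZero M] (i : Σ _ : ℕ, ℕ) :
    valAt ξ M i = jb k (ξ ^ (i.1 * i.2)) (i.1 * i.1) := by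
  simp [valAt, val, Nat.div_self (Nat.pos_of_neZero M)]

/-- Equal powers `ξ^(a b)` determine `b` modulo `M / a`. -/
theorem modEq_div_of_pow_eq {ξ : kˣ} {M : ℕ} [NeZero M] (hξ : IsPrimitiveRoot ξ M) {a b b' : ℕ}
    (ha : a ∣ M) (h : ξ ^ (a * b) = ξ ^ (a * b')) : b ≡ b' [MOD M / a] := by
  rw [pow_eq_pow_iff_modEq, ← hξ.eq_orderOf] at h
  obtain ⟨c, rfl⟩ := ha
  have ha0 : 0 < a := Nat.pos_of_ne_zero fun h0 => NeZero.ne (a * c) (by rw [h0, zero_mul])
  rw [Nat.mul_div_cancel_left _ ha0]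
  exact Nat.ModEq.mul_left_cancel' ha0.ne' h

/-- The values at the indices are distinct. -/
theorem valAt_injOn {ξ : kˣ} {M : ℕ} [NeZero M] (hξ : IsPrimitiveRoot ξ M) :
    Set.InjOn (valAt ξ M) (valIndex M) := by
  rintro ⟨a, b⟩ hi ⟨a', b'⟩ hi' h
  rw [Finset.mem_coe, mem_valIndex] at hi hi'
  simp only at hi hi'
  have ha : a ≠ 0 := fun h0 => hi.1.2 (Nat.eq_zero_of_zero_dvd (h0 ▸ hi.1.1))
  have ha' : a' ≠ 0 := fun h0 => hi.1.2 (Nat.eq_zero_of_zero_dvd (h0 ▸ hi'.1.1))
  have : NeZero (a * a) := ⟨mul_ne_zero ha ha⟩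
  have : NeZero (a' * a') := ⟨mul_ne_zero ha' ha'⟩
  rw [valAt_eq, valAt_eq] at h
  obtain ⟨hc, he⟩ := jb_inj h
  obtain rfl : a = a' := Nat.mul_self_inj.mp he
  obtain rfl : b = b' := (modEq_div_of_pow_eq hξ hi.1.1 hc).eq_of_lt_of_lt hi.2.1 hi'.2.1
  rfl

variable [IsAlgClosed k]

/-- Every listed value is the image of `j (q ^ M)` under an embedding. -/
theorem exists_algHom_valAt {ξ : kˣ} {M : ℕ} [NeZero M] (hξ : IsPrimitiveRoot ξ M)
    (hM : (M : k) ≠ 0) {i : Σ _ : ℕ, ℕ} (hi : i ∈ valIndex M) :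
    ∃ φ : levelField k M →ₐ[jField k] Branch k M,
      φ (jE k M M dvd_rfl) = inc k M (valAt ξ M i) := by
  obtain ⟨a, b⟩ := i
  rw [mem_valIndex] at hi
  simp only at hi
  obtain ⟨M', g, hM', hg, φ, hφ⟩ := exists_algHom_of_val hξ M dvd_rfl hM
    (fun M' _ h => finrank_levelField M' h) a b hi.1.1
  obtain ⟨a', b', ha', hab⟩ := exists_val_of_algHom hξ M' ⟨g * g, by rw [hg]; ring⟩ φ
  have hdiv : M / M' = g * g := by
    rw [hg]; exact Nat.mul_div_cancel _ (Nat.pos_of_neZero M')
  have hg0 : g ≠ 0 := fun h => NeZero.ne M (by rw [hg, h, mul_zero, zero_mul])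
  have ha0 : a ≠ 0 := fun h => NeZero.ne M (Nat.eq_zero_of_zero_dvd (h ▸ hi.1.1))
  have ha'0 : a' ≠ 0 := fun h => NeZero.ne M' (Nat.eq_zero_of_zero_dvd (h ▸ ha'))
  have : NeZero (a * a) := ⟨mul_ne_zero ha0 ha0⟩
  have : NeZero (a' * a' * (g * g)) := ⟨mul_ne_zero (mul_ne_zero ha'0 ha'0) (mul_ne_zero hg0 hg0)⟩
  have heq := inc_injective k M (hφ.symm.trans hab)
  rw [show val k ξ M M a b = valAt ξ M ⟨a, b⟩ from rfl, valAt_eq, val, hdiv] at heq
  -- comparing exponents and roots of unity forces `g = 1`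
  obtain ⟨hc, he⟩ := jb_inj heq
  obtain rfl : a = g * a' := Nat.mul_self_inj.mp (he.trans (by ring))
  simp only at hc
  rw [show g * g * (a' * b') = g * a' * (g * b') by ring] at hc
  have hb := modEq_div_of_pow_eq hξ hi.1.1 hc
  obtain ⟨d, hd⟩ := ha'
  have hq : M / (g * a') = g * d := by
    rw [hg, hd, show g * g * (a' * d) = g * d * (g * a') by ring]
    exact Nat.mul_div_cancel _ (Nat.pos_of_ne_zero ha0)
  rw [hq] at hb
  have hgb : g ∣ b := by
    have := hb.of_mul_right d
    exact (Nat.ModEq.dvd_iff this dvd_rfl).mpr (dvd_mul_right g b')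
  have hg1 : g = 1 := by
    have h1 : g ∣ Nat.gcd (g * a') (M / (g * a')) :=
      Nat.dvd_gcd (dvd_mul_right g a') (hq ▸ dvd_mul_right g d)
    exact Nat.dvd_one.mp (hi.2.2.gcd_eq_one ▸ Nat.dvd_gcd h1 hgb)
  subst hg1
  obtain rfl : M = M' := by rw [hg, one_mul, one_mul]
  exact ⟨φ, hφ⟩

/-- `j(q^M)` has degree `ψ(M)` over `k(j)`. -/
theorem natDegree_minpoly_jE {M : ℕ} [NeZero M] (hM : (M : k) ≠ 0) :
    (minpoly (jField k) (jE k M M dvd_rfl)).natDegree = dedekindPsi M := by
  classical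
  obtain ⟨ξ, hξ⟩ := exists_isPrimitiveRoot_unit k M hM
  have hfr := finrank_levelField (k := k) M hM
  have hpos : 0 < Module.finrank (jField k) (levelField k M) :=
    hfr ▸ dedekindPsi_pos (NeZero.ne M)
  have hint := isIntegral_of_finrank_pos _ hpos (jE k M M dvd_rfl)
  refine le_antisymm (hfr ▸ natDegree_minpoly_le_finrank _ hpos (jE k M M dvd_rfl)) ?_
  set P := (minpoly (jField k) (jE k M M dvd_rfl)).map (algebraMap (jField k) (Branch k M))
  have hsub : (valIndex M).image (fun i => inc k M (valAt ξ M i)) ⊆ P.roots.toFinset := by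
    intro z hz
    obtain ⟨i, hi, rfl⟩ := Finset.mem_image.mp hz
    obtain ⟨φ, hφ⟩ := exists_algHom_valAt hξ hM hi
    rw [Multiset.mem_toFinset, mem_roots (map_ne_zero (minpoly.ne_zero hint)), IsRoot.def,
      eval_map, ← aeval_def, ← hφ, aeval_algHom_apply, minpoly.aeval, map_zero]
  have h1 := Finset.card_le_card hsub
  rw [Finset.card_image_of_injOn (fun i hi j hj h => valAt_injOn hξ hi hj (inc_injective k M h)),
    card_valIndex] at h1
  exact h1.trans ((Multiset.toFinset_card_le _).trans ((card_roots' P).trans natDegree_map_le))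

/-- The level field is generated by `j(q^M)`. -/
theorem adjoin_jE_eq_top {M : ℕ} [NeZero M] (hM : (M : k) ≠ 0) :
    (jField k)⟮jE k M M dvd_rfl⟯ = ⊤ := by
  have hfr := finrank_levelField (k := k) M hM
  exact adjoin_eq_top_of_natDegree _ (hfr ▸ dedekindPsi_pos (NeZero.ne M)) _
    ((natDegree_minpoly_jE hM).trans hfr.symm)

end Fermat.RED
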